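/-
S16, package UB-L1 (helper1), part 1: pure power-series algebra.

For a commutative ring `K`, a subring `R` and an additive subgroup `L` stable under multiplication
by `R` (an `R`-submodule of `K`):

* `coeffSubring R` : the power series with all coefficients in `R` (a subring of `K⟦X⟧`);
* `CoeffsMem L P`, `CoeffsMemLE L M P` : all coefficients (resp. those of index `≤ M`) lie in `L`;
* the division lemmas for `P = (X * U) * H` with `U ∈ coeffSubring R`, `U(0) = 1`
  (`mem_coeffSubring_of_mul_X_mul`, `coeffsMemLE_of_mul_X_mul`, `coeffsMem_mul_of_right`);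
* triangular families (`coeffsMem_of_triangular`).
-/
import Mathlib

set_option autoImplicit false

namespace Fermat.Agent.S16

open PowerSeries

section PS

variable {K : Type*} [CommRing K]

/-- the power series all of whose coefficients lie in the subring `R`. -/
def coeffSubring (R : Subring K) : Subring (PowerSeries K) where
  carrier := {P | ∀ n, coeff n P ∈ R}
  mul_mem' := by
    intro P Q hP hQ n
    rw [coeff_mul]
    exact Subring.sum_mem _ fun x _ => R.mul_mem (hP _) (hQ _)
  one_mem' := by
    intro n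
    rw [coeff_one]
    split_ifs
    · exact R.one_mem
    · exact R.zero_mem
  add_mem' := by
    intro P Q hP hQ n
    rw [map_add]
    exact R.add_mem (hP _) (hQ _)
  zero_mem' := by
    intro n
    rw [map_zero]
    exact R.zero_mem
  neg_mem' := by
    intro P hP n
    rw [map_neg]
    exact R.neg_mem (hP _)

theorem mem_coeffSubring {R : Subring K} {P : PowerSeries K} :
    P ∈ coeffSubring R ↔ ∀ n, coeff n P ∈ R := Iff.rfl

theorem X_mem_coeffSubring (R : Subring K) : (X : PowerSeries K) ∈ coeffSubring R := by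
  intro n
  rw [coeff_X]
  split_ifs
  · exact R.one_mem
  · exact R.zero_mem

theorem C_mem_coeffSubring {R : Subring K} {r : K} (hr : r ∈ R) :
    (C r : PowerSeries K) ∈ coeffSubring R := by
  intro n
  rw [coeff_C]
  split_ifs
  · exact hr
  · exact R.zero_mem

theorem smul_mem_coeffSubring {R : Subring K} {r : K} (hr : r ∈ R) {P : PowerSeries K}
    (hP : P ∈ coeffSubring R) : r • P ∈ coeffSubring R := by
  intro n
  rw [coeff_smul, smul_eq_mul]
  exact R.mul_mem hr (hP n)

theorem map_intCast_mem_coeffSubring (R : Subring K) (P : PowerSeries ℤ) :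
    P.map (Int.castRingHom K) ∈ coeffSubring R := by
  intro n
  rw [coeff_map]
  exact intCast_mem R _

/-- a power series with coefficients in `R` comes from a power series over `R`. -/
theorem exists_map_subtype_eq {R : Subring K} {P : PowerSeries K} (hP : P ∈ coeffSubring R) :
    ∃ P' : PowerSeries R, P'.map R.subtype = P :=
  ⟨PowerSeries.mk fun n => ⟨coeff n P, hP n⟩, by
    ext n
    rw [coeff_map, coeff_mk]
    rfl⟩

theorem map_subtype_mem_coeffSubring {R : Subring K} (P' : PowerSeries R) :
    P'.map R.subtype ∈ coeffSubring R := by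
  intro n
  rw [coeff_map]
  exact (coeff n P').2

/-- a power series with coefficients in `R` and constant coefficient `1` has an inverse with
coefficients in `R`. -/
theorem exists_inv_mem_coeffSubring {R : Subring K} {U : PowerSeries K} (hU : U ∈ coeffSubring R)
    (hU0 : constantCoeff U = 1) : ∃ V ∈ coeffSubring R, U * V = 1 := by
  obtain ⟨U', rfl⟩ := exists_map_subtype_eq hU
  have h0 : constantCoeff U' = 1 := by
    apply Subtype.ext
    have := hU0
    rw [← coeff_zero_eq_constantCoeff_apply, coeff_map, coeff_zero_eq_constantCoeff_apply] at this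
    exact this
  have hunit : IsUnit U' := by
    rw [PowerSeries.isUnit_iff_constantCoeff, h0]
    exact isUnit_one
  obtain ⟨V', hV'⟩ := hunit.exists_right_inv
  refine ⟨V'.map R.subtype, map_subtype_mem_coeffSubring V', ?_⟩
  rw [← map_mul, hV', map_one]

variable (L : AddSubgroup K)

/-- all coefficients lie in `L`. -/
def CoeffsMem (P : PowerSeries K) : Prop := ∀ n, coeff n P ∈ L

/-- the coefficients of index `≤ M` lie in `L`. -/
def CoeffsMemLE (M : ℕ) (P : PowerSeries K) : Prop := ∀ n, n ≤ M → coeff n P ∈ L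

variable {L}

theorem coeffsMem_iff_forall_LE {P : PowerSeries K} :
    CoeffsMem L P ↔ ∀ M, CoeffsMemLE L M P :=
  ⟨fun h _ n _ => h n, fun h n => h n n le_rfl⟩

theorem CoeffsMem.coeffsMemLE {P : PowerSeries K} (h : CoeffsMem L P) (M : ℕ) :
    CoeffsMemLE L M P := fun n _ => h n

theorem CoeffsMemLE.mono {P : PowerSeries K} {M M' : ℕ} (h : CoeffsMemLE L M P)
    (hM : M' ≤ M) : CoeffsMemLE L M' P := fun n hn => h n (hn.trans hM)

theorem coeffsMem_zero : CoeffsMem L (0 : PowerSeries K) := fun n => by
  rw [map_zero]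
  exact L.zero_mem

theorem coeffsMemLE_zero (M : ℕ) : CoeffsMemLE L M (0 : PowerSeries K) :=
  coeffsMem_zero.coeffsMemLE M

theorem CoeffsMem.add {P Q : PowerSeries K} (hP : CoeffsMem L P) (hQ : CoeffsMem L Q) :
    CoeffsMem L (P + Q) := fun n => by
  rw [map_add]
  exact L.add_mem (hP n) (hQ n)

theorem CoeffsMem.sub {P Q : PowerSeries K} (hP : CoeffsMem L P) (hQ : CoeffsMem L Q) :
    CoeffsMem L (P - Q) := fun n => by
  rw [map_sub]
  exact L.sub_mem (hP n) (hQ n)

theorem CoeffsMem.neg {P : PowerSeries K} (hP : CoeffsMem L P) : CoeffsMem L (-P) := fun n => by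
  rw [map_neg]
  exact L.neg_mem (hP n)

theorem CoeffsMemLE.add {M : ℕ} {P Q : PowerSeries K} (hP : CoeffsMemLE L M P)
    (hQ : CoeffsMemLE L M Q) : CoeffsMemLE L M (P + Q) := fun n hn => by
  rw [map_add]
  exact L.add_mem (hP n hn) (hQ n hn)

theorem CoeffsMemLE.sub {M : ℕ} {P Q : PowerSeries K} (hP : CoeffsMemLE L M P)
    (hQ : CoeffsMemLE L M Q) : CoeffsMemLE L M (P - Q) := fun n hn => by
  rw [map_sub]
  exact L.sub_mem (hP n hn) (hQ n hn)

theorem coeffsMem_sum {ι : Type*} (s : Finset ι) (P : ι → PowerSeries K)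
    (h : ∀ i ∈ s, CoeffsMem L (P i)) : CoeffsMem L (∑ i ∈ s, P i) := fun n => by
  rw [map_sum]
  exact L.sum_mem fun i hi => h i hi n

variable {R : Subring K}

/-- `L` is stable under multiplication by `R`. -/
def StableUnder (R : Subring K) (L : AddSubgroup K) : Prop := ∀ r ∈ R, ∀ x ∈ L, r * x ∈ L

theorem CoeffsMemLE.mul_left (hRL : StableUnder R L) {M : ℕ} {P Q : PowerSeries K}
    (hP : P ∈ coeffSubring R) (hQ : CoeffsMemLE L M Q) : CoeffsMemLE L M (P * Q) := by
  intro n hn
  rw [coeff_mul]
  refine L.sum_mem fun x hx => hRL _ (hP _) _ (hQ _ ?_)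
  have := Finset.HasAntidiagonal.mem_antidiagonal.1 hx
  omega

theorem CoeffsMem.mul_left (hRL : StableUnder R L) {P Q : PowerSeries K}
    (hP : P ∈ coeffSubring R) (hQ : CoeffsMem L Q) : CoeffsMem L (P * Q) :=
  coeffsMem_iff_forall_LE.2 fun M => (hQ.coeffsMemLE M).mul_left hRL hP

theorem CoeffsMem.mul_right (hRL : StableUnder R L) {P Q : PowerSeries K}
    (hP : CoeffsMem L P) (hQ : Q ∈ coeffSubring R) : CoeffsMem L (P * Q) := by
  rw [mul_comm]
  exact hP.mul_left hRL hQ

theorem CoeffsMemLE.mul_right (hRL : StableUnder R L) {M : ℕ} {P Q : PowerSeries K}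
    (hP : CoeffsMemLE L M P) (hQ : Q ∈ coeffSubring R) : CoeffsMemLE L M (P * Q) := by
  rw [mul_comm]
  exact hP.mul_left hRL hQ

theorem CoeffsMem.smul_of_mem (hRL : StableUnder R L) {r : K} (hr : r ∈ R) {P : PowerSeries K}
    (hP : CoeffsMem L P) : CoeffsMem L (r • P) := fun n => by
  rw [coeff_smul, smul_eq_mul]
  exact hRL r hr _ (hP n)

/-- `x • P` has coefficients in `L` when `x ∈ L` and `P` has coefficients in `R`. -/
theorem coeffsMem_smul_of_mem (hRL : StableUnder R L) {x : K} (hx : x ∈ L) {P : PowerSeries K}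
    (hP : P ∈ coeffSubring R) : CoeffsMem L (x • P) := fun n => by
  rw [coeff_smul, smul_eq_mul, mul_comm]
  exact hRL _ (hP n) x hx

/-! ### division by `X * U` -/

variable {U P H : PowerSeries K}

/-- if `P = (X * U) * H` then `U * H` is `P` shifted by one. -/
theorem coeff_mul_of_eq_X_mul (hP : P = (X * U) * H) (n : ℕ) :
    coeff n (U * H) = coeff (n + 1) P := by
  rw [hP, mul_assoc, coeff_succ_X_mul]

theorem mem_coeffSubring_of_mul_X_mul (hU : U ∈ coeffSubring R) (hU0 : constantCoeff U = 1)
    (hP : P = (X * U) * H) (hPR : P ∈ coeffSubring R) : H ∈ coeffSubring R := by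
  obtain ⟨V, hV, hUV⟩ := exists_inv_mem_coeffSubring hU hU0
  have hQ : U * H ∈ coeffSubring R := fun n => by
    rw [coeff_mul_of_eq_X_mul hP]
    exact hPR _
  have : H = V * (U * H) := by
    rw [← mul_assoc, mul_comm V U, hUV, one_mul]
  rw [this]
  exact (coeffSubring R).mul_mem hV hQ

theorem coeffsMemLE_of_mul_X_mul (hRL : StableUnder R L) (hU : U ∈ coeffSubring R)
    (hU0 : constantCoeff U = 1) (hP : P = (X * U) * H) {M : ℕ}
    (hPL : CoeffsMemLE L (M + 1) P) : CoeffsMemLE L M H := by
  obtain ⟨V, hV, hUV⟩ := exists_inv_mem_coeffSubring hU hU0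
  have hQ : CoeffsMemLE L M (U * H) := fun n hn => by
    rw [coeff_mul_of_eq_X_mul hP]
    exact hPL _ (by omega)
  have : H = V * (U * H) := by
    rw [← mul_assoc, mul_comm V U, hUV, one_mul]
  rw [this]
  exact hQ.mul_left hRL hV

theorem coeffsMem_mul_of_right (hRL : StableUnder R L) (hU : U ∈ coeffSubring R)
    (hP : P = (X * U) * H) (hH : CoeffsMem L H) : CoeffsMem L P := by
  rw [hP]
  exact hH.mul_left hRL ((coeffSubring R).mul_mem (X_mem_coeffSubring R) hU)

/-! ### triangular families -/

/-- **triangularity**: if `B c = X ^ c * (1 + …)` with coefficients in `R` and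
`∑_{c ≤ m} r c • B c` has all coefficients of index `≤ m` in `L` (`r c ∈ R`), then every
`r c ∈ L`. -/
theorem mem_of_triangular (hRL : StableUnder R L) (B : ℕ → PowerSeries K)
    (hB : ∀ c, B c ∈ coeffSubring R) (hB0 : ∀ c n, n < c → coeff n (B c) = 0)
    (hB1 : ∀ c, coeff c (B c) = 1) (r : ℕ → K) (m : ℕ)
    (h : CoeffsMemLE L m (∑ c ∈ Finset.range (m + 1), r c • B c)) :
    ∀ c, c ≤ m → r c ∈ L := by
  intro c
  induction c using Nat.strong_induction_on with
  | _ c ih =>
    intro hc
    have h1 := h c hc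
    rw [map_sum] at h1
    have hsplit : ∑ i ∈ Finset.range (m + 1), coeff c (r i • B i) =
        r c + ∑ i ∈ Finset.range c, r i * coeff c (B i) := by
      have hsub : Finset.range (c + 1) ⊆ Finset.range (m + 1) :=
        Finset.range_subset_range.2 (by omega)
      rw [← Finset.sum_subset hsub, Finset.sum_range_succ, add_comm]
      · simp only [coeff_smul, smul_eq_mul, hB1, mul_one]
      · intro i _ hi
        rw [Finset.mem_range, not_lt] at hi
        rw [coeff_smul, hB0 i c (by omega), smul_zero]
    rw [hsplit] at h1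
    have h2 : ∑ i ∈ Finset.range c, r i * coeff c (B i) ∈ L := by
      refine L.sum_mem fun i hi => ?_
      rw [Finset.mem_range] at hi
      rw [mul_comm]
      exact hRL _ (hB i c) _ (ih i hi (by omega))
    have := L.sub_mem h1 h2
    rwa [add_sub_cancel_right] at this

end PS

end Fermat.Agent.S16
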