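/-
S16, package UB-L1 (helper1), part 2: the integral structure of level-one modular forms.

* `e4PS`, `e6PS`, `deltaPS` : the `q`-expansions of `E₄`, `E₆`, `Δ`; integrality
  (`e4PS_eq`, `e6PS_eq`, `deltaPS_eq`), `e4PS ^ 3 - e6PS ^ 2 = C 1728 * deltaPS`;
* `gPS k = e4PS ^ a * e6PS ^ b` (`4a + 6b = k`, `b ≤ 1`), `basisPS k c = deltaPS ^ c * gPS (k - 12c)`;
* `exists_step` : `f = a₀(f) • G_k + Δ · h`, `h` of weight `k - 12`;
* **`sturmL`**, `sturm_mod_nat` : Sturm's bound in level one modulo an `R`-submodule `L ⊆ ℂ`;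
* `exists_basis_expansion`, `basis_coeff_mem` : the triangular basis.
-/
import Fermat.Agent.S16.L1_helper1_PS
import Fermat.Agent.Igusa.A_helper2_Gens

set_option autoImplicit false

namespace Fermat.Agent.S16

open PowerSeries UpperHalfPlane ModularForm ModularFormClass MatrixGroups EisensteinSeries
open scoped ArithmeticFunction.sigma

/-- the `q`-expansion of `E₄`. -/
noncomputable def e4PS : PowerSeries ℂ := qExpansion 1 E₄

/-- the `q`-expansion of `E₆`. -/
noncomputable def e6PS : PowerSeries ℂ := qExpansion 1 E₆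

/-- the `q`-expansion of `Δ`. -/
noncomputable def deltaPS : PowerSeries ℂ := qExpansion 1 ModularForm.discriminant

/-- `∑ σ_r(n) qⁿ`. -/
noncomputable def sigmaPS (r : ℕ) : PowerSeries ℂ :=
  PowerSeries.mk fun n => ((ArithmeticFunction.sigma r n : ℕ) : ℂ)

theorem coeff_sigmaPS (r n : ℕ) :
    coeff n (sigmaPS r) = ((ArithmeticFunction.sigma r n : ℕ) : ℂ) := coeff_mk _ _

theorem coeff_e4PS (n : ℕ) :
    coeff n e4PS = if n = 0 then 1 else 240 * ((ArithmeticFunction.sigma 3 n : ℕ) : ℂ) := by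
  rw [e4PS, E_qExpansion_coeff _ ⟨2, rfl⟩]
  split_ifs
  · rfl
  · norm_num [show bernoulli 4 = -1 / 30 by decide +kernel]

theorem coeff_e6PS (n : ℕ) :
    coeff n e6PS = if n = 0 then 1 else -504 * ((ArithmeticFunction.sigma 5 n : ℕ) : ℂ) := by
  rw [e6PS, E_qExpansion_coeff _ ⟨3, rfl⟩]
  split_ifs
  · rfl
  · norm_num [show bernoulli 6 = 1 / 42 by decide +kernel]

theorem e4PS_eq : e4PS = 1 + C (240 : ℂ) * sigmaPS 3 := by
  ext n
  rw [coeff_e4PS, map_add, coeff_one, coeff_C_mul, coeff_sigmaPS]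
  split_ifs with h
  · subst h
    simp
  · simp

theorem e6PS_eq : e6PS = 1 - C (504 : ℂ) * sigmaPS 5 := by
  ext n
  rw [coeff_e6PS, map_sub, coeff_one, coeff_C_mul, coeff_sigmaPS]
  split_ifs with h
  · subst h
    simp
  · simp

/-- **integrality of `Δ`**: `Δ = q ∏ (1 - qⁿ)²⁴`. -/
theorem deltaPS_eq :
    deltaPS = X * ModularCurve.dedekindEtaUnit.map (Int.castRingHom ℂ) := by
  have h1 := Fermat.Agent.RatStr.laurent_of_modularForm (CuspForm.discriminant) one_pos
    one_mem_strictPeriods_SL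
  have h2 := Fermat.Agent.Igusa.laurent_discriminant
  rw [CuspForm.coe_discriminant] at h1
  rw [h1, Fermat.Agent.Igusa.deltaSer, Fermat.Agent.Igusa.etaUnitSer] at h2
  apply HahnSeries.ofPowerSeries_injective (Γ := ℤ)
  rw [deltaPS, h2, map_mul, HahnSeries.ofPowerSeries_X]

theorem e4PS_mem (R : Subring ℂ) : e4PS ∈ coeffSubring R := by
  intro n
  rw [coeff_e4PS]
  split_ifs
  · exact R.one_mem
  · exact R.mul_mem (by exact_mod_cast natCast_mem R 240) (natCast_mem R _)

theorem e6PS_mem (R : Subring ℂ) : e6PS ∈ coeffSubring R := by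
  intro n
  rw [coeff_e6PS]
  split_ifs
  · exact R.one_mem
  · exact R.mul_mem (by exact_mod_cast intCast_mem R (-504)) (natCast_mem R _)

theorem constantCoeff_e4PS : constantCoeff e4PS = 1 := by
  rw [← coeff_zero_eq_constantCoeff_apply, coeff_e4PS, if_pos rfl]

theorem constantCoeff_e6PS : constantCoeff e6PS = 1 := by
  rw [← coeff_zero_eq_constantCoeff_apply, coeff_e6PS, if_pos rfl]

/-- the unit part of `Δ`. -/
noncomputable def etaUnitPS : PowerSeries ℂ :=
  ModularCurve.dedekindEtaUnit.map (Int.castRingHom ℂ)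

theorem deltaPS_eq_X_mul : deltaPS = X * etaUnitPS := deltaPS_eq

theorem etaUnitPS_mem (R : Subring ℂ) : etaUnitPS ∈ coeffSubring R :=
  map_intCast_mem_coeffSubring R _

theorem constantCoeff_etaUnitPS : constantCoeff etaUnitPS = 1 := by
  rw [etaUnitPS, ← coeff_zero_eq_constantCoeff_apply, coeff_map,
    coeff_zero_eq_constantCoeff_apply, ModularCurve.constantCoeff_dedekindEtaUnit]
  simp

theorem deltaPS_mem (R : Subring ℂ) : deltaPS ∈ coeffSubring R := by
  rw [deltaPS_eq_X_mul]
  exact (coeffSubring R).mul_mem (X_mem_coeffSubring R) (etaUnitPS_mem R)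

theorem coeff_deltaPS_zero : coeff 0 deltaPS = 0 := by
  rw [deltaPS_eq_X_mul, coeff_zero_X_mul]

theorem coeff_deltaPS_one : coeff 1 deltaPS = 1 := by
  rw [deltaPS_eq_X_mul, coeff_succ_X_mul, coeff_zero_eq_constantCoeff_apply,
    constantCoeff_etaUnitPS]

/-- `E₄³ − E₆² = 1728 Δ` on `q`-expansions. -/
theorem e4PS_cube_sub_e6PS_sq : e4PS ^ 3 - e6PS ^ 2 = C (1728 : ℂ) * deltaPS := by
  have h1 : (ModularForm.discriminant : ℍ → ℂ) =
      (1 / 1728 : ℂ) • (⇑(mcast (by decide) (E₄.pow 3) : ModularForm 𝒮ℒ 12) -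
        ⇑(mcast (by decide) (E₆.pow 2) : ModularForm 𝒮ℒ 12)) := by
    funext z
    rw [discriminant_eq_E₄_cube_sub_E₆_sq z]
    simp only [coe_mcast, Pi.smul_apply, Pi.sub_apply, smul_eq_mul, ModularForm.coe_pow,
      Pi.pow_apply]
    ring
  have h2 : deltaPS = (1 / 1728 : ℂ) • (e4PS ^ 3 - e6PS ^ 2) := by
    rw [deltaPS, h1, ← FunLike.coe_sub,
      ModularForm.qExpansion_smul one_pos one_mem_strictPeriods_SL, FunLike.coe_sub,
      ModularForm.qExpansion_sub one_pos one_mem_strictPeriods_SL, coe_mcast, coe_mcast,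
      ModularForm.qExpansion_pow one_pos one_mem_strictPeriods_SL,
      ModularForm.qExpansion_pow one_pos one_mem_strictPeriods_SL, e4PS, e6PS]
  rw [h2, ← smul_eq_C_mul, smul_smul]
  norm_num

/-! ### the forms `G_k = E₄^a E₆^b` -/

/-- the exponent of `E₆` in `G_k`. -/
def gB (k : ℕ) : ℕ := k % 4 / 2

/-- the exponent of `E₄` in `G_k`. -/
def gA (k : ℕ) : ℕ := (k - 6 * gB k) / 4

theorem gA_gB_eq {k : ℕ} (hk : Even k) (hk2 : k ≠ 2) : gA k * 4 + gB k * 6 = k := by
  obtain ⟨m, rfl⟩ := hk
  unfold gA gB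
  omega

/-- the `q`-expansion of `G_k`. -/
noncomputable def gPS (k : ℕ) : PowerSeries ℂ := e4PS ^ gA k * e6PS ^ gB k

theorem gPS_mem (R : Subring ℂ) (k : ℕ) : gPS k ∈ coeffSubring R :=
  (coeffSubring R).mul_mem ((coeffSubring R).pow_mem (e4PS_mem R) _)
    ((coeffSubring R).pow_mem (e6PS_mem R) _)

theorem constantCoeff_gPS (k : ℕ) : constantCoeff (gPS k) = 1 := by
  rw [gPS, map_mul, map_pow, map_pow, constantCoeff_e4PS, constantCoeff_e6PS, one_pow, one_pow,
    one_mul]

/-- `G_k` as a modular form of weight `k`. -/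
noncomputable def gForm {k : ℕ} (hk : Even k) (hk2 : k ≠ 2) : ModularForm 𝒮ℒ (k : ℤ) :=
  mcast (by exact_mod_cast gA_gB_eq hk hk2) ((E₄.pow (gA k)).mul (E₆.pow (gB k)))

theorem qExpansion_gForm {k : ℕ} (hk : Even k) (hk2 : k ≠ 2) :
    qExpansion 1 (gForm hk hk2) = gPS k := by
  rw [gForm, coe_mcast, ModularForm.qExpansion_mul one_pos one_mem_strictPeriods_SL,
    ModularForm.qExpansion_pow one_pos one_mem_strictPeriods_SL,
    ModularForm.qExpansion_pow one_pos one_mem_strictPeriods_SL, gPS, e4PS, e6PS]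

/-! ### the reduction step -/

theorem qExpansion_eq_zero_of_neg {k : ℤ} (hk : k < 0) (f : ModularForm 𝒮ℒ k) :
    qExpansion 1 f = 0 := by
  rw [rank_zero_iff_forall_zero.mp (levelOne_neg_weight_rank_zero hk) f]
  exact qExpansion_zero 1

theorem qExpansion_eq_zero_of_odd {k : ℤ} (hk : Odd k) (f : ModularForm 𝒮ℒ k) :
    qExpansion 1 f = 0 := by
  rw [levelOne_odd_weight_eq_zero hk f]
  exact qExpansion_zero 1

theorem qExpansion_eq_zero_of_two (f : ModularForm 𝒮ℒ 2) : qExpansion 1 f = 0 := by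
  rw [rank_zero_iff_forall_zero.mp levelOne_weight_two_rank_zero f]
  exact qExpansion_zero 1

/-- **the reduction step**: `f = a₀(f) G_k + Δ h` with `h` of weight `k − 12`. -/
theorem exists_step {k : ℕ} (hk : Even k) (hk2 : k ≠ 2) (f : ModularForm 𝒮ℒ (k : ℤ)) :
    ∃ h : ModularForm 𝒮ℒ ((k : ℤ) - 12),
      qExpansion 1 f = coeff 0 (qExpansion 1 f) • gPS k + deltaPS * qExpansion 1 h := by
  set a₀ := coeff 0 (qExpansion 1 f) with ha₀
  set g : ModularForm 𝒮ℒ (k : ℤ) := f - a₀ • gForm hk hk2 with hg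
  have hgq : qExpansion 1 g = qExpansion 1 f - a₀ • gPS k := by
    rw [hg, FunLike.coe_sub, ModularForm.qExpansion_sub one_pos one_mem_strictPeriods_SL,
      FunLike.coe_smul, ModularForm.qExpansion_smul one_pos one_mem_strictPeriods_SL,
      qExpansion_gForm]
  have hcusp : coeff 0 (qExpansion 1 g) = 0 := by
    rw [hgq, map_sub, coeff_smul, coeff_zero_eq_constantCoeff_apply (gPS k), constantCoeff_gPS,
      smul_eq_mul, mul_one, sub_self]
  refine ⟨CuspForm.discriminantEquiv (toCuspForm g hcusp), ?_⟩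
  have := qExpansion_eq_qExpansion_discriminant_mul g hcusp
  rw [hgq] at this
  rw [deltaPS, ← this]
  abel

/-! ### Sturm's bound modulo `L` -/

section Sturm

variable {R : Subring ℂ} {L : AddSubgroup ℂ}

/-- **Sturm's bound in level one, modulo an `R`-submodule `L` of `ℂ`** (natural weight): a form
with coefficients in `R` whose coefficients of index `≤ k / 12` lie in `L` has all its
coefficients in `L`. -/
theorem sturm_mod_nat (hRL : StableUnder R L) :
    ∀ (k : ℕ) (f : ModularForm 𝒮ℒ (k : ℤ)), qExpansion 1 f ∈ coeffSubring R →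
      CoeffsMemLE L (k / 12) (qExpansion 1 f) → CoeffsMem L (qExpansion 1 f) := by
  intro k
  induction k using Nat.strong_induction_on with
  | _ k ih =>
    intro f hfR hfL
    rcases Nat.even_or_odd k with hk | hk
    swap
    · rw [qExpansion_eq_zero_of_odd (by exact_mod_cast hk) f]
      exact coeffsMem_zero
    by_cases hk2 : k = 2
    · subst hk2
      rw [qExpansion_eq_zero_of_two f]
      exact coeffsMem_zero
    obtain ⟨h, hh⟩ := exists_step hk hk2 f
    have ha₀L : coeff 0 (qExpansion 1 f) ∈ L := hfL 0 (Nat.zero_le _)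
    have ha₀R : coeff 0 (qExpansion 1 f) ∈ R := hfR 0
    have h1 : CoeffsMem L (coeff 0 (qExpansion 1 f) • gPS k) :=
      coeffsMem_smul_of_mem hRL ha₀L (gPS_mem R k)
    have hP : deltaPS * qExpansion 1 h = (X * etaUnitPS) * qExpansion 1 h := by
      rw [deltaPS_eq_X_mul]
    suffices hsuff : CoeffsMem L (qExpansion 1 h) by
      rw [hh]
      exact h1.add (coeffsMem_mul_of_right hRL (etaUnitPS_mem R) hP hsuff)
    rcases lt_or_ge k 12 with hk12 | hk12
    · rw [qExpansion_eq_zero_of_neg (by omega) h]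
      exact coeffsMem_zero
    · have hD : deltaPS * qExpansion 1 h =
          qExpansion 1 f - coeff 0 (qExpansion 1 f) • gPS k := by
        rw [eq_sub_iff_add_eq']
        exact hh.symm
      have hPR : deltaPS * qExpansion 1 h ∈ coeffSubring R := by
        rw [hD]
        exact (coeffSubring R).sub_mem hfR (smul_mem_coeffSubring ha₀R (gPS_mem R k))
      have hPL : CoeffsMemLE L ((k - 12) / 12 + 1) (deltaPS * qExpansion 1 h) := by
        rw [hD]
        have hkk : (k - 12) / 12 + 1 = k / 12 := by omega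
        rw [hkk]
        exact hfL.sub (h1.coeffsMemLE _)
      have hhR := mem_coeffSubring_of_mul_X_mul (etaUnitPS_mem R) constantCoeff_etaUnitPS hP hPR
      have hhL := coeffsMemLE_of_mul_X_mul hRL (etaUnitPS_mem R) constantCoeff_etaUnitPS hP hPL
      have hcast : ((k : ℤ) - 12) = ((k - 12 : ℕ) : ℤ) := by omega
      have := ih (k - 12) (by omega) (mcast hcast h) (by rwa [coe_mcast]) (by rwa [coe_mcast])
      rwa [coe_mcast] at this

/-- **Sturm's bound in level one, modulo `L`** (integral weight). -/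
theorem sturmL (hRL : StableUnder R L) {k : ℤ} (f : ModularForm 𝒮ℒ k)
    (hfR : qExpansion 1 f ∈ coeffSubring R)
    (hfL : ∀ n : ℕ, 12 * (n : ℤ) ≤ k → coeff n (qExpansion 1 f) ∈ L) :
    CoeffsMem L (qExpansion 1 f) := by
  rcases lt_or_ge k 0 with hk | hk
  · rw [qExpansion_eq_zero_of_neg hk f]
    exact coeffsMem_zero
  · lift k to ℕ using hk
    refine sturm_mod_nat hRL k f hfR fun n hn => hfL n ?_
    have := Nat.div_mul_le_self k 12
    have : 12 * n ≤ k := by
      calc 12 * n ≤ 12 * (k / 12) := Nat.mul_le_mul_left _ hn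
        _ ≤ k := by omega
    exact_mod_cast this

end Sturm

/-! ### the triangular basis -/

section Basis

variable {R : Subring ℂ} {L : AddSubgroup ℂ}

/-- the triangular basis `Δ^c G_{k − 12c}` of the forms of weight `k`. -/
noncomputable def basisPS (k c : ℕ) : PowerSeries ℂ := deltaPS ^ c * gPS (k - 12 * c)

theorem basisPS_zero (k : ℕ) : basisPS k 0 = gPS k := by
  rw [basisPS, pow_zero, one_mul, Nat.mul_zero, Nat.sub_zero]

theorem basisPS_succ {k : ℕ} (c : ℕ) :
    basisPS k (c + 1) = deltaPS * basisPS (k - 12) c := by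
  rw [basisPS, basisPS, pow_succ, show k - 12 * (c + 1) = k - 12 - 12 * c by omega]
  ring

theorem basisPS_eq_X_pow_mul (k c : ℕ) :
    basisPS k c = X ^ c * (etaUnitPS ^ c * gPS (k - 12 * c)) := by
  rw [basisPS, deltaPS_eq_X_mul, mul_pow, mul_assoc]

theorem basisPS_mem (R : Subring ℂ) (k c : ℕ) : basisPS k c ∈ coeffSubring R :=
  (coeffSubring R).mul_mem ((coeffSubring R).pow_mem (deltaPS_mem R) _) (gPS_mem R _)

theorem coeff_basisPS_of_lt (k : ℕ) {c n : ℕ} (h : n < c) : coeff n (basisPS k c) = 0 := by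
  rw [basisPS_eq_X_pow_mul, coeff_X_pow_mul', if_neg (by omega)]

theorem coeff_basisPS_self (k c : ℕ) : coeff c (basisPS k c) = 1 := by
  rw [basisPS_eq_X_pow_mul, coeff_X_pow_mul', if_pos le_rfl, Nat.sub_self,
    coeff_zero_eq_constantCoeff_apply, map_mul, map_pow, constantCoeff_etaUnitPS, one_pow,
    constantCoeff_gPS, one_mul]

/-- **the integral structure of level one**: a form of weight `k` with coefficients in `R` is an
`R`-combination of the triangular basis. -/
theorem exists_basis_expansion (R : Subring ℂ) :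
    ∀ (k : ℕ) (f : ModularForm 𝒮ℒ (k : ℤ)), qExpansion 1 f ∈ coeffSubring R →
      ∃ r : ℕ → ℂ, (∀ c, r c ∈ R) ∧ (∀ c, k < 12 * c → r c = 0) ∧
        (∀ c, k = 12 * c + 2 → r c = 0) ∧
        qExpansion 1 f = ∑ c ∈ Finset.range (k / 12 + 1), r c • basisPS k c := by
  intro k
  induction k using Nat.strong_induction_on with
  | _ k ih =>
    intro f hfR
    have hzero : qExpansion 1 f = 0 →
        ∃ r : ℕ → ℂ, (∀ c, r c ∈ R) ∧ (∀ c, k < 12 * c → r c = 0) ∧
          (∀ c, k = 12 * c + 2 → r c = 0) ∧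
          qExpansion 1 f = ∑ c ∈ Finset.range (k / 12 + 1), r c • basisPS k c := by
      intro h0
      refine ⟨fun _ => 0, fun _ => R.zero_mem, fun _ _ => rfl, fun _ _ => rfl, ?_⟩
      rw [h0]
      simp
    rcases Nat.even_or_odd k with hk | hk
    swap
    · exact hzero (qExpansion_eq_zero_of_odd (by exact_mod_cast hk) f)
    by_cases hk2 : k = 2
    · subst hk2
      exact hzero (qExpansion_eq_zero_of_two f)
    obtain ⟨h, hh⟩ := exists_step hk hk2 f
    have ha₀R : coeff 0 (qExpansion 1 f) ∈ R := hfR 0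
    rcases lt_or_ge k 12 with hk12 | hk12
    · refine ⟨fun c => if c = 0 then coeff 0 (qExpansion 1 f) else 0, ?_, ?_, ?_, ?_⟩
      · intro c
        dsimp only
        split_ifs
        · exact ha₀R
        · exact R.zero_mem
      · intro c hc
        dsimp only
        rw [if_neg (by omega)]
      · intro c hc
        dsimp only
        rw [if_neg (by omega)]
      · rw [show k / 12 + 1 = 1 by omega, Finset.sum_range_one]
        beta_reduce
        rw [if_pos rfl, basisPS_zero]
        conv_lhs => rw [hh, qExpansion_eq_zero_of_neg (by omega) h, mul_zero, add_zero]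
    · have hP : deltaPS * qExpansion 1 h = (X * etaUnitPS) * qExpansion 1 h := by
        rw [deltaPS_eq_X_mul]
      have hD : deltaPS * qExpansion 1 h =
          qExpansion 1 f - coeff 0 (qExpansion 1 f) • gPS k := by
        rw [eq_sub_iff_add_eq']
        exact hh.symm
      have hPR : deltaPS * qExpansion 1 h ∈ coeffSubring R := by
        rw [hD]
        exact (coeffSubring R).sub_mem hfR (smul_mem_coeffSubring ha₀R (gPS_mem R k))
      have hhR := mem_coeffSubring_of_mul_X_mul (etaUnitPS_mem R) constantCoeff_etaUnitPS hP hPR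
      have hcast : ((k : ℤ) - 12) = ((k - 12 : ℕ) : ℤ) := by omega
      obtain ⟨r', hr'R, hr'1, hr'2, hr'⟩ :=
        ih (k - 12) (by omega) (mcast hcast h) (by rwa [coe_mcast])
      rw [coe_mcast] at hr'
      refine ⟨fun c => if c = 0 then coeff 0 (qExpansion 1 f) else r' (c - 1), ?_, ?_, ?_, ?_⟩
      · intro c
        dsimp only
        split_ifs
        · exact ha₀R
        · exact hr'R _
      · intro c hc
        dsimp only
        rw [if_neg (by omega)]
        exact hr'1 _ (by omega)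
      · intro c hc
        dsimp only
        rw [if_neg (by omega)]
        exact hr'2 _ (by omega)
      · rw [Finset.sum_range_succ']
        beta_reduce
        rw [if_pos rfl, basisPS_zero, add_comm,
          show k / 12 = (k - 12) / 12 + 1 by omega]
        conv_lhs => rw [hh, hr', Finset.mul_sum]
        congr 1
        refine Finset.sum_congr rfl fun c _ => ?_
        rw [if_neg (Nat.succ_ne_zero c), Nat.add_sub_cancel, basisPS_succ, mul_smul_comm]

/-- **uniqueness of the basis coefficients modulo `L`**. -/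
theorem basis_coeff_mem (hRL : StableUnder R L) (k : ℕ) (r : ℕ → ℂ) (m : ℕ)
    (h : CoeffsMemLE L m (∑ c ∈ Finset.range (m + 1), r c • basisPS k c)) :
    ∀ c, c ≤ m → r c ∈ L :=
  mem_of_triangular hRL (basisPS k) (basisPS_mem R k) (fun _ _ hn => coeff_basisPS_of_lt k hn)
    (coeff_basisPS_self k) r m h

end Basis

end Fermat.Agent.S16
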