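/-
S16, package UB-L1 (helper1), part 3: the literals requested by helper4 (msg 894).

(L1a) integral models `E4Z E6Z DeltaZ : ℤ⟦X⟧` of the `q`-expansions of `E₄`, `E₆`, `Δ`;
(L1b) `sturm_mod` for an arbitrary ideal `I` of a subring `R' ⊆ ℂ`;
(L1c) `exists_repr_E4` : forms of weight `4a` in the basis `Δ^c E₄^{a-3c}`.
-/
import Fermat.Agent.S16.L1_helper1_Forms

set_option autoImplicit false

namespace Fermat.Agent.S16

open PowerSeries UpperHalfPlane ModularForm ModularFormClass MatrixGroups EisensteinSeries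

/-! ### (L1a) integral models -/

/-- `E₄ = 1 + 240 ∑ σ₃(n) qⁿ` over `ℤ`. -/
noncomputable def E4Z : ℤ⟦X⟧ :=
  PowerSeries.mk fun n => if n = 0 then 1 else 240 * ((ArithmeticFunction.sigma 3 n : ℕ) : ℤ)

/-- `E₆ = 1 - 504 ∑ σ₅(n) qⁿ` over `ℤ`. -/
noncomputable def E6Z : ℤ⟦X⟧ :=
  PowerSeries.mk fun n => if n = 0 then 1 else -504 * ((ArithmeticFunction.sigma 5 n : ℕ) : ℤ)

/-- `Δ = q ∏ (1 - qⁿ)²⁴` over `ℤ`. -/
noncomputable def DeltaZ : ℤ⟦X⟧ := X * ModularCurve.dedekindEtaUnit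

theorem coeff_E4Z (n : ℕ) :
    coeff n E4Z = if n = 0 then 1 else 240 * ((ArithmeticFunction.sigma 3 n : ℕ) : ℤ) :=
  coeff_mk _ _

theorem coeff_E6Z (n : ℕ) :
    coeff n E6Z = if n = 0 then 1 else -504 * ((ArithmeticFunction.sigma 5 n : ℕ) : ℤ) :=
  coeff_mk _ _

theorem coeff_E4Z_of_pos {n : ℕ} (hn : 1 ≤ n) :
    coeff n E4Z = 240 * ((ArithmeticFunction.sigma 3 n : ℕ) : ℤ) := by
  rw [coeff_E4Z, if_neg (by omega)]

theorem coeff_E6Z_of_pos {n : ℕ} (hn : 1 ≤ n) :
    coeff n E6Z = -504 * ((ArithmeticFunction.sigma 5 n : ℕ) : ℤ) := by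
  rw [coeff_E6Z, if_neg (by omega)]

theorem constantCoeff_E4Z : constantCoeff E4Z = 1 := by
  rw [← coeff_zero_eq_constantCoeff_apply, coeff_E4Z, if_pos rfl]

theorem constantCoeff_E6Z : constantCoeff E6Z = 1 := by
  rw [← coeff_zero_eq_constantCoeff_apply, coeff_E6Z, if_pos rfl]

theorem coeff_zero_DeltaZ : coeff 0 DeltaZ = 0 := by
  rw [DeltaZ, coeff_zero_X_mul]

theorem coeff_one_DeltaZ : coeff 1 DeltaZ = 1 := by
  rw [DeltaZ, coeff_succ_X_mul, coeff_zero_eq_constantCoeff_apply,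
    ModularCurve.constantCoeff_dedekindEtaUnit]

theorem e4PS_eq_map : e4PS = E4Z.map (Int.castRingHom ℂ) := by
  ext n
  rw [coeff_e4PS, coeff_map, coeff_E4Z]
  split_ifs <;> simp

theorem e6PS_eq_map : e6PS = E6Z.map (Int.castRingHom ℂ) := by
  ext n
  rw [coeff_e6PS, coeff_map, coeff_E6Z]
  split_ifs <;> simp

theorem deltaPS_eq_map : deltaPS = DeltaZ.map (Int.castRingHom ℂ) := by
  rw [deltaPS_eq, DeltaZ, map_mul, map_X]

theorem qExpansion_E₄_eq : qExpansion 1 E₄ = E4Z.map (Int.castRingHom ℂ) := e4PS_eq_map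

theorem qExpansion_E₆_eq : qExpansion 1 E₆ = E6Z.map (Int.castRingHom ℂ) := e6PS_eq_map

theorem qExpansion_discriminant_eq :
    qExpansion 1 ModularForm.discriminant = DeltaZ.map (Int.castRingHom ℂ) := deltaPS_eq_map

theorem map_intCast_injective :
    Function.Injective (PowerSeries.map (Int.castRingHom ℂ)) := by
  intro P Q h
  ext n
  have := congrArg (coeff n) h
  rw [coeff_map, coeff_map] at this
  exact Int.cast_injective this

theorem E4Z_cube_sub_E6Z_sq : E4Z ^ 3 - E6Z ^ 2 = 1728 • DeltaZ := by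
  apply map_intCast_injective
  have h := e4PS_cube_sub_e6PS_sq
  rw [e4PS_eq_map, e6PS_eq_map, deltaPS_eq_map] at h
  rw [map_sub, map_pow, map_pow, h, nsmul_eq_mul, map_mul]
  congr 1
  rw [map_ofNat, map_natCast, Nat.cast_ofNat]

/-! ### (L1b) Sturm modulo an ideal -/

section Ideal

variable (R' : Subring ℂ)

/-- the image in `ℂ` of an ideal of `R'`. -/
def idealImage (I : Ideal R') : AddSubgroup ℂ :=
  I.toAddSubgroup.map R'.subtype.toAddMonoidHom

variable {R'}

theorem mem_idealImage {I : Ideal R'} {x : R'} : (x : ℂ) ∈ idealImage R' I ↔ x ∈ I := by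
  constructor
  · rintro ⟨y, hy, hxy⟩
    have : y = x := Subtype.ext hxy
    rw [← this]
    exact hy
  · intro hx
    exact ⟨x, hx, rfl⟩

theorem stableUnder_idealImage (I : Ideal R') : StableUnder R' (idealImage R' I) := by
  rintro r hr _ ⟨y, hy, rfl⟩
  exact ⟨⟨r, hr⟩ * y, I.mul_mem_left _ hy, rfl⟩

/-- **(L1b) Sturm's bound in level one modulo an arbitrary ideal** of a subring of `ℂ`. -/
theorem sturm_mod (R' : Subring ℂ) (I : Ideal R') (w : ℕ) (f : ModularForm 𝒮ℒ (w : ℤ))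
    (P : R'⟦X⟧) (hP : P.map R'.subtype = qExpansion 1 f)
    (h : ∀ k, 12 * k ≤ w → coeff k P ∈ I) : ∀ k, coeff k P ∈ I := by
  have hfR : qExpansion 1 f ∈ coeffSubring R' := by
    rw [← hP]
    exact map_subtype_mem_coeffSubring P
  have key := sturmL (stableUnder_idealImage I) f hfR (fun n hn => by
    rw [← hP, coeff_map]
    exact mem_idealImage.2 (h n (by exact_mod_cast hn)))
  intro k
  have := key k
  rw [← hP, coeff_map] at this
  exact mem_idealImage.1 this

end Ideal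

/-! ### (L1c) weight `4a` in the basis `Δ^c E₄^{a - 3c}` -/

theorem gPS_four_mul (a c : ℕ) : gPS (4 * a - 12 * c) = e4PS ^ (a - 3 * c) := by
  have hB : gB (4 * a - 12 * c) = 0 := by
    unfold gB
    omega
  have hA : gA (4 * a - 12 * c) = a - 3 * c := by
    unfold gA
    rw [hB]
    omega
  rw [gPS, hA, hB, pow_zero, mul_one]

theorem map_subtype_injective (R' : Subring ℂ) :
    Function.Injective (PowerSeries.map R'.subtype) := by
  intro P Q h
  ext n
  have := congrArg (coeff n) h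
  rw [coeff_map, coeff_map] at this
  exact this

theorem map_subtype_map_intCast (R' : Subring ℂ) (Q : ℤ⟦X⟧) :
    (Q.map (Int.castRingHom R')).map R'.subtype = Q.map (Int.castRingHom ℂ) := by
  ext n
  rw [coeff_map, coeff_map, coeff_map]
  simp

/-- **(L1c)** a form of weight `4a` with coefficients in `R'` is an `R'`-combination of the
`Δ^c E₄^{a - 3c}`, `c ≤ a / 3`. -/
theorem exists_repr_E4 (R' : Subring ℂ) (a : ℕ) (f : ModularForm 𝒮ℒ ((4 * a : ℕ) : ℤ))
    (P : R'⟦X⟧) (hP : P.map R'.subtype = qExpansion 1 f) :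
    ∃ α : ℕ → R', P = ∑ c ∈ Finset.range (a / 3 + 1),
      C (α c) * (DeltaZ.map (Int.castRingHom R')) ^ c *
        (E4Z.map (Int.castRingHom R')) ^ (a - 3 * c) := by
  have hfR : qExpansion 1 f ∈ coeffSubring R' := by
    rw [← hP]
    exact map_subtype_mem_coeffSubring P
  obtain ⟨r, hrR, -, -, hr⟩ := exists_basis_expansion R' (4 * a) f hfR
  refine ⟨fun c => ⟨r c, hrR c⟩, ?_⟩
  apply map_subtype_injective R'
  rw [hP, hr, show 4 * a / 12 = a / 3 by omega, map_sum]
  refine Finset.sum_congr rfl fun c _ => ?_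
  have h1 : (DeltaZ.map (Int.castRingHom R')).map R'.subtype = deltaPS := by
    rw [deltaPS_eq_map, map_subtype_map_intCast]
  have h2 : (E4Z.map (Int.castRingHom R')).map R'.subtype = e4PS := by
    rw [e4PS_eq_map, map_subtype_map_intCast]
  rw [map_mul, map_mul, map_pow, map_pow, h1, h2, map_C, basisPS, gPS_four_mul,
    smul_eq_C_mul, mul_assoc]
  rfl

end Fermat.Agent.S16
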