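/-
S16, package LB-TF (helper9), part 1: **the dimension bound for `Hom(Γ₀(N), F)` killing parabolic
and 12-torsion elements, over an arbitrary field `F`** (`dim_F ≤ 2 g(X₀(N))`).

This is the bound of `X0N/ParHom_helper9_Main` redone over an arbitrary field: the orbit-sum
constraints at the fixed points of `S`, `ST` are obtained from the vanishing on elements of finite
order (instead of dividing by `2`, `3`), those at the cusps from the vanishing on parabolic
elements (instead of dividing by `N`), via the cycle-sum lemma.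
-/
import Mathlib
import Fermat.Prelude.Def_ModularCurve_PeriodMap
import Fermat.Prelude.Def_ModularCurve_GenusNumerics
import Fermat.Agent.X0N.ParHom_helper9_Main
import Fermat.Agent.GR.HGRP_helper2_Abstract

set_option autoImplicit false
set_option linter.unusedSectionVars false

namespace Fermat.Agent.S16

open CongruenceSubgroup MatrixGroups ModularGroup Matrix ModularCurve.Period
open Fermat.Agent.X0N Fermat.Agent.X0N.ParHom

section Defs

variable (Γ : Subgroup SL(2, ℤ))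

/-- the parabolic elements (and `± 1`) and the elements of order dividing `12` of `Γ`. -/
def parTorSet : Set Γ :=
  {γ | ((γ : SL(2, ℤ)) : Matrix (Fin 2) (Fin 2) ℤ).trace ^ 2 = 4 ∨ γ ^ 12 = 1}

theorem mem_parTorSet {γ : Γ} : γ ∈ parTorSet Γ ↔
    ((γ : SL(2, ℤ)) : Matrix (Fin 2) (Fin 2) ℤ).trace ^ 2 = 4 ∨ γ ^ 12 = 1 := Iff.rfl

/-- the homomorphisms `Γ → A` killing the parabolic elements and the elements of order dividing
`12`. -/
def ptHoms (R : Type*) [Semiring R] (A : Type*) [AddCommGroup A] [Module R A] :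
    Submodule R (Additive Γ →+ A) where
  carrier := {ψ | ∀ γ ∈ parTorSet Γ, ψ (Additive.ofMul γ) = 0}
  zero_mem' := fun _ _ => rfl
  add_mem' := by
    intro φ ψ hφ hψ γ hγ
    show φ (Additive.ofMul γ) + ψ (Additive.ofMul γ) = 0
    rw [hφ γ hγ, hψ γ hγ, add_zero]
  smul_mem' := by
    intro c φ hφ γ hγ
    show c • φ (Additive.ofMul γ) = 0
    rw [hφ γ hγ, smul_zero]

variable {Γ}

theorem mem_ptHoms {R : Type*} [Semiring R] {A : Type*} [AddCommGroup A] [Module R A]
    {ψ : Additive Γ →+ A} :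
    ψ ∈ ptHoms Γ R A ↔ ∀ γ ∈ parTorSet Γ, ψ (Additive.ofMul γ) = 0 := Iff.rfl

theorem ptHoms_le_parabolicHoms {R : Type*} [Semiring R] {A : Type*} [AddCommGroup A]
    [Module R A] : ptHoms Γ R A ≤ parabolicHoms R Γ A := by
  intro ψ hψ γ hγ
  exact hψ γ (Or.inl hγ)

/-- a parabolic homomorphism with values in a torsion-free group kills the elements of finite
order. -/
theorem mem_ptHoms_of_mem_parabolicHoms {R : Type*} [Semiring R] {A : Type*} [AddCommGroup A]
    [Module R A] [IsAddTorsionFree A] {ψ : Additive Γ →+ A} (hψ : ψ ∈ parabolicHoms R Γ A) :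
    ψ ∈ ptHoms Γ R A := by
  rintro γ (hγ | hγ)
  · exact hψ γ hγ
  · have h1 : (12 : ℕ) • ψ (Additive.ofMul γ) = 0 := by
      rw [← map_nsmul, ← ofMul_pow, hγ, ofMul_one, map_zero]
    exact (nsmul_eq_zero_iff_right (by norm_num)).mp h1

end Defs

section Abstract

variable (F : Type*) [Field F]
variable {X Ω₂ Ω₃ Ω₄ : Type*} [Fintype X] [Fintype Ω₂] [Fintype Ω₃] [Fintype Ω₄]
  [DecidableEq X] [DecidableEq Ω₂] [DecidableEq Ω₃] [DecidableEq Ω₄]
  (π₂ : X → Ω₂) (π₃ : X → Ω₃) (π₄ : X → Ω₄)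

/-- The constraint matrix over a field: rows = orbits of the three kinds, columns = two copies of
`X`. -/
def conMatrixF : Matrix (Ω₂ ⊕ Ω₃ ⊕ Ω₄) (X ⊕ X) F :=
  Matrix.of fun j i =>
    match j, i with
    | Sum.inl ω, Sum.inl x => if π₂ x = ω then 1 else 0
    | Sum.inl _, Sum.inr _ => 0
    | Sum.inr (Sum.inl _), Sum.inl _ => 0
    | Sum.inr (Sum.inl ω), Sum.inr x => if π₃ x = ω then 1 else 0
    | Sum.inr (Sum.inr ω), Sum.inl x => if π₄ x = ω then -1 else 0
    | Sum.inr (Sum.inr ω), Sum.inr x => if π₄ x = ω then 1 else 0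

theorem conMatrixF_mulVec_inl (u : X ⊕ X → F) (ω : Ω₂) :
    (conMatrixF F π₂ π₃ π₄).mulVec u (Sum.inl ω) =
      ∑ x, if π₂ x = ω then u (Sum.inl x) else 0 := by
  simp [Matrix.mulVec, dotProduct, conMatrixF, Fintype.sum_sum_type]

theorem conMatrixF_mulVec_inr_inl (u : X ⊕ X → F) (ω : Ω₃) :
    (conMatrixF F π₂ π₃ π₄).mulVec u (Sum.inr (Sum.inl ω)) =
      ∑ x, if π₃ x = ω then u (Sum.inr x) else 0 := by
  simp [Matrix.mulVec, dotProduct, conMatrixF, Fintype.sum_sum_type]

theorem conMatrixF_mulVec_inr_inr (u : X ⊕ X → F) (ω : Ω₄) :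
    (conMatrixF F π₂ π₃ π₄).mulVec u (Sum.inr (Sum.inr ω)) =
      ∑ x, if π₄ x = ω then u (Sum.inr x) - u (Sum.inl x) else 0 := by
  simp only [Matrix.mulVec, dotProduct, conMatrixF, Fintype.sum_sum_type, Matrix.of_apply]
  rw [← Finset.sum_add_distrib]
  refine Finset.sum_congr rfl fun x _ => ?_
  split_ifs <;> ring

theorem conMatrixF_transpose_mulVec_inl (y : Ω₂ ⊕ Ω₃ ⊕ Ω₄ → F) (x : X) :
    (conMatrixF F π₂ π₃ π₄)ᵀ.mulVec y (Sum.inl x) =
      y (Sum.inl (π₂ x)) - y (Sum.inr (Sum.inr (π₄ x))) := by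
  simp [Matrix.mulVec, dotProduct, conMatrixF, Fintype.sum_sum_type, Matrix.transpose_apply,
    sub_eq_add_neg]

theorem conMatrixF_transpose_mulVec_inr (y : Ω₂ ⊕ Ω₃ ⊕ Ω₄ → F) (x : X) :
    (conMatrixF F π₂ π₃ π₄)ᵀ.mulVec y (Sum.inr x) =
      y (Sum.inr (Sum.inl (π₃ x))) + y (Sum.inr (Sum.inr (π₄ x))) := by
  simp [Matrix.mulVec, dotProduct, conMatrixF, Fintype.sum_sum_type, Matrix.transpose_apply]

open Module in
theorem finrank_ker_conMatrixF_transpose_le [Nonempty X]
    (hconn : ∀ f : X → F, (∀ x y, π₂ x = π₂ y → f x = f y) →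
      (∀ x y, π₄ x = π₄ y → f x = f y) → ∀ x y, f x = f y)
    (h₂ : Function.Surjective π₂) (h₃ : Function.Surjective π₃) (h₄ : Function.Surjective π₄) :
    finrank F (LinearMap.ker (conMatrixF F π₂ π₃ π₄)ᵀ.mulVecLin) ≤ 1 := by
  obtain ⟨x₀⟩ := ‹Nonempty X›
  let ev : LinearMap.ker (conMatrixF F π₂ π₃ π₄)ᵀ.mulVecLin →ₗ[F] F :=
    (LinearMap.proj (Sum.inr (Sum.inr (π₄ x₀)))).comp (Submodule.subtype _)
  have hinj : Function.Injective ev := by
    rw [← LinearMap.ker_eq_bot, LinearMap.ker_eq_bot']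
    rintro ⟨y, hy⟩ hev
    have hev' : y (Sum.inr (Sum.inr (π₄ x₀))) = 0 := hev
    rw [LinearMap.mem_ker, Matrix.mulVecLin_apply] at hy
    have e1 : ∀ x, y (Sum.inl (π₂ x)) = y (Sum.inr (Sum.inr (π₄ x))) := by
      intro x
      have := congrFun hy (Sum.inl x)
      rw [conMatrixF_transpose_mulVec_inl] at this
      exact sub_eq_zero.mp this
    have e2 : ∀ x, y (Sum.inr (Sum.inl (π₃ x))) = -y (Sum.inr (Sum.inr (π₄ x))) := by
      intro x
      have := congrFun hy (Sum.inr x)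
      rw [conMatrixF_transpose_mulVec_inr] at this
      exact eq_neg_of_add_eq_zero_left this
    have hf : ∀ x, y (Sum.inr (Sum.inr (π₄ x))) = 0 := by
      intro x
      have := hconn (fun x => y (Sum.inr (Sum.inr (π₄ x))))
        (fun x y' hxy => by rw [← e1 x, ← e1 y', hxy])
        (fun x y' hxy => by rw [hxy]) x x₀
      rw [this, hev']
    apply Subtype.ext
    ext j
    simp only [ZeroMemClass.coe_zero, Pi.zero_apply]
    rcases j with ω | ω | ω
    · obtain ⟨x, rfl⟩ := h₂ ω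
      rw [e1, hf]
    · obtain ⟨x, rfl⟩ := h₃ ω
      rw [e2, hf, neg_zero]
    · obtain ⟨x, rfl⟩ := h₄ ω
      exact hf x
  have := LinearMap.finrank_le_finrank_of_injective hinj
  simpa using this

open Module in
/-- **Dimension bound for the space of constrained pairs.** -/
theorem finrank_ker_conMatrixF_le [Nonempty X]
    (hconn : ∀ f : X → F, (∀ x y, π₂ x = π₂ y → f x = f y) →
      (∀ x y, π₄ x = π₄ y → f x = f y) → ∀ x y, f x = f y)
    (h₂ : Function.Surjective π₂) (h₃ : Function.Surjective π₃) (h₄ : Function.Surjective π₄) :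
    finrank F (LinearMap.ker (conMatrixF F π₂ π₃ π₄).mulVecLin) +
      (Fintype.card Ω₂ + Fintype.card Ω₃ + Fintype.card Ω₄) ≤ 2 * Fintype.card X + 1 := by
  have h1 := LinearMap.finrank_range_add_finrank_ker (conMatrixF F π₂ π₃ π₄).mulVecLin
  have h2 := LinearMap.finrank_range_add_finrank_ker (conMatrixF F π₂ π₃ π₄)ᵀ.mulVecLin
  have h3 : finrank F (LinearMap.range (conMatrixF F π₂ π₃ π₄)ᵀ.mulVecLin) =
      finrank F (LinearMap.range (conMatrixF F π₂ π₃ π₄).mulVecLin) :=
    Matrix.rank_transpose (conMatrixF F π₂ π₃ π₄)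
  have h4 := finrank_ker_conMatrixF_transpose_le F π₂ π₃ π₄ hconn h₂ h₃ h₄
  rw [Module.finrank_fintype_fun_eq_card, Fintype.card_sum] at h1
  rw [Module.finrank_fintype_fun_eq_card, Fintype.card_sum, Fintype.card_sum] at h2
  omega

end Abstract

end Fermat.Agent.S16
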