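/-
S16, package LB-TF (helper9), part 2: **`dim_F Hom_{par,tor}(Γ₀(N), F) ≤ 2 g(X₀(N))` for every
field `F`.**
-/
import Mathlib
import Fermat.Agent.S16.LB_helper9_TFBound

set_option autoImplicit false
set_option linter.unusedSectionVars false

namespace Fermat.Agent.S16

open CongruenceSubgroup MatrixGroups ModularGroup Matrix ModularCurve.Period
open Fermat.Agent.X0N Fermat.Agent.X0N.ParHom

variable (N : ℕ) [NeZero N] (F : Type*) [Field F]

local notation "XN" => (SL(2, ℤ) ⧸ Gamma0 N)

/-- A function on the cosets invariant under `S` and `T` is constant. -/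
theorem const_of_S_T_invariantF {A : Type*} (f : XN → A) (hS : ∀ x, f (S • x) = f x)
    (hT : ∀ x, f (T • x) = f x) (x y : XN) : f x = f y := by
  let H : Subgroup SL(2, ℤ) :=
    { carrier := {g | ∀ x, f (g • x) = f x}
      one_mem' := fun x => by rw [one_smul]
      mul_mem' := fun {a b} ha hb x => by rw [mul_smul, ha, hb]
      inv_mem' := fun {a} ha x => by
        have := ha (a⁻¹ • x)
        rw [smul_inv_smul] at this
        exact this.symm }
  have hH : H = ⊤ := by
    rw [eq_top_iff, ← SpecialLinearGroup.SL2Z_generators, Subgroup.closure_le]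
    rintro g (rfl | rfl)
    · exact hS
    · exact hT
  obtain ⟨g, rfl⟩ := MulAction.exists_smul_eq SL(2, ℤ) x y
  have : g ∈ H := by rw [hH]; exact Subgroup.mem_top g
  exact (this x).symm

variable {F}

/-- The total cocycle `c'(g)(x) = c_ψ(g)(x) + v(gx) - v(x)`. -/
noncomputable def tcocF (ψ : Additive (Gamma0 N) →+ F) (v : XN → F) (g : SL(2, ℤ)) (x : XN) : F :=
  coc (Gamma0 N) ψ g x + (v (g • x) - v x)

theorem isCoc_tcocF (ψ : Additive (Gamma0 N) →+ F) (v : XN → F) :
    IsCoc (Gamma0 N) (tcocF N ψ v) :=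
  (isCoc_coc _ ψ).add (isCoc_cobound v)

theorem tcocF_T (ψ : Additive (Gamma0 N) →+ F) (v : XN → F) (x : XN) :
    tcocF N ψ v T x = tcocF N ψ v (S * T) x - tcocF N ψ v S (T • x) := by
  rw [isCoc_tcocF N ψ v S T x]
  ring

/-- `h` is *good* if all conjugates of its powers lying in `Γ₀(N)` are parabolic or of order
dividing `12`. -/
def IsGoodElt (h : SL(2, ℤ)) : Prop :=
  ∀ (m : ℕ) (r : SL(2, ℤ)) (hmem : r⁻¹ * h ^ m * r ∈ Gamma0 N),
    (⟨r⁻¹ * h ^ m * r, hmem⟩ : Gamma0 N) ∈ parTorSet (Gamma0 N)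

theorem isGoodElt_of_pow_eq_one {h : SL(2, ℤ)} (hh : h ^ 12 = 1) : IsGoodElt N h := by
  intro m r hmem
  right
  apply Subtype.ext
  rw [SubgroupClass.coe_pow, OneMemClass.coe_one]
  show (r⁻¹ * h ^ m * r) ^ 12 = 1
  have h1 : ∀ k : ℕ, (r⁻¹ * h ^ m * r) ^ k = r⁻¹ * (h ^ m) ^ k * r := by
    intro k
    induction k with
    | zero => simp
    | succ k ih => rw [pow_succ, ih, pow_succ]; group
  rw [h1, ← pow_mul, mul_comm, pow_mul, hh, one_pow]
  group

theorem isGoodElt_S : IsGoodElt N S := by
  apply isGoodElt_of_pow_eq_one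
  decide

theorem isGoodElt_ST : IsGoodElt N (S * T) := by
  apply isGoodElt_of_pow_eq_one
  decide

theorem isGoodElt_T : IsGoodElt N T := by
  intro m r hmem
  left
  show ((r⁻¹ * T ^ m * r : SL(2, ℤ)) : Matrix (Fin 2) (Fin 2) ℤ).trace ^ 2 = 4
  rw [trace_conj_T_pow]
  norm_num

/-- the total cocycle of a power of a good element vanishes at its fixed points. -/
theorem tcocF_pow_eq_zero {ψ : Additive (Gamma0 N) →+ F} (hψ : ψ ∈ ptHoms (Gamma0 N) F F)
    (v : XN → F) {h : SL(2, ℤ)} (hh : IsGoodElt N h) (m : ℕ) (x : XN) (hx : h ^ m • x = x) :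
    tcocF N ψ v (h ^ m) x = 0 := by
  rw [tcocF, hx, sub_self, add_zero, coc]
  apply hψ
  have h1 := kappa_coe_of_smul_eq (Gamma0 N) hx
  have h2 : (rep (Gamma0 N) x)⁻¹ * h ^ m * rep (Gamma0 N) x ∈ Gamma0 N := by
    rw [← h1]
    exact (kappa (Gamma0 N) (h ^ m) x).2
  have h3 : kappa (Gamma0 N) (h ^ m) x = ⟨_, h2⟩ := Subtype.ext h1
  rw [h3]
  exact hh m _ h2

section Main

open Classical

noncomputable local instance instFintypeXNF : Fintype XN := Fintype.ofFinite _

noncomputable local instance instFintypeOrbF (h : SL(2, ℤ)) :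
    Fintype (MulAction.orbitRel.Quotient (Subgroup.zpowers h) XN) := Fintype.ofFinite _

/-- Fibre sums are invariant under a permutation preserving the fibres. -/
theorem fibre_sum_smulF {Ω : Type*} [DecidableEq Ω] (π : XN → Ω) (g : SL(2, ℤ))
    (hπ : ∀ x, π (g • x) = π x) (f : XN → F) (ω : Ω) :
    ∑ x, (if π x = ω then f (g • x) else 0) = ∑ x, (if π x = ω then f x else 0) := by
  have := Equiv.sum_comp (MulAction.toPerm g : Equiv.Perm XN)
    (fun x => if π x = ω then f x else 0)
  simp only [MulAction.toPerm_apply, hπ] at this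
  exact this

/-- **the orbit sums of the total cocycle of a good element vanish.** -/
theorem fibre_sum_tcocF_eq_zero {ψ : Additive (Gamma0 N) →+ F}
    (hψ : ψ ∈ ptHoms (Gamma0 N) F F) (v : XN → F) {h : SL(2, ℤ)} (hh : IsGoodElt N h)
    (ω : MulAction.orbitRel.Quotient (Subgroup.zpowers h) XN) :
    ∑ x, (if proj N h x = ω then tcocF N ψ v h x else 0) = 0 := by
  apply Fermat.Agent.GR.HeckeDatum.sum_eq_zero_of_cycle_sums (MulAction.toPerm h : Equiv.Perm XN)
  intro x m _ hx
  have hpow : ∀ k : ℕ, ((MulAction.toPerm h : Equiv.Perm XN) ^ k) x = h ^ k • x := by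
    intro k
    induction k with
    | zero => simp
    | succ k ih => rw [pow_succ', Equiv.Perm.mul_apply, ih, MulAction.toPerm_apply, pow_succ',
        mul_smul]
  rw [hpow] at hx
  simp only [hpow, proj_pow_smul]
  by_cases hω : proj N h x = ω
  · simp only [if_pos hω]
    rw [← (isCoc_tcocF N ψ v).pow h m x]
    exact tcocF_pow_eq_zero N hψ v hh m x hx
  · simp only [if_neg hω]
    exact Finset.sum_const_zero

variable (F) in
/-- The constraint matrix for `Γ₀(N)`. -/
noncomputable def conMF : Matrix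
    (MulAction.orbitRel.Quotient (Subgroup.zpowers S) XN ⊕
      MulAction.orbitRel.Quotient (Subgroup.zpowers (S * T)) XN ⊕
      MulAction.orbitRel.Quotient (Subgroup.zpowers T) XN) (XN ⊕ XN) F :=
  conMatrixF F (proj N S) (proj N (S * T)) (proj N T)

/-- The pair of values of the total cocycle on the generators `S`, `ST`. -/
noncomputable def DfunF (ψ : Additive (Gamma0 N) →+ F) (v : XN → F) : XN ⊕ XN → F :=
  Sum.elim (tcocF N ψ v S) (tcocF N ψ v (S * T))

theorem DfunF_mem_ker {ψ : Additive (Gamma0 N) →+ F} (hψ : ψ ∈ ptHoms (Gamma0 N) F F)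
    (v : XN → F) : (conMF N F).mulVec (DfunF N ψ v) = 0 := by
  ext j
  rcases j with ω | ω | ω
  · rw [conMF, conMatrixF_mulVec_inl, Pi.zero_apply]
    simp only [DfunF, Sum.elim_inl]
    exact fibre_sum_tcocF_eq_zero N hψ v (isGoodElt_S N) ω
  · rw [conMF, conMatrixF_mulVec_inr_inl, Pi.zero_apply]
    simp only [DfunF, Sum.elim_inr]
    exact fibre_sum_tcocF_eq_zero N hψ v (isGoodElt_ST N) ω
  · rw [conMF, conMatrixF_mulVec_inr_inr, Pi.zero_apply]
    simp only [DfunF, Sum.elim_inl, Sum.elim_inr]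
    have h1 := fibre_sum_smulF N (proj N T) T (proj_smul N T) (tcocF N ψ v S) ω
    have h2 : ∑ x, (if proj N T x = ω then tcocF N ψ v (S * T) x - tcocF N ψ v S x else 0) =
        ∑ x, (if proj N T x = ω then tcocF N ψ v T x else 0) := by
      have e1 : ∀ x, (if proj N T x = ω then tcocF N ψ v (S * T) x - tcocF N ψ v S x else 0) =
          (if proj N T x = ω then tcocF N ψ v (S * T) x else 0) -
            (if proj N T x = ω then tcocF N ψ v S x else 0) := by
        intro x; split_ifs <;> simp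
      have e2 : ∀ x, (if proj N T x = ω then tcocF N ψ v T x else 0) =
          (if proj N T x = ω then tcocF N ψ v (S * T) x else 0) -
            (if proj N T x = ω then tcocF N ψ v S (T • x) else 0) := by
        intro x; rw [tcocF_T]; split_ifs <;> simp
      simp only [e1, e2, Finset.sum_sub_distrib, h1]
    rw [h2]
    exact fibre_sum_tcocF_eq_zero N hψ v (isGoodElt_T N) ω

theorem eq_zero_of_DfunF_eq_zero (ψ : Additive (Gamma0 N) →+ F) (v : XN → F)
    (h : DfunF N ψ v = 0) : ψ = 0 ∧ ∀ x y, v x = v y := by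
  have hc := isCoc_tcocF N ψ v
  have hall : ∀ g x, tcocF N ψ v g x = 0 := by
    refine hc.eq_zero_of_closure closure_S_ST ?_
    rintro g (rfl | rfl) x
    · exact congrFun h (Sum.inl x)
    · exact congrFun h (Sum.inr x)
  have hψ : ψ = 0 := by
    refine AddMonoidHom.ext fun a => ?_
    have := hall ((Additive.toMul a : Gamma0 N) : SL(2, ℤ)) ((1 : SL(2, ℤ)) : XN)
    rw [tcocF, coc_of_mem, smul_one_coset, sub_self, add_zero, ofMul_toMul] at this
    rw [this, AddMonoidHom.zero_apply]
  refine ⟨hψ, ?_⟩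
  have hv : ∀ (g : SL(2, ℤ)) x, v (g • x) = v x := by
    intro g x
    have := hall g x
    rw [tcocF, hψ] at this
    simp only [coc, AddMonoidHom.zero_apply, zero_add] at this
    exact sub_eq_zero.mp this
  exact const_of_S_T_invariantF N v (hv S) (hv T)

variable (F) in
/-- `DfunF` as a linear map. -/
noncomputable def DlinF : ((Additive (Gamma0 N) →+ F) × (XN → F)) →ₗ[F] (XN ⊕ XN → F) where
  toFun p := DfunF N p.1 p.2
  map_add' p q := by
    ext (x | x)
    · simp only [DfunF, tcocF, coc, Prod.fst_add, Prod.snd_add, AddMonoidHom.add_apply,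
        Pi.add_apply, Sum.elim_inl]
      ring
    · simp only [DfunF, tcocF, coc, Prod.fst_add, Prod.snd_add, AddMonoidHom.add_apply,
        Pi.add_apply, Sum.elim_inr]
      ring
  map_smul' c p := by
    ext (x | x)
    · simp only [DfunF, tcocF, coc, Prod.smul_fst, Prod.smul_snd, AddMonoidHom.smul_apply,
        Pi.smul_apply, Sum.elim_inl, smul_eq_mul, RingHom.id_apply]
      ring
    · simp only [DfunF, tcocF, coc, Prod.smul_fst, Prod.smul_snd, AddMonoidHom.smul_apply,
        Pi.smul_apply, Sum.elim_inr, smul_eq_mul, RingHom.id_apply]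
      ring

theorem DlinF_apply (ψ : Additive (Gamma0 N) →+ F) (v : XN → F) :
    DlinF N F (ψ, v) = DfunF N ψ v := rfl

variable (F) in
/-- `Hom(Γ₀(N), F)` is finite dimensional. -/
theorem finite_homF : Module.Finite F (Additive (Gamma0 N) →+ F) := by
  let f : (Additive (Gamma0 N) →+ F) →ₗ[F] (XN ⊕ XN → F) :=
    (DlinF N F).comp (LinearMap.inl F _ _)
  refine Module.Finite.of_injective f ?_
  rw [← LinearMap.ker_eq_bot, LinearMap.ker_eq_bot']
  intro ψ hψ
  exact (eq_zero_of_DfunF_eq_zero N ψ 0 hψ).1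

variable (F) in
/-- `DlinF` restricted to the homomorphisms killing parabolic and torsion elements. -/
noncomputable def DPlinF : ((ptHoms (Gamma0 N) F F) × (XN → F)) →ₗ[F] (XN ⊕ XN → F) :=
  (DlinF N F).comp (LinearMap.prodMap (ptHoms (Gamma0 N) F F).subtype LinearMap.id)

theorem DPlinF_apply (p : (ptHoms (Gamma0 N) F F) × (XN → F)) :
    DPlinF N F p = DfunF N (p.1 : Additive (Gamma0 N) →+ F) p.2 := rfl

open Module in
theorem finrank_ker_DPlinF_le : finrank F (LinearMap.ker (DPlinF N F)) ≤ 1 := by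
  have hkey : ∀ p : (ptHoms (Gamma0 N) F F) × (XN → F), DPlinF N F p = 0 →
      p.2 ((1 : SL(2, ℤ)) : XN) = 0 → p = 0 := by
    intro p hp hev
    rw [DPlinF_apply] at hp
    obtain ⟨h1, h2⟩ := eq_zero_of_DfunF_eq_zero N _ _ hp
    apply Prod.ext
    · exact Subtype.ext h1
    · funext x
      rw [h2 x ((1 : SL(2, ℤ)) : XN), hev]
      rfl
  let ev : LinearMap.ker (DPlinF N F) →ₗ[F] F :=
    ((LinearMap.proj ((1 : SL(2, ℤ)) : XN)).comp
      (LinearMap.snd F (ptHoms (Gamma0 N) F F) (XN → F))).comp (Submodule.subtype _)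
  have hinj : Function.Injective ev := by
    intro a b hab
    have h0 : ev (a - b) = 0 := by
      have := LinearMap.map_sub ev a b
      rw [this, hab, sub_self]
    have h1 : DPlinF N F ((a - b : LinearMap.ker (DPlinF N F)) : _ × _) = 0 := (a - b).2
    have h2 := hkey _ h1 h0
    exact sub_eq_zero.mp (Subtype.ext h2)
  have := LinearMap.finrank_le_finrank_of_injective hinj
  simpa using this

open Module in
/-- The combinatorial bound: `dim Hom_{par,tor} + #orbits(S) + #orbits(ST) + #orbits(T) ≤ ψ + 2`. -/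
theorem finrank_ptHoms_add_le :
    finrank F (ptHoms (Gamma0 N) F F) +
      (Nat.card (MulAction.orbitRel.Quotient (Subgroup.zpowers S) XN) +
        Nat.card (MulAction.orbitRel.Quotient (Subgroup.zpowers (S * T)) XN) +
        Nat.card (MulAction.orbitRel.Quotient (Subgroup.zpowers T) XN)) ≤ Nat.card XN + 2 := by
  have := finite_homF N F
  have hrange : LinearMap.range (DPlinF N F) ≤ LinearMap.ker (conMF N F).mulVecLin := by
    rintro _ ⟨p, rfl⟩
    rw [LinearMap.mem_ker, Matrix.mulVecLin_apply, DPlinF_apply]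
    exact DfunF_mem_ker N p.1.2 p.2
  have hker := finrank_ker_DPlinF_le N (F := F)
  have h1 := LinearMap.finrank_range_add_finrank_ker (DPlinF N F)
  have h2 : finrank F (LinearMap.range (DPlinF N F)) ≤
      finrank F (LinearMap.ker (conMF N F).mulVecLin) :=
    Submodule.finrank_mono hrange
  have h3 := finrank_ker_conMatrixF_le F (proj N S) (proj N (S * T)) (proj N T)
    (fun f hf2 hf4 => const_of_S_T_invariantF N f
      (fun x => hf2 _ _ (proj_smul N S x)) (fun x => hf4 _ _ (proj_smul N T x)))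
    (proj_surjective N S) (proj_surjective N (S * T)) (proj_surjective N T)
  rw [Module.finrank_prod, Module.finrank_fintype_fun_eq_card] at h1
  simp only [Nat.card_eq_fintype_card]
  change finrank F (LinearMap.ker (conMF N F).mulVecLin) + _ ≤ _ at h3
  omega

variable (F) in
/-- **(LB-TF bound)** `Hom_{par,tor}(Γ₀(N), F)` is finite dimensional of dimension at most
`2 g(X₀(N))`, for every field `F`. -/
theorem ptHoms_finite_and_finrank_le :
    Module.Finite F (ptHoms (Gamma0 N) F F) ∧
      (Module.finrank F (ptHoms (Gamma0 N) F F) : ℚ) ≤ 2 * ModularCurve.genusFormula N := by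
  have := finite_homF N F
  refine ⟨inferInstance, ?_⟩
  have h := finrank_ptHoms_add_le N (F := F)
  have h2 := card_orbits_S N
  have h3 := card_orbits_ST N
  rw [card_cusps, card_cosets_eq_dedekindPsi] at h
  unfold ModularCurve.genusFormula
  have h' : (Module.finrank F (ptHoms (Gamma0 N) F F) : ℚ) +
      ((Nat.card (MulAction.orbitRel.Quotient (Subgroup.zpowers S) XN) : ℚ) +
        (Nat.card (MulAction.orbitRel.Quotient (Subgroup.zpowers (S * T)) XN) : ℚ) +
        (ModularCurve.cuspCount N : ℚ)) ≤ (ModularCurve.dedekindPsi N : ℚ) + 2 := by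
    exact_mod_cast h
  have h2' : (2 : ℚ) * (Nat.card (MulAction.orbitRel.Quotient (Subgroup.zpowers S) XN) : ℚ) =
      (ModularCurve.dedekindPsi N : ℚ) + (ModularCurve.nuTwo N : ℚ) := by exact_mod_cast h2
  have h3' : (3 : ℚ) *
      (Nat.card (MulAction.orbitRel.Quotient (Subgroup.zpowers (S * T)) XN) : ℚ) =
      (ModularCurve.dedekindPsi N : ℚ) + 2 * (ModularCurve.nuThree N : ℚ) := by exact_mod_cast h3
  linarith

end Main

end Fermat.Agent.S16
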