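/-
S16, package LB-TF (helper9), part 3: **every homomorphism `Γ₀(N) → ℤ/ℓ^k` killing the parabolic
elements and the elements of order dividing `12` is the reduction of an integral parabolic
homomorphism** (`H₁(X₀(N), ℤ)` has no torsion).
-/
import Mathlib
import Fermat.Agent.S16.LB_helper9_TFMain
import Fermat.Agent.S21
import Fermat.Agent.GR.BETTI_lead_Par
import Fermat.Agent.Helper2.CuspLattice

set_option autoImplicit false
set_option linter.unusedSectionVars false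

namespace Fermat.Agent.S16

open CongruenceSubgroup MatrixGroups Matrix ModularCurve.Period
open Fermat.Agent.GR

variable (N : ℕ) [NeZero N]

/-- the rank of the integral parabolic homomorphisms is `2 g`. -/
theorem finrank_parabolicHoms_int :
    (Module.finrank ℤ ↥(parabolicHoms ℤ (Gamma0 N) ℤ) : ℚ) = 2 * ModularCurve.genusFormula N := by
  haveI : FiniteDimensional ℂ (CuspForm (Gamma0 N) 2) :=
    Fermat.Agent.Helper2.cuspForm_Gamma0_finiteDimensional N 2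
  have h21 := Fermat.Agent.S21.result N
  have h20 := Fermat.Agent.S20.result N
  have h1 := LinearMap.finrank_range_of_inj h21.1
  rw [h21.2, Module.finrank_prod] at h1
  have h2 := finrank_parabolicHoms (Gamma0 N) ℂ
  rw [← h2, h1, ← h20]
  push_cast
  ring

section Red

variable {Γ : Subgroup SL(2, ℤ)}

/-- reduction of a parabolic integral homomorphism kills parabolic and torsion elements. -/
theorem cast_comp_mem_ptHoms (A : Type*) [AddCommGroup A] (f : ℤ →+ A)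
    {ψ : Additive Γ →+ ℤ} (hψ : ψ ∈ parabolicHoms ℤ Γ ℤ) :
    ∀ γ ∈ parTorSet Γ, (f.comp ψ) (Additive.ofMul γ) = 0 := by
  intro γ hγ
  have h1 : ψ ∈ ptHoms Γ ℤ ℤ := mem_ptHoms_of_mem_parabolicHoms hψ
  show f (ψ (Additive.ofMul γ)) = 0
  rw [h1 γ hγ, map_zero]

end Red

section ModPrime

variable (ℓ : ℕ) [Fact ℓ.Prime]

/-- reduction mod `ℓ` as a `ℤ`-linear map into the `𝔽_ℓ`-space `Hom_{par,tor}(Γ₀(N), 𝔽_ℓ)`. -/
noncomputable def redModPrime :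
    ↥(parabolicHoms ℤ (Gamma0 N) ℤ) →ₗ[ℤ] ↥(ptHoms (Gamma0 N) (ZMod ℓ) (ZMod ℓ)) where
  toFun ψ := ⟨(Int.castAddHom (ZMod ℓ)).comp ψ.1, cast_comp_mem_ptHoms (ZMod ℓ) _ ψ.2⟩
  map_add' ψ φ := by
    apply Subtype.ext
    ext γ
    simp
  map_smul' c ψ := by
    apply Subtype.ext
    ext γ
    simp

theorem redModPrime_apply (ψ : ↥(parabolicHoms ℤ (Gamma0 N) ℤ)) (γ : Additive (Gamma0 N)) :
    (redModPrime N ℓ ψ : Additive (Gamma0 N) →+ ZMod ℓ) γ = ((ψ.1 γ : ℤ) : ZMod ℓ) := rfl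

/-- **saturation**: the reductions of a `ℤ`-basis are linearly independent over `𝔽_ℓ`. -/
theorem linearIndependent_redModPrime {ι : Type*} [Fintype ι]
    (b : Module.Basis ι ℤ ↥(parabolicHoms ℤ (Gamma0 N) ℤ)) :
    LinearIndependent (ZMod ℓ) (fun i => redModPrime N ℓ (b i)) := by
  have hℓ : ℓ.Prime := Fact.out
  rw [Fintype.linearIndependent_iff]
  intro g hg i
  set c : ι → ℤ := fun i => ((g i).cast : ℤ) with hc
  have hcg : ∀ i, ((c i : ℤ) : ZMod ℓ) = g i := fun i => ZMod.intCast_zmod_cast (g i)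
  set ψ₀ : ↥(parabolicHoms ℤ (Gamma0 N) ℤ) := ∑ i, c i • b i with hψ₀
  have h1 : redModPrime N ℓ ψ₀ = 0 := by
    rw [hψ₀, map_sum, ← hg]
    refine Finset.sum_congr rfl fun i _ => ?_
    rw [map_zsmul, ← hcg i, Int.cast_smul_eq_zsmul]
  have h2 : ∀ γ : Additive (Gamma0 N), ∃ a : ℤ, ψ₀.1 γ = (ℓ : ℤ) • a := by
    intro γ
    have h3 : ((ψ₀.1 γ : ℤ) : ZMod ℓ) = 0 := by
      rw [← redModPrime_apply, h1]
      rfl
    rw [ZMod.intCast_zmod_eq_zero_iff_dvd] at h3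
    obtain ⟨a, ha⟩ := h3
    exact ⟨a, by rw [ha, smul_eq_mul]⟩
  have hinj : Function.Injective fun a : ℤ => (ℓ : ℤ) • a := by
    intro a a' h
    simp only [smul_eq_mul] at h
    exact mul_left_cancel₀ (by exact_mod_cast hℓ.ne_zero) h
  obtain ⟨ψ', hψ'⟩ := exists_eq_smul_of_forall_exists ℤ (Gamma0 N) ℤ (ℓ : ℤ) hinj ψ₀ h2
  have h4 : b.repr ψ₀ i = c i := by
    rw [hψ₀, map_sum]
    simp only [map_zsmul, Module.Basis.repr_self, Finsupp.coe_finsetSum, Finsupp.coe_smul,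
      Finset.sum_apply, Pi.smul_apply, smul_eq_mul]
    rw [Finset.sum_eq_single i]
    · simp
    · intro j _ hji
      simp [hji]
    · intro h
      exact absurd (Finset.mem_univ i) h
  have h5 : b.repr ψ₀ i = (ℓ : ℤ) * b.repr ψ' i := by
    rw [hψ', map_zsmul]
    simp
  rw [← hcg i, ZMod.intCast_zmod_eq_zero_iff_dvd, ← h4, h5]
  exact dvd_mul_right _ _

/-- **reduction mod `ℓ` is onto.** -/
theorem exists_lift_mod_prime (y : Additive (Gamma0 N) →+ ZMod ℓ)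
    (hy : ∀ γ ∈ parTorSet (Gamma0 N), y (Additive.ofMul γ) = 0) :
    ∃ ψ ∈ parabolicHoms ℤ (Gamma0 N) ℤ, y = (Int.castAddHom (ZMod ℓ)).comp ψ := by
  classical
  haveI : Group.FG ↥(Gamma0 N) := group_fg_Gamma0 N
  obtain ⟨hfin, hle⟩ := ptHoms_finite_and_finrank_le N (ZMod ℓ)
  haveI := hfin
  set r := Module.finrank ℤ ↥(parabolicHoms ℤ (Gamma0 N) ℤ) with hr
  let b : Module.Basis (Fin r) ℤ ↥(parabolicHoms ℤ (Gamma0 N) ℤ) := Module.finBasis ℤ _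
  have hli := linearIndependent_redModPrime N ℓ b
  have h1 : Fintype.card (Fin r) ≤ Module.finrank (ZMod ℓ) ↥(ptHoms (Gamma0 N) (ZMod ℓ) (ZMod ℓ)) :=
    hli.fintype_card_le_finrank
  have h2 : Module.finrank (ZMod ℓ) ↥(ptHoms (Gamma0 N) (ZMod ℓ) (ZMod ℓ)) ≤ r := by
    have h3 := finrank_parabolicHoms_int N
    rw [← h3] at hle
    exact_mod_cast hle
  have h4 : Fintype.card (Fin r) =
      Module.finrank (ZMod ℓ) ↥(ptHoms (Gamma0 N) (ZMod ℓ) (ZMod ℓ)) := by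
    rw [Fintype.card_fin] at h1 ⊢
    omega
  have hspan := hli.span_eq_top_of_card_eq_finrank' h4
  have hy' : (⟨y, hy⟩ : ↥(ptHoms (Gamma0 N) (ZMod ℓ) (ZMod ℓ))) ∈
      Submodule.span (ZMod ℓ) (Set.range fun i => redModPrime N ℓ (b i)) := by
    rw [hspan]
    exact Submodule.mem_top
  rw [Submodule.mem_span_range_iff_exists_fun] at hy'
  obtain ⟨g, hg⟩ := hy'
  set c : Fin r → ℤ := fun i => ((g i).cast : ℤ) with hc
  have hcg : ∀ i, ((c i : ℤ) : ZMod ℓ) = g i := fun i => ZMod.intCast_zmod_cast (g i)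
  set ψ₀ : ↥(parabolicHoms ℤ (Gamma0 N) ℤ) := ∑ i, c i • b i with hψ₀
  have h5 : redModPrime N ℓ ψ₀ = ⟨y, hy⟩ := by
    rw [hψ₀, map_sum, ← hg]
    refine Finset.sum_congr rfl fun i _ => ?_
    rw [map_zsmul, ← hcg i, Int.cast_smul_eq_zsmul]
  refine ⟨ψ₀.1, ψ₀.2, ?_⟩
  have h6 := congrArg Subtype.val h5
  exact h6.symm

end ModPrime

section Devissage

/-- multiplication by `ℓ` as a map `ℤ/ℓ^k → ℤ/ℓ^(k+1)`. -/
noncomputable def mulPrimeHom (ℓ k : ℕ) : ZMod (ℓ ^ k) →+ ZMod (ℓ ^ (k + 1)) :=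
  ZMod.lift (ℓ ^ k) ⟨(Int.castAddHom (ZMod (ℓ ^ (k + 1)))).comp (AddMonoidHom.mulLeft (ℓ : ℤ)), by
    show (((ℓ : ℤ) * ((ℓ ^ k : ℕ) : ℤ) : ℤ) : ZMod (ℓ ^ (k + 1))) = 0
    rw [ZMod.intCast_zmod_eq_zero_iff_dvd]
    push_cast
    rw [pow_succ']⟩

theorem mulPrimeHom_intCast (ℓ k : ℕ) (a : ℤ) :
    mulPrimeHom ℓ k (a : ZMod (ℓ ^ k)) = (((ℓ : ℤ) * a : ℤ) : ZMod (ℓ ^ (k + 1))) := by
  rw [mulPrimeHom, ZMod.lift_coe]
  rfl

theorem mulPrimeHom_injective {ℓ : ℕ} (hℓ : ℓ ≠ 0) (k : ℕ) :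
    Function.Injective (mulPrimeHom ℓ k) := by
  rw [mulPrimeHom, ZMod.lift_injective]
  intro a ha
  have h1 : (((ℓ : ℤ) * a : ℤ) : ZMod (ℓ ^ (k + 1))) = 0 := ha
  rw [ZMod.intCast_zmod_eq_zero_iff_dvd] at h1 ⊢
  push_cast at h1 ⊢
  rw [pow_succ'] at h1
  exact (mul_dvd_mul_iff_left (by exact_mod_cast hℓ)).mp h1

theorem mem_range_mulPrimeHom {ℓ : ℕ} (k : ℕ) (c : ZMod (ℓ ^ (k + 1)))
    (hc : ZMod.castHom (dvd_pow_self ℓ (Nat.succ_ne_zero k)) (ZMod ℓ) c = 0) :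
    c ∈ (mulPrimeHom ℓ k).range := by
  obtain ⟨a, rfl⟩ := ZMod.intCast_surjective c
  rw [map_intCast, ZMod.intCast_zmod_eq_zero_iff_dvd] at hc
  obtain ⟨b, rfl⟩ := hc
  exact ⟨(b : ZMod (ℓ ^ k)), mulPrimeHom_intCast ℓ k b⟩

variable (ℓ : ℕ) [Fact ℓ.Prime]

/-- **(LB-TF)** every homomorphism `Γ₀(N) → ℤ/ℓ^k` killing the parabolic elements and the elements
of order dividing `12` lifts to an integral parabolic homomorphism. -/
theorem exists_parabolic_lift (k : ℕ) (y : Additive (Gamma0 N) →+ ZMod (ℓ ^ k))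
    (hy : ∀ γ ∈ parTorSet (Gamma0 N), y (Additive.ofMul γ) = 0) :
    ∃ ψ ∈ parabolicHoms ℤ (Gamma0 N) ℤ, y = (Int.castAddHom (ZMod (ℓ ^ k))).comp ψ := by
  have hℓ : ℓ.Prime := Fact.out
  induction k with
  | zero =>
    refine ⟨0, Submodule.zero_mem _, ?_⟩
    haveI : Subsingleton (ZMod (ℓ ^ 0)) := by
      rw [pow_zero]
      infer_instance
    exact AddMonoidHom.ext fun γ => Subsingleton.elim _ _
  | succ k ih =>
    set π : ZMod (ℓ ^ (k + 1)) →+* ZMod ℓ :=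
      ZMod.castHom (dvd_pow_self ℓ (Nat.succ_ne_zero k)) (ZMod ℓ) with hπ
    -- lift the reduction mod `ℓ`
    obtain ⟨ψ₁, hψ₁, hψ₁y⟩ := exists_lift_mod_prime N ℓ (π.toAddMonoidHom.comp y) (by
      intro γ hγ
      show π (y (Additive.ofMul γ)) = 0
      rw [hy γ hγ, map_zero])
    set y₁ : Additive (Gamma0 N) →+ ZMod (ℓ ^ (k + 1)) :=
      y - (Int.castAddHom (ZMod (ℓ ^ (k + 1)))).comp ψ₁ with hy₁
    have hy₁ker : ∀ γ, π (y₁ γ) = 0 := by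
      intro γ
      have h1 := DFunLike.congr_fun hψ₁y γ
      have h2 : π (y γ) = ((ψ₁ γ : ℤ) : ZMod ℓ) := h1
      show π (y γ - ((ψ₁ γ : ℤ) : ZMod (ℓ ^ (k + 1)))) = 0
      rw [map_sub, h2, map_intCast, sub_self]
    have hy₁range : ∀ γ, y₁ γ ∈ (mulPrimeHom ℓ k).range :=
      fun γ => mem_range_mulPrimeHom k _ (hy₁ker γ)
    -- divide by `ℓ`
    set e := AddMonoidHom.ofInjective (mulPrimeHom_injective hℓ.ne_zero k) with he
    set y₂ : Additive (Gamma0 N) →+ ZMod (ℓ ^ k) :=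
      e.symm.toAddMonoidHom.comp (y₁.codRestrict (mulPrimeHom ℓ k).range hy₁range) with hy₂
    have hy₂y₁ : ∀ γ, mulPrimeHom ℓ k (y₂ γ) = y₁ γ := by
      intro γ
      have h1 : e (y₂ γ) = y₁.codRestrict (mulPrimeHom ℓ k).range hy₁range γ := by
        show e (e.symm _) = _
        rw [AddEquiv.apply_symm_apply]
      have h2 := congrArg Subtype.val h1
      exact h2
    have hy₂kill : ∀ γ ∈ parTorSet (Gamma0 N), y₂ (Additive.ofMul γ) = 0 := by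
      intro γ hγ
      apply mulPrimeHom_injective hℓ.ne_zero k
      rw [hy₂y₁, map_zero]
      show y (Additive.ofMul γ) - ((ψ₁ (Additive.ofMul γ) : ℤ) : ZMod (ℓ ^ (k + 1))) = 0
      have h1 := cast_comp_mem_ptHoms ℤ (AddMonoidHom.id ℤ) hψ₁ γ hγ
      have h1' : ψ₁ (Additive.ofMul γ) = 0 := h1
      rw [hy γ hγ, h1', Int.cast_zero, sub_zero]
    obtain ⟨ψ₂, hψ₂, hψ₂y⟩ := ih y₂ hy₂kill
    refine ⟨ψ₁ + (ℓ : ℤ) • ψ₂, Submodule.add_mem _ hψ₁ (Submodule.smul_mem _ _ hψ₂), ?_⟩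
    refine AddMonoidHom.ext fun γ => ?_
    have h1 := hy₂y₁ γ
    have h2 : y₂ γ = ((ψ₂ γ : ℤ) : ZMod (ℓ ^ k)) := DFunLike.congr_fun hψ₂y γ
    rw [h2, mulPrimeHom_intCast] at h1
    have h3 : y₁ γ = y γ - ((ψ₁ γ : ℤ) : ZMod (ℓ ^ (k + 1))) := rfl
    show y γ = (((ψ₁ γ + (ℓ : ℤ) • ψ₂ γ : ℤ)) : ZMod (ℓ ^ (k + 1)))
    rw [smul_eq_mul, Int.cast_add, h1, h3]
    ring

end Devissage

end Fermat.Agent.S16
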