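import Mathlib
import Fermat.Prelude.Def_ModularForm_HeckeOperator

/-!
# (S16, UB-E) the weight two Eisenstein series on `Γ₀(p)`: slash invariance

`eis2Fun p z = (p E₂(p z) − E₂(z)) / 24`.
-/

set_option autoImplicit false

namespace Fermat.Agent.S16

open UpperHalfPlane ModularForm EisensteinSeries Matrix.SpecialLinearGroup
open scoped MatrixGroups ModularForm Real

noncomputable section

/-- The constant `1 / (2 ζ(2))` of `E2_slash_action`. -/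
def e2Const : ℂ := 1 / (2 * riemannZeta 2)

/-- `p E₂(p z)`, as a slash. -/
def e2Dil (p : ℕ) : ℍ → ℂ := E2 ∣[(2 : ℤ)] heckeDiagMatrix p

theorem e2Dil_apply {p : ℕ} (hp : p ≠ 0) (z : ℍ) :
    e2Dil p z = (p : ℂ) * E2 (heckeDiagMatrix p • z) := by
  rw [e2Dil, slash_heckeDiagMatrix_apply 2 hp]
  norm_num

/-- The weight two Eisenstein series of level `Γ₀(p)`, as a function:
`(p E₂(p z) − E₂(z)) / 24`. -/
def eis2Fun (p : ℕ) : ℍ → ℂ := (24 : ℂ)⁻¹ • (e2Dil p - E2)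

theorem eis2Fun_apply {p : ℕ} (hp : p ≠ 0) (z : ℍ) :
    eis2Fun p z = (24 : ℂ)⁻¹ * ((p : ℂ) * E2 (heckeDiagMatrix p • z) - E2 z) := by
  simp [eis2Fun, e2Dil_apply hp]

theorem s16_mapGL_apply (g : SL(2, ℤ)) (i j : Fin 2) :
    (mapGL ℝ g : GL (Fin 2) ℝ) i j = ((g i j : ℤ) : ℝ) := by
  simp

theorem s16_det_eq (g : SL(2, ℤ)) : g 0 0 * g 1 1 - g 0 1 * g 1 0 = 1 := by
  have h := g.det_coe
  rwa [Matrix.det_fin_two] at h

theorem s16_gl_ext {A B : GL (Fin 2) ℝ} (h00 : A 0 0 = B 0 0) (h01 : A 0 1 = B 0 1)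
    (h10 : A 1 0 = B 1 0) (h11 : A 1 1 = B 1 1) : A = B := by
  ext i j
  fin_cases i <;> fin_cases j <;> assumption

/-- `diag(p,1) γ = γ' diag(p,1)` when `p ∣ c`. -/
theorem s16_diag_mul_of_dvd {p : ℕ} (hp : p ≠ 0) (g : SL(2, ℤ)) (e : ℤ) (he : g 1 0 = p * e) :
    ∃ g' : SL(2, ℤ), g' 1 0 = e ∧ g' 1 1 = g 1 1 ∧
      heckeDiagMatrix p * mapGL ℝ g = mapGL ℝ g' * heckeDiagMatrix p := by
  have hdet := s16_det_eq g
  have hd : (!![g 0 0, p * g 0 1; e, g 1 1] : Matrix (Fin 2) (Fin 2) ℤ).det = 1 := by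
    rw [Matrix.det_fin_two_of]
    linear_combination hdet + (g 0 1) * he
  let g' : SL(2, ℤ) := ⟨!![g 0 0, p * g 0 1; e, g 1 1], hd⟩
  have h00 : g' 0 0 = g 0 0 := rfl
  have h01 : g' 0 1 = p * g 0 1 := rfl
  have h10 : g' 1 0 = e := rfl
  have h11 : g' 1 1 = g 1 1 := rfl
  have he' := congrArg (Int.cast : ℤ → ℝ) he
  push_cast at he'
  refine ⟨g', h10, h11, ?_⟩
  apply s16_gl_ext <;>
    simp only [Matrix.GeneralLinearGroup.coe_mul, Matrix.mul_apply, Fin.sum_univ_two,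
      s16_mapGL_apply, val_heckeDiagMatrix hp, h00, h01, h10, h11, Matrix.of_apply,
      Matrix.cons_val', Matrix.cons_val_zero, Matrix.cons_val_one, Matrix.cons_val_fin_one] <;>
    push_cast <;> first | ring1 | linear_combination he'

/-- `diag(p,1) γ = γ' (1 j; 0 p)` when `d = c j + p e`. -/
theorem s16_diag_mul_of_eq {p : ℕ} (hp : p ≠ 0) (g : SL(2, ℤ)) (j' : ℕ) (e : ℤ)
    (he : g 1 1 = g 1 0 * j' + p * e) :
    ∃ g' : SL(2, ℤ), g' 1 0 = g 1 0 ∧ g' 1 1 = e ∧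
      heckeDiagMatrix p * mapGL ℝ g = mapGL ℝ g' * heckeMatrix p j' := by
  have hdet := s16_det_eq g
  have hd : (!![p * g 0 0, g 0 1 - g 0 0 * j'; g 1 0, e] : Matrix (Fin 2) (Fin 2) ℤ).det = 1 := by
    rw [Matrix.det_fin_two_of]
    linear_combination hdet - (g 0 0) * he
  let g' : SL(2, ℤ) := ⟨!![p * g 0 0, g 0 1 - g 0 0 * j'; g 1 0, e], hd⟩
  have h00 : g' 0 0 = p * g 0 0 := rfl
  have h01 : g' 0 1 = g 0 1 - g 0 0 * j' := rfl
  have h10 : g' 1 0 = g 1 0 := rfl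
  have h11 : g' 1 1 = e := rfl
  have he' := congrArg (Int.cast : ℤ → ℝ) he
  push_cast at he'
  refine ⟨g', h10, h11, ?_⟩
  apply s16_gl_ext <;>
    simp only [Matrix.GeneralLinearGroup.coe_mul, Matrix.mul_apply, Fin.sum_univ_two,
      s16_mapGL_apply, val_heckeDiagMatrix hp, val_heckeMatrix hp, h00, h01, h10, h11,
      Matrix.of_apply, Matrix.cons_val', Matrix.cons_val_zero, Matrix.cons_val_one,
      Matrix.cons_val_fin_one] <;>
    push_cast <;> first | ring1 | linear_combination he' | linear_combination -he'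

theorem e2_slash_SL (g : SL(2, ℤ)) :
    E2 ∣[(2 : ℤ)] (mapGL ℝ g : GL (Fin 2) ℝ) = E2 - e2Const • D2 g := by
  have h := E2_slash_action g
  rw [SL_slash] at h
  exact h

theorem s16_denom_mapGL (g : SL(2, ℤ)) (z : ℍ) :
    denom (mapGL ℝ g : GL (Fin 2) ℝ) z = (g 1 0 : ℂ) * z + (g 1 1 : ℂ) := by
  simp [denom, s16_mapGL_apply]

theorem s16_D2_apply (g : SL(2, ℤ)) (z : ℍ) :
    D2 g z = (2 * π * Complex.I * (g 1 0 : ℂ)) / ((g 1 0 : ℂ) * z + (g 1 1 : ℂ)) := by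
  rw [D2]
  congr 1

/-- `(D2 γ') ∣ diag(p,1) = D2 γ` when `c = p c'`, `d = d'`. -/
theorem D2_slash_diag {p : ℕ} (hp : p ≠ 0) (g g' : SL(2, ℤ)) (h10 : g 1 0 = p * g' 1 0)
    (h11 : g' 1 1 = g 1 1) :
    (D2 g') ∣[(2 : ℤ)] heckeDiagMatrix p = D2 g := by
  funext z
  rw [slash_heckeDiagMatrix_apply 2 hp, s16_D2_apply, s16_D2_apply, coe_heckeDiagMatrix_smul hp,
    h10, h11]
  have hp' : (p : ℂ) ≠ 0 := by exact_mod_cast hp
  push_cast
  rw [zpow_one, mul_div_assoc']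
  congr 1
  · ring
  · ring

/-- Slash invariance of `eis2Fun p` under `Γ₀(p)`. -/
theorem eis2Fun_slash {p : ℕ} (hp : p ≠ 0) (g : SL(2, ℤ)) (hg : (p : ℤ) ∣ g 1 0) :
    eis2Fun p ∣[(2 : ℤ)] (mapGL ℝ g : GL (Fin 2) ℝ) = eis2Fun p := by
  obtain ⟨e, he⟩ := hg
  obtain ⟨g', h10, h11, hmul⟩ := s16_diag_mul_of_dvd hp g e he
  have h1 : e2Dil p ∣[(2 : ℤ)] (mapGL ℝ g : GL (Fin 2) ℝ) = e2Dil p - e2Const • D2 g := by
    rw [e2Dil, ← SlashAction.slash_mul, hmul, SlashAction.slash_mul, e2_slash_SL,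
      sub_eq_add_neg, SlashAction.add_slash, SlashAction.neg_slash, smul_slash,
      D2_slash_diag hp g g' (by rw [he, h10]) h11, sub_eq_add_neg]
    simp [σ_heckeDiagMatrix]
  rw [eis2Fun, smul_slash, sub_eq_add_neg, SlashAction.add_slash, SlashAction.neg_slash, h1,
    e2_slash_SL]
  have hσ : σ (mapGL ℝ g : GL (Fin 2) ℝ) = .refl ℝ ℂ := by
    rw [σ, if_pos]
    simp
  rw [hσ]
  simp only [ContinuousAlgEquiv.refl_apply]
  congr 1
  abel

end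

end Fermat.Agent.S16
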