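import Mathlib
import Fermat.Agent.S16.E_helper2_Slash

/-!
# (S16, UB-E) the weight two Eisenstein series on `Γ₀(p)` as a modular form
-/

set_option autoImplicit false

namespace Fermat.Agent.S16

open UpperHalfPlane ModularForm EisensteinSeries Matrix.SpecialLinearGroup OnePoint
open scoped MatrixGroups ModularForm Real Manifold

noncomputable section

theorem isBoundedAtImInfty_D2 (g : SL(2, ℤ)) : IsBoundedAtImInfty (D2 g) := by
  rw [isBoundedAtImInfty_iff]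
  refine ⟨2 * π, 1, fun z hz => ?_⟩
  rw [s16_D2_apply]
  by_cases hc : g 1 0 = 0
  · simp [hc, Real.pi_pos.le]
  have hc' : ((g 1 0 : ℤ) : ℝ) ≠ 0 := by exact_mod_cast hc
  have him : (((g 1 0 : ℤ) : ℂ) * (z : ℂ) + ((g 1 1 : ℤ) : ℂ)).im = ((g 1 0 : ℤ) : ℝ) * z.im := by
    simp
  have hle : |((g 1 0 : ℤ) : ℝ)| * z.im ≤ ‖((g 1 0 : ℤ) : ℂ) * (z : ℂ) + ((g 1 1 : ℤ) : ℂ)‖ := by
    have := Complex.abs_im_le_norm (((g 1 0 : ℤ) : ℂ) * (z : ℂ) + ((g 1 1 : ℤ) : ℂ))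
    rw [him, abs_mul, abs_of_pos z.im_pos] at this
    exact this
  have hpos : 0 < |((g 1 0 : ℤ) : ℝ)| * z.im := mul_pos (abs_pos.2 hc') z.im_pos
  rw [norm_div, div_le_iff₀ (lt_of_lt_of_le hpos hle)]
  have h1 : ‖2 * (π : ℂ) * Complex.I * ((g 1 0 : ℤ) : ℂ)‖ = 2 * π * |((g 1 0 : ℤ) : ℝ)| := by
    simp [abs_of_pos Real.pi_pos]
  rw [h1]
  calc 2 * π * |((g 1 0 : ℤ) : ℝ)| ≤ 2 * π * (|((g 1 0 : ℤ) : ℝ)| * z.im) := by
        have : |((g 1 0 : ℤ) : ℝ)| ≤ |((g 1 0 : ℤ) : ℝ)| * z.im :=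
          le_mul_of_one_le_right (abs_nonneg _) hz
        have h2 : (0 : ℝ) ≤ 2 * π := by positivity
        exact mul_le_mul_of_nonneg_left this h2
    _ ≤ 2 * π * ‖((g 1 0 : ℤ) : ℂ) * (z : ℂ) + ((g 1 1 : ℤ) : ℂ)‖ := by
        have h2 : (0 : ℝ) ≤ 2 * π := by positivity
        exact mul_le_mul_of_nonneg_left hle h2

theorem isBoundedAtImInfty_E2_slash (g : SL(2, ℤ)) :
    IsBoundedAtImInfty (E2 ∣[(2 : ℤ)] (mapGL ℝ g : GL (Fin 2) ℝ)) := by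
  rw [e2_slash_SL]
  exact isBoundedAtImInfty_E2.sub ((isBoundedAtImInfty_D2 g).const_smul_left e2Const)

theorem s16_heckeDiagMatrix_one_zero {p : ℕ} (hp : p ≠ 0) : (heckeDiagMatrix p) 1 0 = 0 := by
  simp [val_heckeDiagMatrix hp]

theorem s16_heckeMatrix_one_zero {p : ℕ} (hp : p ≠ 0) (j : ℕ) : (heckeMatrix p j) 1 0 = 0 := by
  simp [val_heckeMatrix hp]

theorem isBoundedAtImInfty_e2Dil_slash (p : ℕ) [Fact p.Prime] (g : SL(2, ℤ)) :
    IsBoundedAtImInfty (e2Dil p ∣[(2 : ℤ)] (mapGL ℝ g : GL (Fin 2) ℝ)) := by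
  have hp : p ≠ 0 := (Fact.out : p.Prime).ne_zero
  by_cases hdvd : (p : ℤ) ∣ g 1 0
  · obtain ⟨e, he⟩ := hdvd
    obtain ⟨g', -, -, hmul⟩ := s16_diag_mul_of_dvd hp g e he
    rw [e2Dil, ← SlashAction.slash_mul, hmul, SlashAction.slash_mul]
    exact (isBoundedAtImInfty_E2_slash g').slash 2 (s16_heckeDiagMatrix_one_zero hp)
  · -- `c` is a unit mod `p`
    have hc : ((g 1 0 : ℤ) : ZMod p) ≠ 0 := by
      rwa [Ne, ZMod.intCast_zmod_eq_zero_iff_dvd]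
    set j' : ℕ := (((g 1 1 : ℤ) : ZMod p) * ((g 1 0 : ℤ) : ZMod p)⁻¹).val with hj'
    have hcong : ((g 1 1 - g 1 0 * j' : ℤ) : ZMod p) = 0 := by
      push_cast
      rw [hj', ZMod.natCast_val, ZMod.cast_id', id_eq, mul_comm (((g 1 1 : ℤ) : ZMod p)),
        ← mul_assoc, mul_inv_cancel₀ hc, one_mul, sub_self]
    obtain ⟨e, he⟩ := (ZMod.intCast_zmod_eq_zero_iff_dvd _ p).1 hcong
    obtain ⟨g', -, -, hmul⟩ := s16_diag_mul_of_eq hp g j' e (by linarith)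
    rw [e2Dil, ← SlashAction.slash_mul, hmul, SlashAction.slash_mul]
    exact (isBoundedAtImInfty_E2_slash g').slash 2 (s16_heckeMatrix_one_zero hp j')

theorem isBoundedAtImInfty_eis2Fun_slash (p : ℕ) [Fact p.Prime] (g : SL(2, ℤ)) :
    IsBoundedAtImInfty (eis2Fun p ∣[(2 : ℤ)] (mapGL ℝ g : GL (Fin 2) ℝ)) := by
  have hσ : σ (mapGL ℝ g : GL (Fin 2) ℝ) = .refl ℝ ℂ := by
    rw [σ, if_pos]
    simp
  rw [eis2Fun, smul_slash, sub_eq_add_neg, SlashAction.add_slash, SlashAction.neg_slash, hσ]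
  exact ((isBoundedAtImInfty_e2Dil_slash p g).add (isBoundedAtImInfty_E2_slash g).neg).const_smul_left _

theorem mdifferentiable_eis2Fun (p : ℕ) : MDiff (eis2Fun p) := by
  have h1 : MDiff (e2Dil p) := E2_mdifferentiable.slash 2 _
  have h2 : MDiff (e2Dil p - E2) := h1.sub E2_mdifferentiable
  exact h2.const_smul _

/-- The weight two Eisenstein series `(p E₂(pz) − E₂(z))/24` on `Γ₀(p)`. -/
def eisP (p : ℕ) [Fact p.Prime] : ModularForm (CongruenceSubgroup.Gamma0 p) 2 where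
  toFun := eis2Fun p
  slash_action_eq' := by
    intro γ hγ
    obtain ⟨g, hg, rfl⟩ := Subgroup.mem_map.1 hγ
    refine eis2Fun_slash (Fact.out : p.Prime).ne_zero g ?_
    rw [CongruenceSubgroup.Gamma0_mem] at hg
    exact (ZMod.intCast_zmod_eq_zero_iff_dvd _ p).1 hg
  holo' := mdifferentiable_eis2Fun p
  bdd_at_cusps' := by
    intro c hc
    rw [Subgroup.IsArithmetic.isCusp_iff_isCusp_SL2Z] at hc
    rw [isBoundedAt_iff_forall_SL2Z hc]
    intro γ _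
    rw [SL_slash]
    exact isBoundedAtImInfty_eis2Fun_slash p γ

@[simp] theorem coe_eisP (p : ℕ) [Fact p.Prime] : ⇑(eisP p) = eis2Fun p := rfl

end

end Fermat.Agent.S16
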