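import Mathlib
import Fermat.Prelude.Def_FLTPrelim_Modularity
import Fermat.Agent.S16.E_helper2_Form
import Fermat.Agent.GR.S16D_helper9_Arith

/-!
# (S16, UB-E) `q`-expansion of the weight two Eisenstein series on `Γ₀(p)`

`a₀ = (p − 1)/24`, `a_k = σ'(k) = sigmaP p k` for `k ≥ 1`.
-/

set_option autoImplicit false

namespace Fermat.Agent.S16

open UpperHalfPlane ModularForm EisensteinSeries Matrix.SpecialLinearGroup OnePoint
open Fermat.Agent.GR
open scoped MatrixGroups ModularForm Real Manifold ArithmeticFunction.sigma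

noncomputable section

/-- `σ'(n) = σ(n) − [p ∣ n] p σ(n/p)`. -/
theorem sigmaP_eq_sigma_sub {p : ℕ} (hp : p.Prime) (n : ℕ) :
    (sigmaP p n : ℤ) = (σ 1 n : ℤ) - (if p ∣ n then (p : ℤ) * (σ 1 (n / p) : ℤ) else 0) := by
  rcases Nat.eq_zero_or_pos n with rfl | hn
  · simp [sigmaP_zero]
  have h1 : (σ 1 n : ℕ) = sigmaP p n + ∑ d ∈ n.divisors.filter (fun d => p ∣ d), d := by
    rw [ArithmeticFunction.sigma_one_apply, sigmaP]
    rw [add_comm]
    exact (Finset.sum_filter_add_sum_filter_not n.divisors (fun d => p ∣ d) (fun d => d)).symm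
  have h2 : ∑ d ∈ n.divisors.filter (fun d => p ∣ d), d =
      if p ∣ n then p * σ 1 (n / p) else 0 := by
    split_ifs with hpn
    · rw [ArithmeticFunction.sigma_one_apply, Finset.mul_sum]
      have : n.divisors.filter (fun d => p ∣ d) = (n / p).divisors.image (fun e => p * e) := by
        ext d
        simp only [Finset.mem_filter, Nat.mem_divisors, Finset.mem_image]
        constructor
        · rintro ⟨⟨hd, _⟩, e, rfl⟩
          refine ⟨e, ⟨(Nat.dvd_div_iff_mul_dvd hpn).2 hd, ?_⟩, rfl⟩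
          exact (Nat.div_pos (Nat.le_of_dvd hn hpn) hp.pos).ne'
        · rintro ⟨e, ⟨he, _⟩, rfl⟩
          exact ⟨⟨(Nat.dvd_div_iff_mul_dvd hpn).1 he, hn.ne'⟩, Dvd.intro e rfl⟩
      rw [this, Finset.sum_image (fun a _ b _ h => Nat.eq_of_mul_eq_mul_left hp.pos h)]
    · apply Finset.sum_eq_zero
      intro d hd
      rw [Finset.mem_filter, Nat.mem_divisors] at hd
      exact absurd (dvd_trans hd.2 hd.1.1) hpn
  rw [h2] at h1
  split_ifs at h1 ⊢ with hpn
  · rw [h1]; push_cast; ring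
  · rw [h1]; simp

/-- The `q`-coefficients of `E₂`. -/
def e2Coeff (m : ℕ) : ℂ := if m = 0 then 1 else -24 * (σ 1 m : ℂ)

/-- The `q`-coefficients of `E₂(p z)`. -/
def e2DilCoeff (p n : ℕ) : ℂ := if p ∣ n then e2Coeff (n / p) else 0

theorem s16_qParam_one_eq (z : ℍ) :
    Function.Periodic.qParam 1 (z : ℂ) = Complex.exp (2 * π * Complex.I * z) := by
  simp [Function.Periodic.qParam]

theorem hasSum_E2_qParam (z : ℍ) :
    HasSum (fun m : ℕ => e2Coeff m • Function.Periodic.qParam 1 (z : ℂ) ^ m) (E2 z) := by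
  simp only [s16_qParam_one_eq]
  exact hasSum_qExpansion_E2 (z := z)

theorem s16_qParam_one_heckeDiag {p : ℕ} (hp : p ≠ 0) (z : ℍ) :
    Function.Periodic.qParam 1 ((heckeDiagMatrix p • z : ℍ) : ℂ) =
      Function.Periodic.qParam 1 (z : ℂ) ^ p := by
  rw [s16_qParam_one_eq, s16_qParam_one_eq, coe_heckeDiagMatrix_smul hp, ← Complex.exp_nat_mul]
  congr 1
  ring

theorem hasSum_E2_dil {p : ℕ} (hp : p ≠ 0) (z : ℍ) :
    HasSum (fun n : ℕ => e2DilCoeff p n • Function.Periodic.qParam 1 (z : ℂ) ^ n)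
      (E2 (heckeDiagMatrix p • z)) := by
  have h := hasSum_E2_qParam (heckeDiagMatrix p • z)
  rw [s16_qParam_one_heckeDiag hp] at h
  have hinj : Function.Injective (fun m : ℕ => p * m) :=
    fun a b hab => Nat.eq_of_mul_eq_mul_left (Nat.pos_of_ne_zero hp) hab
  rw [← hinj.hasSum_iff]
  · convert h using 2 with m
    simp only [Function.comp_apply, e2DilCoeff, if_pos (Dvd.intro m rfl : p ∣ p * m),
      Nat.mul_div_cancel_left m (Nat.pos_of_ne_zero hp), pow_mul]
  · intro n hn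
    have : ¬ p ∣ n := fun ⟨m, hm⟩ => hn ⟨m, hm.symm⟩
    simp [e2DilCoeff, this]

/-- The `q`-coefficients of `eisP p`. -/
def eis2Coeff (p n : ℕ) : ℂ := (24 : ℂ)⁻¹ * ((p : ℂ) * e2DilCoeff p n - e2Coeff n)

theorem hasSum_eisP (p : ℕ) [Fact p.Prime] (z : ℍ) :
    HasSum (fun n : ℕ => eis2Coeff p n • Function.Periodic.qParam 1 (z : ℂ) ^ n) (eisP p z) := by
  have hp : p ≠ 0 := (Fact.out : p.Prime).ne_zero
  have h1 := (hasSum_E2_dil hp z).mul_left (p : ℂ)
  have h2 := (h1.sub (hasSum_E2_qParam z)).mul_left ((24 : ℂ)⁻¹)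
  rw [show eisP p z = eis2Fun p z from rfl, eis2Fun_apply hp]
  have h3 : (fun n : ℕ => eis2Coeff p n • Function.Periodic.qParam 1 (z : ℂ) ^ n) =
      fun i : ℕ => (24 : ℂ)⁻¹ * ((p : ℂ) * e2DilCoeff p i • Function.Periodic.qParam 1 (z : ℂ) ^ i -
        e2Coeff i • Function.Periodic.qParam 1 (z : ℂ) ^ i) := by
    funext n
    simp only [eis2Coeff, smul_eq_mul]
    ring
  rw [h3]
  exact h2

theorem eis2Coeff_zero (p : ℕ) : eis2Coeff p 0 = ((p : ℂ) - 1) / 24 := by
  simp only [eis2Coeff, e2DilCoeff, e2Coeff, dvd_zero, if_true, Nat.zero_div, mul_one]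
  ring

theorem eis2Coeff_pos {p : ℕ} (hp : p.Prime) {n : ℕ} (hn : 1 ≤ n) :
    eis2Coeff p n = (sigmaP p n : ℂ) := by
  have hn0 : n ≠ 0 := by omega
  have h := sigmaP_eq_sigma_sub hp n
  have h' : (sigmaP p n : ℂ) =
      (σ 1 n : ℂ) - (if p ∣ n then (p : ℂ) * (σ 1 (n / p) : ℂ) else 0) := by
    have := congrArg (Int.cast : ℤ → ℂ) h
    push_cast at this
    rw [this]
  rw [h', eis2Coeff, e2DilCoeff]
  split_ifs with hpn
  · have hnp : n / p ≠ 0 := (Nat.div_pos (Nat.le_of_dvd (by omega) hpn) hp.pos).ne'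
    rw [e2Coeff, if_neg hnp, e2Coeff, if_neg hn0]
    ring
  · rw [e2Coeff, if_neg hn0]
    ring

theorem s16_one_mem_strictPeriods_Gamma0 (p : ℕ) :
    (1 : ℝ) ∈ (CongruenceSubgroup.Gamma0 p : Subgroup (GL (Fin 2) ℝ)).strictPeriods := by
  simp [CongruenceSubgroup.strictPeriods_Gamma0]

theorem qExpansion_eisP_coeff (p : ℕ) [Fact p.Prime] (n : ℕ) :
    (qExpansion 1 (eisP p)).coeff n = eis2Coeff p n :=
  (ModularFormClass.qExpansion_coeff_unique one_pos (s16_one_mem_strictPeriods_Gamma0 p)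
    (f := eisP p) (fun τ => hasSum_eisP p τ) n).symm

/-- (UB-E) literal: constant term. -/
theorem qExpansion_eisP_coeff_zero (p : ℕ) [Fact p.Prime] :
    (qExpansion 1 (eisP p)).coeff 0 = ((p : ℂ) - 1) / 24 := by
  rw [qExpansion_eisP_coeff, eis2Coeff_zero]

/-- (UB-E) literal: higher coefficients. -/
theorem qExpansion_eisP_coeff_pos (p : ℕ) [Fact p.Prime] {k : ℕ} (hk : 1 ≤ k) :
    (qExpansion 1 (eisP p)).coeff k = (sigmaP p k : ℂ) := by
  rw [qExpansion_eisP_coeff, eis2Coeff_pos Fact.out hk]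

/-- (UB-E) constant term of the Eisenstein series. -/
theorem qCoeff_eisP_zero (p : ℕ) [Fact p.Prime] :
    ModularFormClass.qCoeff (⇑(eisP p)) 0 = ((p : ℂ) - 1) / 24 := by
  rw [ModularFormClass.qCoeff, qExpansion_eisP_coeff, eis2Coeff_zero]

/-- (UB-E) higher coefficients of the Eisenstein series. -/
theorem qCoeff_eisP_pos (p : ℕ) [Fact p.Prime] {n : ℕ} (hn : 1 ≤ n) :
    ModularFormClass.qCoeff (⇑(eisP p)) n = (sigmaP p n : ℂ) := by
  rw [ModularFormClass.qCoeff, qExpansion_eisP_coeff, eis2Coeff_pos Fact.out hn]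

end

end Fermat.Agent.S16
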