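import Mathlib
import Fermat.Prelude.Def_ModularCurve_ModularUnit
import Fermat.Prelude.Def_CuspForm_IntegralStructure
import Fermat.Agent.S16.E_helper2_QExp
import Fermat.Agent.Helper2.CuspLattice
import Fermat.Agent.Helper2.Gamma0Small
import Fermat.Agent.X0N.Cosets_helper9_Count

/-!
# (S16, UB-FIN) reduction of (C2) to the "no congruence" statements (NC)

`NoCong p ℓ s`: there is no `g ∈ M₂(Γ₀(p))` with `q`-expansion `u + ℓ^s Z`, `u ∈ ℤ` prime to `ℓ`,
`Z ∈ ℤ⟦X⟧`.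
-/

set_option autoImplicit false

namespace Fermat.Agent.S16

open UpperHalfPlane ModularForm ModularFormClass CuspForm ModularCurve
open Fermat.Agent.GR Fermat.Agent.Helper2
open scoped MatrixGroups ModularForm

noncomputable section

/-- (NC) for `(p, ℓ, s)`. -/
def NoCong (p ℓ s : ℕ) : Prop :=
  ∀ (g : ModularForm (CongruenceSubgroup.Gamma0 p) 2) (u : ℤ) (Z : PowerSeries ℤ),
    ¬ (ℓ : ℤ) ∣ u →
    qExpansion 1 g =
      (PowerSeries.C (u : ℤ) + PowerSeries.C ((ℓ : ℤ) ^ s) * Z).map (Int.castRingHom ℂ) → False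

theorem NoCong.mono {p ℓ s s' : ℕ} (h : NoCong p ℓ s) (hs : s ≤ s') : NoCong p ℓ s' := by
  intro g u Z hu hg
  obtain ⟨d, rfl⟩ := Nat.exists_eq_add_of_le hs
  refine h g u (PowerSeries.C ((ℓ : ℤ) ^ d) * Z) hu ?_
  rw [hg, pow_add, map_mul, mul_assoc]

/-- The form `κ • (eisP p − f)`. -/
def ncForm (p : ℕ) [Fact p.Prime] (κ : ℂ) (f : CuspForm (CongruenceSubgroup.Gamma0 p) 2) :
    ModularForm (CongruenceSubgroup.Gamma0 p) 2 :=
  κ • (eisP p - CuspForm.toModularFormₗ f)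

theorem coe_ncForm (p : ℕ) [Fact p.Prime] (κ : ℂ) (f : CuspForm (CongruenceSubgroup.Gamma0 p) 2) :
    ⇑(ncForm p κ f) = κ • (⇑(eisP p) - ⇑f) := by
  ext z
  simp [ncForm]

/-- The `q`-expansion of `κ • (eisP p − f)`. -/
theorem qExpansion_ncForm_coeff (p : ℕ) [Fact p.Prime] (κ : ℂ)
    (f : CuspForm (CongruenceSubgroup.Gamma0 p) 2) (k : ℕ) :
    (qExpansion 1 (ncForm p κ f)).coeff k =
      κ * ((qExpansion 1 (eisP p)).coeff k - qCoeff ⇑f k) := by
  have h0 : ⇑(eisP p - CuspForm.toModularFormₗ f) = ⇑(eisP p) - ⇑f := by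
    ext z
    simp
  have h1 : ⇑(ncForm p κ f) = κ • ⇑(eisP p - CuspForm.toModularFormₗ f) := by
    rw [coe_ncForm, h0]
  rw [h1, ModularForm.qExpansion_smul one_pos (hΓ0 p) κ (eisP p - CuspForm.toModularFormₗ f), h0,
    ModularForm.qExpansion_sub one_pos (hΓ0 p) (eisP p) f]
  simp [qCoeff]

theorem s16_prime_mod_twelve {p : ℕ} (hp : p.Prime) (hp5 : 5 ≤ p) :
    p % 12 = 1 ∨ p % 12 = 5 ∨ p % 12 = 7 ∨ p % 12 = 11 := by
  have h2 : ¬ 2 ∣ p := fun h => by
    have := (Nat.prime_dvd_prime_iff_eq Nat.prime_two hp).1 h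
    omega
  have h3 : ¬ 3 ∣ p := fun h => by
    have := (Nat.prime_dvd_prime_iff_eq Nat.prime_three hp).1 h
    omega
  omega

/-- `24 / gcd(p−1, 12)` in terms of `p mod 12`. -/
theorem s16_cofactor {p : ℕ} (hp5 : 5 ≤ p) :
    (p % 12 = 1 → 24 / Nat.gcd (p - 1) 12 = 2) ∧ (p % 12 = 5 → 24 / Nat.gcd (p - 1) 12 = 6) ∧
    (p % 12 = 7 → 24 / Nat.gcd (p - 1) 12 = 4) ∧ (p % 12 = 11 → 24 / Nat.gcd (p - 1) 12 = 12) := by
  have key : Nat.gcd (p - 1) 12 = Nat.gcd ((p - 1) % 12) 12 := by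
    rw [Nat.gcd_comm, Nat.gcd_rec]
  refine ⟨fun h => ?_, fun h => ?_, fun h => ?_, fun h => ?_⟩
  · have : (p - 1) % 12 = 0 := by omega
    rw [key, this]
    decide
  · have : (p - 1) % 12 = 4 := by omega
    rw [key, this]
    decide
  · have : (p - 1) % 12 = 6 := by omega
    rw [key, this]
    decide
  · have : (p - 1) % 12 = 10 := by omega
    rw [key, this]
    decide

/-- The exponent `s = 1 + v_ℓ(24/ν)` of (NC). -/
def ncExp (p ℓ : ℕ) : ℕ := 1 + padicValNat ℓ (24 / Nat.gcd (p - 1) 12)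

theorem s16_padicValNat_two_two : padicValNat 2 2 = 1 := by
  simp

theorem s16_padicValNat_two_six : padicValNat 2 6 = 1 := by
  have : (6 : ℕ) = 2 ^ 1 * 3 := by norm_num
  rw [this, padicValNat.mul (by norm_num) (by norm_num), padicValNat.prime_pow]
  simp [padicValNat.eq_zero_of_not_dvd]

theorem s16_padicValNat_two_four : padicValNat 2 4 = 2 := by
  have : (4 : ℕ) = 2 ^ 2 := by norm_num
  rw [this, padicValNat.prime_pow]

theorem s16_padicValNat_two_twelve : padicValNat 2 12 = 2 := by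
  have : (12 : ℕ) = 2 ^ 2 * 3 := by norm_num
  rw [this, padicValNat.mul (by norm_num) (by norm_num), padicValNat.prime_pow]
  simp [padicValNat.eq_zero_of_not_dvd]

theorem s16_padicValNat_three_six : padicValNat 3 6 = 1 := by
  have h6 : (6 : ℕ) = 3 ^ 1 * 2 := by norm_num
  have : Fact (Nat.Prime 3) := ⟨Nat.prime_three⟩
  rw [h6, padicValNat.mul (by norm_num) (by norm_num), padicValNat.prime_pow]
  simp [padicValNat.eq_zero_of_not_dvd]

theorem s16_padicValNat_three_twelve : padicValNat 3 12 = 1 := by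
  have h12 : (12 : ℕ) = 3 ^ 1 * 4 := by norm_num
  have : Fact (Nat.Prime 3) := ⟨Nat.prime_three⟩
  rw [h12, padicValNat.mul (by norm_num) (by norm_num), padicValNat.prime_pow]
  simp [padicValNat.eq_zero_of_not_dvd]

theorem ncExp_of_five_le {p ℓ : ℕ} (hℓ : ℓ.Prime) (hℓ5 : 5 ≤ ℓ) :
    ncExp p ℓ = 1 := by
  have hdvd : 24 / Nat.gcd (p - 1) 12 ∣ 24 :=
    Nat.div_dvd_of_dvd (dvd_trans (Nat.gcd_dvd_right _ _) (by norm_num))
  have hnd : ¬ ℓ ∣ 24 / Nat.gcd (p - 1) 12 := by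
    intro h
    have h24 : ℓ ∣ 24 := dvd_trans h hdvd
    have : (24 : ℕ) = 2 ^ 3 * 3 := by norm_num
    rw [this] at h24
    rcases (Nat.Prime.dvd_mul hℓ).1 h24 with h | h
    · have := (Nat.prime_dvd_prime_iff_eq hℓ Nat.prime_two).1 (hℓ.dvd_of_dvd_pow h)
      omega
    · have := (Nat.prime_dvd_prime_iff_eq hℓ Nat.prime_three).1 h
      omega
  rw [ncExp, padicValNat.eq_zero_of_not_dvd hnd]

theorem ncExp_three {p : ℕ} (hp : p.Prime) (hp5 : 5 ≤ p) :
    (p % 3 = 1 → ncExp p 3 = 1) ∧ (p % 3 = 2 → ncExp p 3 = 2) := by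
  obtain ⟨c1, c5, c7, c11⟩ := s16_cofactor hp5
  have h3 : ¬ (3 : ℕ) ∣ 2 := by norm_num
  have h3' : ¬ (3 : ℕ) ∣ 4 := by norm_num
  rcases s16_prime_mod_twelve hp hp5 with h | h | h | h
  · refine ⟨fun _ => ?_, fun h' => by omega⟩
    rw [ncExp, c1 h, padicValNat.eq_zero_of_not_dvd h3]
  · refine ⟨fun h' => by omega, fun _ => ?_⟩
    rw [ncExp, c5 h, s16_padicValNat_three_six]
  · refine ⟨fun _ => ?_, fun h' => by omega⟩
    rw [ncExp, c7 h, padicValNat.eq_zero_of_not_dvd h3']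
  · refine ⟨fun h' => by omega, fun _ => ?_⟩
    rw [ncExp, c11 h, s16_padicValNat_three_twelve]

theorem ncExp_two {p : ℕ} (hp : p.Prime) (hp5 : 5 ≤ p) :
    (p % 4 = 1 → ncExp p 2 = 2) ∧ (p % 4 = 3 → ncExp p 2 = 3) := by
  obtain ⟨c1, c5, c7, c11⟩ := s16_cofactor hp5
  rcases s16_prime_mod_twelve hp hp5 with h | h | h | h
  · refine ⟨fun _ => ?_, fun h' => by omega⟩
    rw [ncExp, c1 h, s16_padicValNat_two_two]
  · refine ⟨fun _ => ?_, fun h' => by omega⟩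
    rw [ncExp, c5 h, s16_padicValNat_two_six]
  · refine ⟨fun h' => by omega, fun _ => ?_⟩
    rw [ncExp, c7 h, s16_padicValNat_two_four]
  · refine ⟨fun h' => by omega, fun _ => ?_⟩
    rw [ncExp, c11 h, s16_padicValNat_two_twelve]

end

end Fermat.Agent.S16
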