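import Fermat.Agent.S16.WTR_helper4_W
import Mathlib.NumberTheory.ModularForms.LevelOne.DimensionFormula

/-!
# S16 / UB-W/TR, part 3: the trace formula `Tr F = F + p^{2-k} U_p (F ∣ W)` and `U_p² = 1` in weight two
-/

set_option autoImplicit false

noncomputable section

namespace Fermat.Agent.S16


open Matrix Matrix.SpecialLinearGroup CongruenceSubgroup UpperHalfPlane ModularForm
open scoped MatrixGroups ModularForm

variable {p : ℕ} {k : ℤ}

theorem slash_stMat_eq [NeZero p] (F : ModularForm (Gamma0 p) k) (j : ℕ) :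
    ⇑F ∣[k] (mapGL ℝ (stMat (j : ℤ))) = ((p : ℂ) ^ (2 - k)) • (⇑(wOp F) ∣[k] heckeMatrix p j) := by
  have hp : (p : ℝ) ≠ 0 := by exact_mod_cast NeZero.ne p
  have hp' : (p : ℂ) ≠ 0 := by exact_mod_cast NeZero.ne p
  rw [coe_wOp, ← SlashAction.slash_mul,
    slash_eq_of_val_eq_smul (k := k) ⇑F (wMat p * heckeMatrix p j) (mapGL ℝ (stMat (j : ℤ))) (p : ℝ) hp
      (det_mapGL_pos _) (val_wMat_mul_heckeMatrix j),
    smul_smul]
  have : (p : ℂ) ^ (2 - k) * ((p : ℝ) : ℂ) ^ (k - 2) = 1 := by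
    push_cast
    rw [← zpow_add₀ hp']
    simp
  rw [this, one_smul]

/-- (T2) The trace from `Γ₀(p)` to `SL₂(ℤ)`: `Tr F = F + p^{2-k} U_p(F ∣ W)`. -/
theorem coe_trace_eq_heckeU [Fact p.Prime] (F : ModularForm (Gamma0 p) k) :
    ⇑(ModularForm.trace 𝒮ℒ F) = ⇑F + ((p : ℂ) ^ (2 - k)) • heckeU k p ⇑(wOp F) := by
  rw [coe_trace_eq, heckeU_def, Finset.sum_range (fun j => ⇑(wOp F) ∣[k] heckeMatrix p j),
    Finset.smul_sum]
  congr 1
  refine Finset.sum_congr rfl fun j _ => ?_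
  exact_mod_cast slash_stMat_eq F (j : ℕ)

theorem coe_wOp_wOp [NeZero p] (F : ModularForm (Gamma0 p) k) :
    ⇑(wOp (wOp F)) = ((-(p : ℂ)) ^ (k - 2)) • ⇑F := by
  have hp : -(p : ℝ) ≠ 0 := by
    rw [neg_ne_zero]; exact_mod_cast NeZero.ne p
  rw [coe_wOp, coe_wOp, ← SlashAction.slash_mul,
    slash_eq_of_val_eq_smul (k := k) ⇑F (wMat p * wMat p) 1 (-(p : ℝ)) hp (by simp)
      val_wMat_mul_wMat, SlashAction.slash_one]
  push_cast
  rfl

theorem levelOne_weight_two_eq_zero (f : ModularForm 𝒮ℒ 2) : f = 0 :=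
  rank_zero_iff_forall_zero.mp ModularForm.levelOne_weight_two_rank_zero f

/-- (T3a) In weight two, `U_p (F ∣ W) = -F`. -/
theorem heckeU_wOp_eq_neg [Fact p.Prime] (F : ModularForm (Gamma0 p) 2) :
    heckeU 2 p ⇑(wOp F) = -⇑F := by
  have h := coe_trace_eq_heckeU F
  rw [levelOne_weight_two_eq_zero (ModularForm.trace 𝒮ℒ F)] at h
  simp only [sub_self, zpow_zero, one_smul] at h
  have h' : (0 : ℍ → ℂ) = ⇑F + heckeU 2 p ⇑(wOp F) := by simpa using h
  exact (neg_eq_of_add_eq_zero_right h'.symm).symm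

/-- (T3b) In weight two, `U_p F = -(F ∣ W)`. -/
theorem heckeU_eq_neg_wOp [Fact p.Prime] (F : ModularForm (Gamma0 p) 2) :
    heckeU 2 p ⇑F = -⇑(wOp F) := by
  have h := heckeU_wOp_eq_neg (wOp F)
  rwa [coe_wOp_wOp, sub_self, zpow_zero, one_smul] at h

/-- (T3c) In weight two, `U_p` is an involution on `M₂(Γ₀(p))`. -/
theorem heckeU_heckeU [Fact p.Prime] (F : ModularForm (Gamma0 p) 2) :
    heckeU 2 p (heckeU 2 p ⇑F) = ⇑F := by
  rw [heckeU_eq_neg_wOp, heckeU_neg, heckeU_wOp_eq_neg, neg_neg]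

end Fermat.Agent.S16
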