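import Mathlib
import Fermat.Agent.S16.WTR_helper4_Trace
import Fermat.Prelude.Thm_ModularFormClass_qCoeff_heckeU
import Fermat.Prelude.Thm_CongruenceSubgroup_one_mem_strictPeriods_Gamma0

/-!
# S16 / UB-W/TR, part 4: the trace identities (T3), (T4), (T6) as identities of `q`-expansions
-/

set_option autoImplicit false
noncomputable section
namespace Fermat.Agent.S16

open Matrix Matrix.SpecialLinearGroup CongruenceSubgroup UpperHalfPlane ModularForm
open scoped MatrixGroups ModularForm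

variable {p : ℕ} {k : ℤ}

/-- The operator `U_p` on power series: `coeff n (upS p a) = coeff (n * p) a`. -/
def upS (p : ℕ) : PowerSeries ℂ →ₗ[ℂ] PowerSeries ℂ where
  toFun a := PowerSeries.mk fun n => PowerSeries.coeff (n * p) a
  map_add' a b := by ext n; simp
  map_smul' c a := by ext n; simp

@[simp] theorem coeff_upS (p : ℕ) (a : PowerSeries ℂ) (n : ℕ) :
    PowerSeries.coeff n (upS p a) = PowerSeries.coeff (n * p) a := by
  simp [upS]

theorem heckeU_weight_irrel (k k' : ℤ) (p : ℕ) (f : ℍ → ℂ) : heckeU k p f = heckeU k' p f := by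
  rcases eq_or_ne p 0 with rfl | hp
  · simp
  · ext τ
    rw [heckeU_apply k hp, heckeU_apply k' hp]

theorem qExpansion_heckeU [NeZero p] (F : ModularForm (Gamma0 p) k) :
    qExpansion 1 (heckeU k p ⇑F) = upS p (qExpansion 1 ⇑F) := by
  ext n
  rw [coeff_upS]
  exact ModularFormClass.qCoeff_heckeU F (CongruenceSubgroup.one_mem_strictPeriods_Gamma0 p)
    (NeZero.ne p) n


theorem one_mem_strictPeriods_G0 (p : ℕ) :
    (1 : ℝ) ∈ (Subgroup.map (mapGL ℝ) (Gamma0 p)).strictPeriods :=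
  CongruenceSubgroup.one_mem_strictPeriods_Gamma0 p

/-- `U_p` as an operator on `M_k(Γ₀(p))`. -/
abbrev uOp [NeZero p] (F : ModularForm (Gamma0 p) k) : ModularForm (Gamma0 p) k :=
  ModularForm.heckeULin k (dvd_refl p) F

theorem qExpansion_uOp [NeZero p] (F : ModularForm (Gamma0 p) k) :
    qExpansion 1 ⇑(uOp F) = upS p (qExpansion 1 ⇑F) := by
  rw [ModularForm.coe_heckeULin_apply]
  exact qExpansion_heckeU F

theorem coe_wOp_mul [NeZero p] {k₁ k₂ : ℤ} (A : ModularForm (Gamma0 p) k₁)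
    (B : ModularForm (Gamma0 p) k₂) :
    ⇑(wOp (A.mul B)) = (p : ℂ) • (⇑(wOp A) * ⇑(wOp B)) := by
  rw [coe_wOp, ModularForm.coe_mul, ModularForm.mul_slash, coe_wOp, coe_wOp, det_wMat,
    abs_of_pos (by exact_mod_cast Nat.pos_of_ne_zero (NeZero.ne p) : (0 : ℝ) < p)]
  ext τ
  simp

theorem coeff_zero_upS (p : ℕ) (a : PowerSeries ℂ) :
    PowerSeries.coeff 0 (upS p a) = PowerSeries.coeff 0 a := by
  simp

/-- (T4) The weight-four trace identity: for `A B ∈ M₂(Γ₀(p))`,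
`A B + p⁻¹ U_p(U_p A · U_p B) = (1 + p⁻¹) a₀(A) a₀(B) E₄` (as `q`-expansions). -/
theorem trace_mul_identity [Fact p.Prime] (A B : ModularForm (Gamma0 p) 2) :
    qExpansion 1 ⇑A * qExpansion 1 ⇑B +
        (p : ℂ)⁻¹ • upS p (upS p (qExpansion 1 ⇑A) * upS p (qExpansion 1 ⇑B)) =
      ((1 + (p : ℂ)⁻¹) * PowerSeries.coeff 0 (qExpansion 1 ⇑A) *
        PowerSeries.coeff 0 (qExpansion 1 ⇑B)) • qExpansion 1 ⇑E₄ := by
  have hp0 : (p : ℂ) ≠ 0 := by exact_mod_cast (Fact.out : p.Prime).ne_zero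
  have hΓ := one_mem_strictPeriods_G0 p
  set P := A.mul B with hP
  set UU := uOp ((uOp A).mul (uOp B)) with hUU
  -- the trace as a function
  have h1 : ⇑(wOp P) = (p : ℂ) • ⇑((uOp A).mul (uOp B)) := by
    rw [hP, coe_wOp_mul, ModularForm.coe_mul, ModularForm.coe_heckeULin_apply,
      ModularForm.coe_heckeULin_apply, heckeU_eq_neg_wOp, heckeU_eq_neg_wOp, neg_mul_neg]
  have h2 : ⇑(ModularForm.trace 𝒮ℒ P) = ⇑(P + (p : ℂ)⁻¹ • UU) := by
    rw [coe_trace_eq_heckeU, h1, heckeU_smul, smul_smul, FunLike.coe_add,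
      FunLike.coe_smul, hUU, ModularForm.coe_heckeULin_apply]
    congr 2
    rw [show (2 : ℤ) - (2 + 2) = -2 by norm_num, _root_.zpow_neg, zpow_ofNat]
    field_simp
  -- level one, weight four is spanned by `E₄`
  obtain ⟨c, hc⟩ : ∃ c : ℂ, c • E₄ = ModularForm.trace 𝒮ℒ P :=
    (finrank_eq_one_iff_of_nonzero' E₄ (EisensteinSeries.E_ne_zero _ ⟨2, rfl⟩)).mp
      (Module.rank_eq_one_iff_finrank_eq_one.mp ModularForm.levelOne_weight_four_rank_one) _
  have h3 : c • qExpansion 1 ⇑E₄ = qExpansion 1 ⇑A * qExpansion 1 ⇑B +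
      (p : ℂ)⁻¹ • upS p (upS p (qExpansion 1 ⇑A) * upS p (qExpansion 1 ⇑B)) := by
    rw [← ModularForm.qExpansion_smul one_pos one_mem_strictPeriods_SL c E₄,
      show (c • ⇑E₄ : ℍ → ℂ) = ⇑(ModularForm.trace 𝒮ℒ P) from congrArg DFunLike.coe hc, h2,
      FunLike.coe_add, ModularForm.qExpansion_add one_pos hΓ P ((p : ℂ)⁻¹ • UU),
      FunLike.coe_smul, ModularForm.qExpansion_smul one_pos hΓ _ UU, hP,
      ModularForm.qExpansion_mul one_pos hΓ, hUU, qExpansion_uOp,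
      ModularForm.qExpansion_mul one_pos hΓ, qExpansion_uOp, qExpansion_uOp]
  rw [← h3]
  congr 1
  have h4 := congrArg (PowerSeries.coeff 0) h3
  have hE : PowerSeries.coeff 0 (qExpansion 1 ⇑E₄) = 1 :=
    EisensteinSeries.E_qExpansion_coeff_zero _ ⟨2, rfl⟩
  rw [map_add, PowerSeries.coeff_smul, PowerSeries.coeff_smul, hE, coeff_zero_upS] at h4
  simp only [PowerSeries.coeff_zero_eq_constantCoeff, map_mul, smul_eq_mul, mul_one] at h4 ⊢
  rw [h4]
  simp only [← PowerSeries.coeff_zero_eq_constantCoeff, coeff_zero_upS]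
  ring

/-- (T6) The weight-six trace identity: for `A B C ∈ M₂(Γ₀(p))`,
`A B C - p⁻² U_p(U_p A · U_p B · U_p C) = (1 - p⁻²) a₀(A) a₀(B) a₀(C) E₆` (as `q`-expansions). -/
theorem trace_mul_mul_identity [Fact p.Prime] (A B C : ModularForm (Gamma0 p) 2) :
    qExpansion 1 ⇑A * qExpansion 1 ⇑B * qExpansion 1 ⇑C -
        ((p : ℂ)⁻¹) ^ 2 • upS p (upS p (qExpansion 1 ⇑A) * upS p (qExpansion 1 ⇑B) *
          upS p (qExpansion 1 ⇑C)) =
      ((1 - ((p : ℂ)⁻¹) ^ 2) * PowerSeries.coeff 0 (qExpansion 1 ⇑A) *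
        PowerSeries.coeff 0 (qExpansion 1 ⇑B) * PowerSeries.coeff 0 (qExpansion 1 ⇑C)) •
          qExpansion 1 ⇑E₆ := by
  have hp0 : (p : ℂ) ≠ 0 := by exact_mod_cast (Fact.out : p.Prime).ne_zero
  have hΓ := one_mem_strictPeriods_G0 p
  set P := (A.mul B).mul C with hP
  set UU := uOp (((uOp A).mul (uOp B)).mul (uOp C)) with hUU
  have h1 : ⇑(wOp P) = (-(p : ℂ) ^ 2) • ⇑(((uOp A).mul (uOp B)).mul (uOp C)) := by
    rw [hP, coe_wOp_mul, coe_wOp_mul, ModularForm.coe_mul, ModularForm.coe_mul,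
      ModularForm.coe_heckeULin_apply, ModularForm.coe_heckeULin_apply,
      ModularForm.coe_heckeULin_apply, heckeU_eq_neg_wOp, heckeU_eq_neg_wOp, heckeU_eq_neg_wOp]
    ext τ
    simp only [Pi.smul_apply, Pi.mul_apply, Pi.neg_apply, smul_eq_mul]
    ring
  have h2 : ⇑(ModularForm.trace 𝒮ℒ P) = ⇑(P - ((p : ℂ)⁻¹) ^ 2 • UU) := by
    have hs : (p : ℂ) ^ ((2 : ℤ) - (2 + 2 + 2)) * (-(p : ℂ) ^ 2) = -((p : ℂ)⁻¹) ^ 2 := by
      rw [show (2 : ℤ) - (2 + 2 + 2) = -4 by norm_num, _root_.zpow_neg, zpow_ofNat]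
      field_simp
    rw [coe_trace_eq_heckeU, h1, heckeU_smul, smul_smul, FunLike.coe_sub,
      FunLike.coe_smul, hUU, ModularForm.coe_heckeULin_apply, hs]
    simp [sub_eq_add_neg]
  obtain ⟨c, hc⟩ : ∃ c : ℂ, c • E₆ = ModularForm.trace 𝒮ℒ P :=
    (finrank_eq_one_iff_of_nonzero' E₆ (EisensteinSeries.E_ne_zero _ ⟨3, rfl⟩)).mp
      (Module.rank_eq_one_iff_finrank_eq_one.mp ModularForm.levelOne_weight_six_rank_one) _
  have h3 : c • qExpansion 1 ⇑E₆ = qExpansion 1 ⇑A * qExpansion 1 ⇑B * qExpansion 1 ⇑C -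
      ((p : ℂ)⁻¹) ^ 2 • upS p (upS p (qExpansion 1 ⇑A) * upS p (qExpansion 1 ⇑B) *
          upS p (qExpansion 1 ⇑C)) := by
    rw [← ModularForm.qExpansion_smul one_pos one_mem_strictPeriods_SL c E₆,
      show (c • ⇑E₆ : ℍ → ℂ) = ⇑(ModularForm.trace 𝒮ℒ P) from congrArg DFunLike.coe hc, h2,
      FunLike.coe_sub, ModularForm.qExpansion_sub one_pos hΓ P (((p : ℂ)⁻¹) ^ 2 • UU),
      FunLike.coe_smul, ModularForm.qExpansion_smul one_pos hΓ _ UU, hP,
      ModularForm.qExpansion_mul one_pos hΓ, ModularForm.qExpansion_mul one_pos hΓ, hUU,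
      qExpansion_uOp, ModularForm.qExpansion_mul one_pos hΓ,
      ModularForm.qExpansion_mul one_pos hΓ, qExpansion_uOp, qExpansion_uOp, qExpansion_uOp]
  rw [← h3]
  congr 1
  have h4 := congrArg (PowerSeries.coeff 0) h3
  have hE : PowerSeries.coeff 0 (qExpansion 1 ⇑E₆) = 1 :=
    EisensteinSeries.E_qExpansion_coeff_zero _ ⟨3, rfl⟩
  rw [map_sub, PowerSeries.coeff_smul, PowerSeries.coeff_smul, hE, coeff_zero_upS] at h4
  simp only [PowerSeries.coeff_zero_eq_constantCoeff, map_mul, smul_eq_mul, mul_one] at h4 ⊢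
  rw [h4]
  simp only [← PowerSeries.coeff_zero_eq_constantCoeff, coeff_zero_upS]
  ring

/-- (T3) `U_p² = 1` on `q`-expansions of weight-two forms of level `Γ₀(p)`. -/
theorem upS_upS_qExpansion [Fact p.Prime] (A : ModularForm (Gamma0 p) 2) :
    upS p (upS p (qExpansion 1 ⇑A)) = qExpansion 1 ⇑A := by
  rw [← qExpansion_uOp, ← qExpansion_uOp]
  congr 1
  rw [ModularForm.coe_heckeULin_apply, ModularForm.coe_heckeULin_apply, heckeU_heckeU]

/-- `F ∣ W = -U_p F` on `q`-expansions (weight two). -/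
theorem qExpansion_wOp [Fact p.Prime] (A : ModularForm (Gamma0 p) 2) :
    qExpansion 1 ⇑(wOp A) = -upS p (qExpansion 1 ⇑A) := by
  have h : ⇑(wOp A) = ⇑(-(uOp A)) := by
    rw [FunLike.coe_neg, ModularForm.coe_heckeULin_apply, heckeU_eq_neg_wOp, neg_neg]
  rw [h, FunLike.coe_neg, ModularForm.qExpansion_neg one_pos (one_mem_strictPeriods_G0 p),
    qExpansion_uOp]

end Fermat.Agent.S16
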