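import Mathlib
import Fermat.Agent.S16.WTR_helper4_Id
import Fermat.Agent.S16.L1_helper1_Int
import Fermat.Agent.S16.FIN_helper2_NC

/-!
# (S16, UB-CASES) the coefficient identity (★) from the trace identity (T4)

For `g ∈ M₂(Γ₀(p))` with `q`-expansion `u + c Z` (`u, c ∈ ℤ`, `Z ∈ ℤ⟦X⟧`, `c ≠ 0`):
`2 u c (p+1) Z_n + c² (p (Z²)_n + ((U Z)²)_{np}) = 240 (p+1) u² σ₃(n)` for `n ≥ 1`.
-/

set_option autoImplicit false

namespace Fermat.Agent.S16

open UpperHalfPlane ModularForm CongruenceSubgroup PowerSeries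
open scoped MatrixGroups ModularForm

noncomputable section

/-- `U_p` on integral power series. -/
def upZ (p : ℕ) (Z : ℤ⟦X⟧) : ℤ⟦X⟧ := PowerSeries.mk fun n => coeff (n * p) Z

@[simp] theorem coeff_upZ (p : ℕ) (Z : ℤ⟦X⟧) (n : ℕ) : coeff n (upZ p Z) = coeff (n * p) Z := by
  simp [upZ]

theorem map_upZ (p : ℕ) (Z : ℤ⟦X⟧) :
    (upZ p Z).map (Int.castRingHom ℂ) = upS p (Z.map (Int.castRingHom ℂ)) := by
  ext n
  simp

theorem upZ_C_add_C_mul {p : ℕ} (hp : p ≠ 0) (u c : ℤ) (Z : ℤ⟦X⟧) :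
    upZ p (C u + C c * Z) = C u + C c * upZ p Z := by
  ext n
  rw [coeff_upZ, map_add, map_add, coeff_C_mul, coeff_C_mul, coeff_upZ, coeff_C, coeff_C]
  rcases Nat.eq_zero_or_pos n with rfl | hn
  · simp
  · rw [if_neg (Nat.mul_ne_zero (by omega) hp), if_neg (by omega)]

/-- `g` has `q`-expansion `u + c Z`, with `Z` without constant term. -/
structure IsCongForm (p : ℕ) (g : ModularForm (Gamma0 p) 2) (u c : ℤ) (Z : ℤ⟦X⟧) : Prop where
  qexp : qExpansion 1 ⇑g = (C u + C c * Z).map (Int.castRingHom ℂ)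
  const : coeff 0 Z = 0

/-- A general manipulation: `a² + P⁻¹ b = (1 + P⁻¹) u² e ⇒ P a² + b = (P+1) u² e`. -/
theorem s16_scale_identity {a b e : ℂ⟦X⟧} {P u : ℂ} (hP : P ≠ 0)
    (h : a * a + P⁻¹ • b = ((1 + P⁻¹) * u * u) • e) :
    C P * a ^ 2 + b = C ((P + 1) * u ^ 2) * e := by
  have h5 := congrArg (fun Q : ℂ⟦X⟧ => P • Q) h
  simp only [smul_add, smul_smul, mul_inv_cancel₀ hP, one_smul] at h5
  rw [← smul_eq_C_mul, ← smul_eq_C_mul, pow_two, h5]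
  congr 1
  field_simp

variable {p : ℕ} [Fact p.Prime]

theorem s16_neZero_of_fact : NeZero p := ⟨(Fact.out : p.Prime).ne_zero⟩

/-- The hypothesis passes to `U_p g`. -/
theorem IsCongForm.apply_uOp {g : ModularForm (Gamma0 p) 2} {u c : ℤ} {Z : ℤ⟦X⟧}
    (h : IsCongForm p g u c Z) :
    haveI : NeZero p := s16_neZero_of_fact
    IsCongForm p (uOp g) u c (upZ p Z) := by
  have : NeZero p := s16_neZero_of_fact
  refine ⟨?_, ?_⟩
  · rw [qExpansion_uOp, h.qexp, ← map_upZ, upZ_C_add_C_mul (NeZero.ne p)]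
  · rw [coeff_upZ, zero_mul, h.const]

/-- (T3): `U_p² Z = Z`. -/
theorem IsCongForm.upZ_upZ {g : ModularForm (Gamma0 p) 2} {u c : ℤ} {Z : ℤ⟦X⟧}
    (h : IsCongForm p g u c Z) (hc : c ≠ 0) : upZ p (upZ p Z) = Z := by
  have hp : p ≠ 0 := (Fact.out : p.Prime).ne_zero
  have h3 := upS_upS_qExpansion g
  rw [h.qexp, ← map_upZ, ← map_upZ] at h3
  have h4 := map_intCast_injective h3
  rw [upZ_C_add_C_mul hp, upZ_C_add_C_mul hp] at h4
  have h5 : C c * upZ p (upZ p Z) = C c * Z := add_left_cancel h4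
  ext n
  have h6 := congrArg (coeff n) h5
  rw [coeff_C_mul, coeff_C_mul] at h6
  exact mul_left_cancel₀ hc h6

/-- `φ₃ = Σ σ₃(n) Xⁿ`. -/
def phi3Z : ℤ⟦X⟧ := PowerSeries.mk fun n => ((ArithmeticFunction.sigma 3 n : ℕ) : ℤ)

theorem E4Z_eq : E4Z = 1 + C (240 : ℤ) * phi3Z := by
  ext n
  rcases Nat.eq_zero_or_pos n with rfl | hn
  · rw [coeff_E4Z, if_pos rfl]
    simp [phi3Z]
  · have h2 : n ≠ 0 := by omega
    rw [coeff_E4Z, if_neg h2, map_add, coeff_C_mul, phi3Z, coeff_mk, coeff_one, if_neg h2, zero_add]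

/-- (T4) over `ℤ`: `p G² + U((U G)²) = (p+1) u² E₄`. -/
theorem IsCongForm.trace_sq {g : ModularForm (Gamma0 p) 2} {u c : ℤ} {Z : ℤ⟦X⟧}
    (h : IsCongForm p g u c Z) :
    C (p : ℤ) * (C u + C c * Z) ^ 2 + upZ p ((C u + C c * upZ p Z) ^ 2) =
      C (((p : ℤ) + 1) * u ^ 2) * E4Z := by
  have hp : p ≠ 0 := (Fact.out : p.Prime).ne_zero
  have hpC : (p : ℂ) ≠ 0 := by exact_mod_cast hp
  apply map_intCast_injective
  have h4 := trace_mul_identity g g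
  have hU : upS p (qExpansion 1 ⇑g) = (C u + C c * upZ p Z).map (Int.castRingHom ℂ) := by
    rw [h.qexp, ← map_upZ, upZ_C_add_C_mul hp]
  have h0 : coeff 0 (qExpansion 1 ⇑g) = (u : ℂ) := by
    rw [h.qexp, coeff_map, map_add, coeff_C_mul, h.const, coeff_C, if_pos rfl]
    simp
  rw [hU, h0, h.qexp, qExpansion_E₄_eq] at h4
  have h5 := s16_scale_identity hpC h4
  have e1 : (Int.castRingHom ℂ) (p : ℤ) = (p : ℂ) := by simp
  have e2 : (Int.castRingHom ℂ) (((p : ℤ) + 1) * u ^ 2) = ((p : ℂ) + 1) * (u : ℂ) ^ 2 := by simp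
  rw [map_add, map_mul, map_mul, map_pow, map_upZ, map_pow, map_C, map_C, e1, e2,
    pow_two ((map (Int.castRingHom ℂ)) (C u + C c * upZ p Z))]
  exact h5

/-- The quantity `W_n = p (Z²)_n + ((U Z)²)_{n p}`. -/
def starW (p : ℕ) (Z : ℤ⟦X⟧) (n : ℕ) : ℤ :=
  (p : ℤ) * coeff n (Z ^ 2) + coeff (n * p) ((upZ p Z) ^ 2)

/-- **(★)**: `2 u c (p+1) Z_n + c² W_n = 240 (p+1) u² σ₃(n)` for `n ≥ 1`. -/
theorem IsCongForm.star {g : ModularForm (Gamma0 p) 2} {u c : ℤ} {Z : ℤ⟦X⟧}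
    (h : IsCongForm p g u c Z) (hc : c ≠ 0) {n : ℕ} (hn : 1 ≤ n) :
    2 * u * c * ((p : ℤ) + 1) * coeff n Z + c ^ 2 * starW p Z n =
      240 * ((p : ℤ) + 1) * u ^ 2 * ((ArithmeticFunction.sigma 3 n : ℕ) : ℤ) := by
  have hp : p ≠ 0 := (Fact.out : p.Prime).ne_zero
  have h1 := congrArg (coeff n) h.trace_sq
  have hn0 : n ≠ 0 := by omega
  have hnp : n * p ≠ 0 := Nat.mul_ne_zero hn0 hp
  have hZ' : coeff (n * p) (upZ p Z) = coeff n Z := by
    have := congrArg (coeff n) (h.upZ_upZ hc)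
    rwa [coeff_upZ] at this
  have e1 : (C u + C c * Z) ^ 2 = C (u ^ 2) + C (2 * u * c) * Z + C (c ^ 2) * Z ^ 2 := by
    simp only [map_mul, map_pow, map_ofNat]
    ring
  have e2 : (C u + C c * upZ p Z) ^ 2 =
      C (u ^ 2) + C (2 * u * c) * upZ p Z + C (c ^ 2) * (upZ p Z) ^ 2 := by
    simp only [map_mul, map_pow, map_ofNat]
    ring
  rw [map_add, coeff_C_mul, coeff_upZ, e1, e2, E4Z_eq, coeff_C_mul] at h1
  simp only [map_add, coeff_C_mul, coeff_C, if_neg hn0, if_neg hnp, coeff_one, hZ', zero_add,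
    phi3Z, coeff_mk] at h1
  rw [starW]
  linear_combination h1

end

end Fermat.Agent.S16
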