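import Mathlib
import Fermat.Agent.S16.CASE_helper2_Star

/-!
# (S16, UB-CASES) auxiliary lemmas: normalisation of (NC), parity of `W_n`, `σ₃` at primes
-/

set_option autoImplicit false

namespace Fermat.Agent.S16

open UpperHalfPlane ModularForm CongruenceSubgroup PowerSeries
open scoped MatrixGroups ModularForm

noncomputable section

theorem s16_sigma_three_prime {p : ℕ} (hp : p.Prime) :
    ArithmeticFunction.sigma 3 p = 1 + p ^ 3 := by
  rw [ArithmeticFunction.sigma_apply, Nat.Prime.divisors hp]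
  rw [Finset.sum_pair hp.one_lt.ne]
  simp

theorem s16_sigma_three_one : ArithmeticFunction.sigma 3 1 = 1 := by
  simp

theorem s16_zmod_two_mul_self (x : ZMod 2) : x * x = x := by
  revert x; decide

/-- Frobenius modulo `2`, coefficientwise. -/
theorem coeff_sq_zmod_two (Y : ℤ⟦X⟧) (n : ℕ) :
    ((coeff n (Y ^ 2) : ℤ) : ZMod 2) = if 2 ∣ n then ((coeff (n / 2) Y : ℤ) : ZMod 2) else 0 := by
  rw [pow_two, coeff_mul]
  push_cast
  set y : ℕ → ZMod 2 := fun i => ((coeff i Y : ℤ) : ZMod 2) with hy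
  change ∑ x ∈ Finset.HasAntidiagonal.antidiagonal n, y x.1 * y x.2 =
    if 2 ∣ n then y (n / 2) else 0
  rw [← Finset.sum_filter_add_sum_filter_not (Finset.HasAntidiagonal.antidiagonal n)
    (fun x => x.1 = x.2)]
  have h1 : ∑ x ∈ (Finset.HasAntidiagonal.antidiagonal n).filter (fun x => ¬ x.1 = x.2),
      y x.1 * y x.2 = 0 := by
    refine Finset.sum_involution (fun x _ => x.swap) ?_ ?_ ?_ ?_
    · intro a _
      simp only [Prod.fst_swap, Prod.snd_swap]
      rw [mul_comm (y a.2)]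
      exact CharTwo.add_self_eq_zero _
    · intro a ha _ h
      rw [Finset.mem_filter] at ha
      apply ha.2
      have := congrArg Prod.fst h
      simpa using this.symm
    · intro a ha
      rw [Finset.mem_filter, Finset.HasAntidiagonal.mem_antidiagonal] at ha ⊢
      refine ⟨by simpa [add_comm] using ha.1, fun h => ha.2 ?_⟩
      simpa using h.symm
    · intro a _
      simp
  rw [h1, add_zero]
  split_ifs with hn
  · obtain ⟨m, rfl⟩ := hn
    have : (Finset.HasAntidiagonal.antidiagonal (2 * m)).filter (fun x => x.1 = x.2) =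
        {(m, m)} := by
      ext ⟨i, j⟩
      simp only [Finset.mem_filter, Finset.HasAntidiagonal.mem_antidiagonal,
        Finset.mem_singleton, Prod.mk.injEq]
      omega
    rw [this, Finset.sum_singleton]
    simp only [Nat.mul_div_cancel_left m (by norm_num : 0 < 2)]
    exact s16_zmod_two_mul_self _
  · have : (Finset.HasAntidiagonal.antidiagonal n).filter (fun x => x.1 = x.2) = ∅ := by
      ext ⟨i, j⟩
      simp only [Finset.mem_filter, Finset.HasAntidiagonal.mem_antidiagonal,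
        Finset.notMem_empty, iff_false]
      rintro ⟨h1, h2⟩
      apply hn
      exact ⟨i, by omega⟩
    rw [this, Finset.sum_empty]

/-- `W_n` is even when `p` is odd and `U² Z = Z`. -/
theorem starW_even {p : ℕ} (hp : Odd p) (Z : ℤ⟦X⟧) (hZ : upZ p (upZ p Z) = Z) (n : ℕ) :
    (2 : ℤ) ∣ starW p Z n := by
  have key : ((starW p Z n : ℤ) : ZMod 2) = 0 := by
    rw [starW]
    push_cast
    rw [coeff_sq_zmod_two, coeff_sq_zmod_two]
    have hp2 : ((p : ℕ) : ZMod 2) = 1 := by
      obtain ⟨m, rfl⟩ := hp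
      push_cast
      have : (2 : ZMod 2) = 0 := by decide
      rw [this, zero_mul, zero_add]
    rw [hp2, one_mul]
    by_cases hn : 2 ∣ n
    · have hnp : 2 ∣ n * p := Dvd.dvd.mul_right hn p
      rw [if_pos hn, if_pos hnp]
      obtain ⟨m, rfl⟩ := hn
      have e1 : 2 * m * p / 2 = m * p := by
        rw [mul_assoc, Nat.mul_div_cancel_left _ (by norm_num : 0 < 2)]
      have e2 : 2 * m / 2 = m := Nat.mul_div_cancel_left _ (by norm_num : 0 < 2)
      rw [e1, e2, ← coeff_upZ, hZ]
      exact CharTwo.add_self_eq_zero _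
    · have hnp : ¬ 2 ∣ n * p := by
        intro h
        rcases (Nat.Prime.dvd_mul Nat.prime_two).1 h with h | h
        · exact hn h
        · obtain ⟨m, rfl⟩ := hp
          omega
      rw [if_neg hn, if_neg hnp, add_zero]
  exact_mod_cast (ZMod.intCast_zmod_eq_zero_iff_dvd (starW p Z n) 2).1 key

variable {p : ℕ}

/-- Normalisation of the hypothesis of (NC): we may assume `Z` has no constant term. -/
theorem exists_isCongForm_of_qExpansion {ℓ s : ℕ} (hs : 1 ≤ s)
    (g : ModularForm (Gamma0 p) 2) (u : ℤ) (Z : ℤ⟦X⟧) (hu : ¬ (ℓ : ℤ) ∣ u)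
    (hg : qExpansion 1 ⇑g = (C (u : ℤ) + C ((ℓ : ℤ) ^ s) * Z).map (Int.castRingHom ℂ)) :
    ∃ (u' : ℤ) (Z' : ℤ⟦X⟧), ¬ (ℓ : ℤ) ∣ u' ∧ IsCongForm p g u' ((ℓ : ℤ) ^ s) Z' := by
  refine ⟨u + (ℓ : ℤ) ^ s * coeff 0 Z, Z - C (coeff 0 Z), ?_, ?_, ?_⟩
  · intro h
    apply hu
    have h2 : (ℓ : ℤ) ∣ (ℓ : ℤ) ^ s * coeff 0 Z :=
      Dvd.dvd.mul_right (dvd_pow_self _ (by omega)) _
    exact (Int.dvd_add_left h2).1 h
  · rw [hg]
    congr 1
    rw [map_add, map_mul, mul_sub]
    ring
  · simp

end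

end Fermat.Agent.S16
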