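import Mathlib
import Fermat.Agent.S16.CASE_helper2_Aux

/-!
# (S16, UB-CASES) case (b): `ℓ = p`
-/

set_option autoImplicit false

namespace Fermat.Agent.S16

open UpperHalfPlane ModularForm CongruenceSubgroup PowerSeries
open scoped MatrixGroups ModularForm

noncomputable section

variable {p : ℕ} [Fact p.Prime]

/-- A general manipulation for (T6):
`a³ − P⁻² b = (1 − P⁻²) u³ e ⇒ P² a³ − b = (P² − 1) u³ e`. -/
theorem s16_scale_identity_cube {a b e : ℂ⟦X⟧} {P u : ℂ} (hP : P ≠ 0)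
    (h : a * a * a - (P⁻¹) ^ 2 • b = ((1 - (P⁻¹) ^ 2) * u * u * u) • e) :
    C (P ^ 2) * a ^ 3 - b = C ((P ^ 2 - 1) * u ^ 3) * e := by
  have h5 := congrArg (fun Q : ℂ⟦X⟧ => (P ^ 2) • Q) h
  have hP2 : P ^ 2 * (P⁻¹) ^ 2 = 1 := by
    field_simp
  simp only [smul_sub, smul_smul, hP2, one_smul] at h5
  rw [← smul_eq_C_mul, ← smul_eq_C_mul, show a ^ 3 = a * a * a by ring, h5]
  congr 1
  field_simp

/-- (T6) over `ℤ`: `p² G³ − U((U G)³) = (p² − 1) u³ E₆`. -/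
theorem IsCongForm.trace_cube {g : ModularForm (Gamma0 p) 2} {u c : ℤ} {Z : ℤ⟦X⟧}
    (h : IsCongForm p g u c Z) :
    C ((p : ℤ) ^ 2) * (C u + C c * Z) ^ 3 - upZ p ((C u + C c * upZ p Z) ^ 3) =
      C ((((p : ℤ)) ^ 2 - 1) * u ^ 3) * E6Z := by
  have hp : p ≠ 0 := (Fact.out : p.Prime).ne_zero
  have hpC : (p : ℂ) ≠ 0 := by exact_mod_cast hp
  apply map_intCast_injective
  have h4 := trace_mul_mul_identity g g g
  have hU : upS p (qExpansion 1 ⇑g) = (C u + C c * upZ p Z).map (Int.castRingHom ℂ) := by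
    rw [h.qexp, ← map_upZ, upZ_C_add_C_mul hp]
  have h0 : coeff 0 (qExpansion 1 ⇑g) = (u : ℂ) := by
    rw [h.qexp, coeff_map, map_add, coeff_C_mul, h.const, coeff_C, if_pos rfl]
    simp
  rw [hU, h0, h.qexp, qExpansion_E₆_eq] at h4
  have h5 := s16_scale_identity_cube hpC h4
  have e1 : (C ((p : ℤ) ^ 2)).map (Int.castRingHom ℂ) = C ((p : ℂ) ^ 2) := by simp
  have e2 : (C ((((p : ℤ)) ^ 2 - 1) * u ^ 3)).map (Int.castRingHom ℂ) =
      C (((p : ℂ) ^ 2 - 1) * (u : ℂ) ^ 3) := by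
    simp
  rw [map_sub, map_mul, map_mul, e1, e2, map_upZ,
    map_pow (map (Int.castRingHom ℂ)) (C u + C c * Z) 3,
    map_pow (map (Int.castRingHom ℂ)) (C u + C c * upZ p Z) 3,
    show ((map (Int.castRingHom ℂ)) (C u + C c * upZ p Z)) ^ 3 =
      (map (Int.castRingHom ℂ)) (C u + C c * upZ p Z) * (map (Int.castRingHom ℂ)) (C u + C c * upZ p Z) *
        (map (Int.castRingHom ℂ)) (C u + C c * upZ p Z) by ring]
  exact h5

theorem s16_prime_not_dvd_succ {p : ℕ} (hp : p.Prime) : ¬ (p : ℤ) ∣ (p : ℤ) + 1 := by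
  intro h
  have h1 : (p : ℤ) ∣ 1 := (Int.dvd_add_right (dvd_refl _)).1 h
  have h2 : p ∣ 1 := by exact_mod_cast h1
  exact hp.one_lt.ne' (Nat.dvd_one.1 h2)

/-- From (T4): no congruence mod `ℓ` unless `ℓ ∣ 240 (p + 1)`. -/
theorem noCong_of_not_dvd_T4 {ℓ : ℕ} (hℓ : ℓ.Prime) (hnd : ¬ ℓ ∣ 240 * (p + 1)) :
    NoCong p ℓ 1 := by
  intro g u Z hu hg
  have hℓI : Prime (ℓ : ℤ) := Nat.prime_iff_prime_int.1 hℓ
  obtain ⟨u', Z', hu', h⟩ := exists_isCongForm_of_qExpansion (le_refl 1) g u Z hu hg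
  have hne : ((ℓ : ℤ) ^ 1) ≠ 0 := pow_ne_zero _ (by exact_mod_cast hℓ.ne_zero)
  have hs := h.star hne (n := 1) le_rfl
  rw [s16_sigma_three_one] at hs
  have hdvd : (ℓ : ℤ) ∣ (240 * ((p : ℤ) + 1)) * u' ^ 2 :=
    ⟨2 * u' * ((p : ℤ) + 1) * coeff 1 Z' + (ℓ : ℤ) * starW p Z' 1, by
      push_cast at hs
      linear_combination -hs⟩
  rcases hℓI.dvd_mul.1 hdvd with h1 | h1
  · exact hnd (by exact_mod_cast h1)
  · exact hu' (hℓI.dvd_of_dvd_pow h1)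

/-- From (T6): no congruence mod `ℓ` unless `ℓ ∣ 504 (p² − 1)`. -/
theorem noCong_of_not_dvd_T6 {ℓ : ℕ} (hℓ : ℓ.Prime) (hnd : ¬ (ℓ : ℤ) ∣ 504 * ((p : ℤ) ^ 2 - 1)) :
    NoCong p ℓ 1 := by
  intro g u Z hu hg
  have hp : p.Prime := Fact.out
  have hp0 : p ≠ 0 := hp.ne_zero
  have hℓI : Prime (ℓ : ℤ) := Nat.prime_iff_prime_int.1 hℓ
  obtain ⟨u', Z', hu', h⟩ := exists_isCongForm_of_qExpansion (le_refl 1) g u Z hu hg
  have h1 := congrArg (coeff 1) h.trace_cube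
  have e1 : (C u' + C ((ℓ : ℤ) ^ 1) * Z') ^ 3 =
      C (u' ^ 3) + C ((ℓ : ℤ) ^ 1) * (C (3 * u' ^ 2) * Z' +
        C (3 * u' * (ℓ : ℤ) ^ 1) * Z' ^ 2 + C (((ℓ : ℤ) ^ 1) ^ 2) * Z' ^ 3) := by
    simp only [map_mul, map_pow, map_ofNat]
    ring
  have e2 : (C u' + C ((ℓ : ℤ) ^ 1) * upZ p Z') ^ 3 =
      C (u' ^ 3) + C ((ℓ : ℤ) ^ 1) * (C (3 * u' ^ 2) * upZ p Z' +
        C (3 * u' * (ℓ : ℤ) ^ 1) * (upZ p Z') ^ 2 + C (((ℓ : ℤ) ^ 1) ^ 2) * (upZ p Z') ^ 3) := by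
    simp only [map_mul, map_pow, map_ofNat]
    ring
  have h1p : 1 * p ≠ 0 := by rw [one_mul]; exact hp0
  have hs5 : ArithmeticFunction.sigma 5 1 = 1 := by simp
  rw [map_sub, coeff_C_mul, coeff_upZ, e1, e2, map_add, map_add, coeff_C_mul, coeff_C_mul,
    coeff_C, coeff_C, if_neg h1p, if_neg one_ne_zero, coeff_C_mul, zero_add, zero_add,
    coeff_E6Z_of_pos le_rfl, hs5] at h1
  set R : ℤ := coeff (1 * p) (C (3 * u' ^ 2) * upZ p Z' +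
        C (3 * u' * (ℓ : ℤ) ^ 1) * (upZ p Z') ^ 2 + C (((ℓ : ℤ) ^ 1) ^ 2) * (upZ p Z') ^ 3) with hR
  set T : ℤ := coeff 1 (C (3 * u' ^ 2) * Z' +
        C (3 * u' * (ℓ : ℤ) ^ 1) * Z' ^ 2 + C (((ℓ : ℤ) ^ 1) ^ 2) * Z' ^ 3) with hT
  have hdvd : (ℓ : ℤ) ∣ (504 * (((p : ℤ)) ^ 2 - 1)) * u' ^ 3 :=
    ⟨R - (p : ℤ) ^ 2 * T, by
      push_cast at h1
      linear_combination h1⟩
  rcases hℓI.dvd_mul.1 hdvd with h2 | h2
  · exact hnd h2
  · exact hu' (hℓI.dvd_of_dvd_pow h2)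

/-- Case (b): `ℓ = p ≥ 5`. -/
theorem noCong_self (hp5 : 5 ≤ p) : NoCong p p 1 := by
  have hp : p.Prime := Fact.out
  have hpI : Prime (p : ℤ) := Nat.prime_iff_prime_int.1 hp
  rcases Nat.lt_or_ge p 7 with h | h
  · have h56 : p = 5 ∨ p = 6 := by omega
    rcases h56 with rfl | rfl
    · apply noCong_of_not_dvd_T6 hp
      norm_num
    · exact absurd hp (by decide)
  · apply noCong_of_not_dvd_T4 hp
    intro hd
    rcases (Nat.Prime.dvd_mul hp).1 hd with h2 | h2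
    · have h3 : (240 : ℕ) = 2 ^ 4 * 3 * 5 := by norm_num
      rw [h3] at h2
      rcases (Nat.Prime.dvd_mul hp).1 h2 with h2 | h2
      · rcases (Nat.Prime.dvd_mul hp).1 h2 with h2 | h2
        · have := (Nat.prime_dvd_prime_iff_eq hp Nat.prime_two).1 (hp.dvd_of_dvd_pow h2)
          omega
        · have := (Nat.prime_dvd_prime_iff_eq hp Nat.prime_three).1 h2
          omega
      · have := (Nat.prime_dvd_prime_iff_eq hp Nat.prime_five).1 h2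
        omega
    · have h3 : p ∣ 1 := (Nat.dvd_add_right (dvd_refl p)).1 h2
      exact hp.one_lt.ne' (Nat.dvd_one.1 h3)

/-- Case (a), easy half: `ℓ ≥ 7`, `ℓ ∤ p + 1`. -/
theorem noCong_of_seven_le_of_not_dvd {ℓ : ℕ} (hℓ : ℓ.Prime) (hℓ7 : 7 ≤ ℓ) (hnd : ¬ ℓ ∣ p + 1) :
    NoCong p ℓ 1 := by
  apply noCong_of_not_dvd_T4 hℓ
  intro hd
  rcases (Nat.Prime.dvd_mul hℓ).1 hd with h2 | h2
  · have h3 : (240 : ℕ) = 2 ^ 4 * 3 * 5 := by norm_num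
    rw [h3] at h2
    rcases (Nat.Prime.dvd_mul hℓ).1 h2 with h2 | h2
    · rcases (Nat.Prime.dvd_mul hℓ).1 h2 with h2 | h2
      · have := (Nat.prime_dvd_prime_iff_eq hℓ Nat.prime_two).1 (hℓ.dvd_of_dvd_pow h2)
        omega
      · have := (Nat.prime_dvd_prime_iff_eq hℓ Nat.prime_three).1 h2
        omega
    · have := (Nat.prime_dvd_prime_iff_eq hℓ Nat.prime_five).1 h2
      omega
  · exact hnd h2

end

end Fermat.Agent.S16
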