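import Mathlib
import Fermat.Agent.S16.CASE_helper2_Aux

/-!
# (S16, UB-CASES) cases (c3) and (d''): `ℓ = 3`
-/

set_option autoImplicit false

namespace Fermat.Agent.S16

open UpperHalfPlane ModularForm CongruenceSubgroup PowerSeries
open scoped MatrixGroups ModularForm

noncomputable section

variable {p : ℕ} [Fact p.Prime]

/-- Case (c3), first order: for `p ≡ 1 mod 3` and `g = u + 3 Z`: `3 ∣ u Z_n − u² σ₃(n)`. -/
theorem IsCongForm.three_dvd {g : ModularForm (Gamma0 p) 2} {u : ℤ} {Z : ℤ⟦X⟧}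
    (h : IsCongForm p g u ((3 : ℤ) ^ 1) Z) {m : ℤ} (hm : (p : ℤ) = 3 * m + 1) {n : ℕ}
    (hn : 1 ≤ n) :
    (3 : ℤ) ∣ u * coeff n Z - u ^ 2 * ((ArithmeticFunction.sigma 3 n : ℕ) : ℤ) := by
  have hs := h.star (by norm_num) hn
  rw [hm] at hs
  refine ⟨-(starW p Z n) - (2 * m + 1) * (u * coeff n Z) +
    (80 * m + 53) * (u ^ 2 * ((ArithmeticFunction.sigma 3 n : ℕ) : ℤ)), ?_⟩
  have h3 : (3 : ℤ) * (u * coeff n Z - u ^ 2 * ((ArithmeticFunction.sigma 3 n : ℕ) : ℤ)) =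
      3 * (3 * (-(starW p Z n) - (2 * m + 1) * (u * coeff n Z) +
        (80 * m + 53) * (u ^ 2 * ((ArithmeticFunction.sigma 3 n : ℕ) : ℤ)))) := by
    linear_combination hs
  exact mul_left_cancel₀ (by norm_num : (3 : ℤ) ≠ 0) h3

/-- Case (c3): `ℓ = 3`, `p ≡ 1 mod 3`, `s = 1`. -/
theorem noCong_three_one (hp3 : p % 3 = 1) : NoCong p 3 1 := by
  intro g u Z hu hg
  have hp : p.Prime := Fact.out
  obtain ⟨u', Z', hu', h⟩ := exists_isCongForm_of_qExpansion (le_refl 1) g u Z hu hg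
  obtain ⟨m, hm⟩ : ∃ m : ℤ, (p : ℤ) = 3 * m + 1 := ⟨(p / 3 : ℕ), by
    have := Nat.div_add_mod p 3
    rw [hp3] at this
    exact_mod_cast this.symm⟩
  have h1 := h.three_dvd hm (n := p) hp.one_lt.le
  have h2 := h.apply_uOp.three_dvd hm (n := 1) le_rfl
  rw [coeff_upZ, one_mul, s16_sigma_three_one] at h2
  rw [s16_sigma_three_prime hp] at h1
  -- `u Z_p ≡ u² (1 + p³)` and `u Z_p ≡ u²`, so `3 ∣ u² p³`
  have h3 : (3 : ℤ) ∣ u' ^ 2 * (p : ℤ) ^ 3 := by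
    have := Int.dvd_sub h2 h1
    push_cast at this
    convert this using 1
    ring
  have h3I : Prime (3 : ℤ) := Int.prime_three
  rcases h3I.dvd_mul.1 h3 with h4 | h4
  · exact hu' (h3I.dvd_of_dvd_pow h4)
  · have h5 : (3 : ℤ) ∣ (p : ℤ) := h3I.dvd_of_dvd_pow h4
    have h6 : 3 ∣ p := by exact_mod_cast h5
    omega

/-- Case (d''): `ℓ = 3`, `p ≡ 2, 5 mod 9`, `s = 2`. -/
theorem noCong_three_two_of_mod_nine (hp9 : p % 9 = 2 ∨ p % 9 = 5) : NoCong p 3 2 := by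
  intro g u Z hu hg
  have hp : p.Prime := Fact.out
  obtain ⟨u', Z', hu', h⟩ := exists_isCongForm_of_qExpansion (by norm_num : 1 ≤ 2) g u Z hu hg
  have hs := h.star (by norm_num) (n := 1) le_rfl
  rw [s16_sigma_three_one] at hs
  -- `p + 1 = 3 κ`, `3 ∤ κ`
  obtain ⟨κ, hκ, hκ3⟩ : ∃ κ : ℤ, (p : ℤ) + 1 = 3 * κ ∧ ¬ (3 : ℤ) ∣ κ := by
    rcases hp9 with h9 | h9
    · refine ⟨3 * (p / 9 : ℕ) + 1, ?_, ?_⟩
      · have := Nat.div_add_mod p 9
        rw [h9] at this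
        have h' : (p : ℤ) = 9 * (p / 9 : ℕ) + 2 := by exact_mod_cast this.symm
        linarith
      · intro hd
        have : (3 : ℤ) ∣ 1 := (Int.dvd_add_right (Dvd.intro _ rfl)).1 hd
        norm_num at this
    · refine ⟨3 * (p / 9 : ℕ) + 2, ?_, ?_⟩
      · have := Nat.div_add_mod p 9
        rw [h9] at this
        have h' : (p : ℤ) = 9 * (p / 9 : ℕ) + 5 := by exact_mod_cast this.symm
        linarith
      · intro hd
        have : (3 : ℤ) ∣ 2 := (Int.dvd_add_right (Dvd.intro _ rfl)).1 hd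
        norm_num at this
  rw [hκ] at hs
  have h3I : Prime (3 : ℤ) := Int.prime_three
  have hdvd : (3 : ℤ) ∣ 80 * (κ * u' ^ 2) := by
    refine ⟨2 * u' * κ * coeff 1 Z' + 3 * starW p Z' 1, ?_⟩
    have h9 : (9 : ℤ) * (80 * (κ * u' ^ 2)) =
        9 * (3 * (2 * u' * κ * coeff 1 Z' + 3 * starW p Z' 1)) := by
      push_cast at hs
      linear_combination -hs
    exact mul_left_cancel₀ (by norm_num : (9 : ℤ) ≠ 0) h9
  rcases h3I.dvd_mul.1 hdvd with h4 | h4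
  · norm_num at h4
  · rcases h3I.dvd_mul.1 h4 with h4 | h4
    · exact hκ3 h4
    · exact hu' (h3I.dvd_of_dvd_pow h4)

end

end Fermat.Agent.S16
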