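import Mathlib
import Fermat.Agent.S16.CASE_helper2_Aux

/-!
# (S16, UB-CASES) cases (e) and (f): `ℓ = 2`
-/

set_option autoImplicit false

namespace Fermat.Agent.S16

open UpperHalfPlane ModularForm CongruenceSubgroup PowerSeries
open scoped MatrixGroups ModularForm

noncomputable section

variable {p : ℕ} [Fact p.Prime]

/-- The final contradiction for `ℓ = 2`: `Z_n ≡ σ₃(n) mod 2` for all `n ≥ 1`, both for `g` and
`U_p g`, is impossible. -/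
theorem s16_false_of_parity (hodd : Odd p) {Z : ℤ⟦X⟧}
    (h1 : (2 : ℤ) ∣ coeff p Z - ((ArithmeticFunction.sigma 3 p : ℕ) : ℤ))
    (h2 : (2 : ℤ) ∣ coeff 1 (upZ p Z) - ((ArithmeticFunction.sigma 3 1 : ℕ) : ℤ)) : False := by
  have hp : p.Prime := Fact.out
  obtain ⟨k, hk⟩ := hodd
  rw [coeff_upZ, one_mul, s16_sigma_three_one] at h2
  rw [s16_sigma_three_prime hp] at h1
  have h3 := Int.dvd_sub h2 h1
  have h4 : (2 : ℤ) ∣ (p : ℤ) ^ 3 := by
    push_cast at h3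
    convert h3 using 1
    ring
  have h5 : (2 : ℤ) ∣ (p : ℤ) := Int.prime_two.dvd_of_dvd_pow h4
  have h6 : 2 ∣ p := by exact_mod_cast h5
  omega

/-- Second-order step: for `p + 1 = 2^a κ` (`κ` odd) and `g = u + 2^(a+2)·Z`... specialised below. -/
theorem IsCongForm.two_dvd_of_eq {g : ModularForm (Gamma0 p) 2} {u c : ℤ} {Z : ℤ⟦X⟧}
    (_h : IsCongForm p g u c Z) {κ W S : ℤ} {z : ℤ} (hu : ¬ (2 : ℤ) ∣ u) (hκ : ¬ (2 : ℤ) ∣ κ)
    (hW : (2 : ℤ) ∣ W) (hS : u * κ * z + W = 15 * κ * u ^ 2 * S) :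
    (2 : ℤ) ∣ z - S := by
  have hu' : u % 2 = 1 := by omega
  have hκ' : κ % 2 = 1 := by omega
  obtain ⟨a, ha⟩ : ∃ a, u = 2 * a + 1 := ⟨u / 2, by omega⟩
  obtain ⟨b, hb⟩ : ∃ b, κ = 2 * b + 1 := ⟨κ / 2, by omega⟩
  obtain ⟨w, hw⟩ := hW
  subst ha hb hw
  -- `z − S = [u κ z + W − 15 κ u² S] − (uκ − 1) z − W + (15 κ u² − 1) S`, all even
  refine ⟨-(2 * a * b + a + b) * z - w +
    (15 * b * (2 * a + 1) ^ 2 + 30 * a ^ 2 + 30 * a + 7) * S, ?_⟩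
  linear_combination hS

/-- For `g = u + 8 Z`, `u` odd, `p + 1 = 2κ` or `4κ` with `κ` odd: `Z_n ≡ σ₃(n) mod 2`. -/
theorem IsCongForm.parity_of_eight {g : ModularForm (Gamma0 p) 2} {u : ℤ} {Z : ℤ⟦X⟧}
    (h : IsCongForm p g u 8 Z) (hu : ¬ (2 : ℤ) ∣ u) {κ : ℤ} (hκ : ¬ (2 : ℤ) ∣ κ)
    (hp1 : (p : ℤ) + 1 = 2 * κ ∨ (p : ℤ) + 1 = 4 * κ) (hodd : Odd p) {n : ℕ} (hn : 1 ≤ n) :
    (2 : ℤ) ∣ coeff n Z - ((ArithmeticFunction.sigma 3 n : ℕ) : ℤ) := by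
  have hs := h.star (by norm_num) hn
  have hW := starW_even hodd Z (h.upZ_upZ (by norm_num)) n
  rcases hp1 with hp1 | hp1
  · rw [hp1] at hs
    refine h.two_dvd_of_eq hu hκ (W := 2 * starW p Z n) (Dvd.intro _ rfl) ?_
    have h32 : (32 : ℤ) * (u * κ * coeff n Z + 2 * starW p Z n) =
        32 * (15 * κ * u ^ 2 * ((ArithmeticFunction.sigma 3 n : ℕ) : ℤ)) := by
      linear_combination hs
    exact mul_left_cancel₀ (by norm_num : (32 : ℤ) ≠ 0) h32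
  · rw [hp1] at hs
    refine h.two_dvd_of_eq hu hκ (W := starW p Z n) hW ?_
    have h64 : (64 : ℤ) * (u * κ * coeff n Z + starW p Z n) =
        64 * (15 * κ * u ^ 2 * ((ArithmeticFunction.sigma 3 n : ℕ) : ℤ)) := by
      linear_combination hs
    exact mul_left_cancel₀ (by norm_num : (64 : ℤ) ≠ 0) h64

/-- No form `g = u + 8 Z` with `u` odd when `p + 1 = 2κ` or `4κ`, `κ` odd. -/
theorem IsCongForm.false_of_eight {g : ModularForm (Gamma0 p) 2} {u : ℤ} {Z : ℤ⟦X⟧}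
    (h : IsCongForm p g u 8 Z) (hu : ¬ (2 : ℤ) ∣ u) {κ : ℤ} (hκ : ¬ (2 : ℤ) ∣ κ)
    (hp1 : (p : ℤ) + 1 = 2 * κ ∨ (p : ℤ) + 1 = 4 * κ) (hodd : Odd p) : False := by
  have hp : p.Prime := Fact.out
  exact s16_false_of_parity hodd (h.parity_of_eight hu hκ hp1 hodd hp.one_lt.le)
    (h.apply_uOp.parity_of_eight hu hκ hp1 hodd le_rfl)

/-- Case (f): `ℓ = 2`, `p ≡ 3 mod 8`, `s = 3`. -/
theorem noCong_two_three_of_mod_eight (hp8 : p % 8 = 3) : NoCong p 2 3 := by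
  intro g u Z hu hg
  obtain ⟨u', Z', hu', h⟩ := exists_isCongForm_of_qExpansion (by norm_num : 1 ≤ 3) g u Z hu hg
  have h8 : (((2 : ℕ) : ℤ)) ^ 3 = 8 := by norm_num
  rw [h8] at h
  have hodd : Odd p := ⟨p / 2, by omega⟩
  refine h.false_of_eight (by exact_mod_cast hu') (κ := 2 * (p / 8 : ℕ) + 1) ?_ (Or.inr ?_) hodd
  · intro hd
    have : (2 : ℤ) ∣ 1 := (Int.dvd_add_right (Dvd.intro _ rfl)).1 hd
    norm_num at this
  · have := Nat.div_add_mod p 8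
    rw [hp8] at this
    have h' : (p : ℤ) = 8 * (p / 8 : ℕ) + 3 := by exact_mod_cast this.symm
    linarith

/-- Case (e): `ℓ = 2`, `p ≡ 1 mod 4`, `s = 2`. -/
theorem noCong_two_two (hp4 : p % 4 = 1) : NoCong p 2 2 := by
  intro g u Z hu hg
  obtain ⟨u', Z', hu', h⟩ := exists_isCongForm_of_qExpansion (by norm_num : 1 ≤ 2) g u Z hu hg
  have h4 : (((2 : ℕ) : ℤ)) ^ 2 = 4 := by norm_num
  rw [h4] at h
  have hu2 : ¬ (2 : ℤ) ∣ u' := by exact_mod_cast hu'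
  have hodd : Odd p := ⟨p / 2, by omega⟩
  set κ : ℤ := 2 * (p / 4 : ℕ) + 1 with hκdef
  have hκ : ¬ (2 : ℤ) ∣ κ := by
    intro hd
    have : (2 : ℤ) ∣ 1 := (Int.dvd_add_right (Dvd.intro _ rfl)).1 hd
    norm_num at this
  have hp1 : (p : ℤ) + 1 = 2 * κ := by
    have := Nat.div_add_mod p 4
    rw [hp4] at this
    have h' : (p : ℤ) = 4 * (p / 4 : ℕ) + 1 := by exact_mod_cast this.symm
    rw [hκdef]
    linarith
  -- stage 1: all `Z'_n` are even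
  have heven : ∀ n, (2 : ℤ) ∣ coeff n Z' := by
    intro n
    rcases Nat.eq_zero_or_pos n with rfl | hn
    · rw [h.const]
      exact dvd_zero _
    have hs := h.star (by norm_num) hn
    have hW := starW_even hodd Z' (h.upZ_upZ (by norm_num)) n
    rw [hp1] at hs
    have h1 : (2 : ℤ) ∣ coeff n Z' - 2 * ((ArithmeticFunction.sigma 3 n : ℕ) : ℤ) := by
      refine h.two_dvd_of_eq hu2 hκ (W := starW p Z' n) hW ?_
      have h16 : (16 : ℤ) * (u' * κ * coeff n Z' + starW p Z' n) =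
          16 * (15 * κ * u' ^ 2 * (2 * ((ArithmeticFunction.sigma 3 n : ℕ) : ℤ))) := by
        linear_combination hs
      exact mul_left_cancel₀ (by norm_num : (16 : ℤ) ≠ 0) h16
    have h2 := Int.dvd_add h1 (Dvd.intro ((ArithmeticFunction.sigma 3 n : ℕ) : ℤ) rfl)
    simpa using h2
  -- stage 2: `g = u' + 8 Z₁`
  set Z₁ : ℤ⟦X⟧ := PowerSeries.mk fun n => coeff n Z' / 2 with hZ₁
  have hZZ : Z' = C (2 : ℤ) * Z₁ := by
    ext n
    rw [coeff_C_mul, hZ₁, coeff_mk, Int.mul_ediv_cancel' (heven n)]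
  have h8 : IsCongForm p g u' 8 Z₁ := by
    refine ⟨?_, ?_⟩
    · rw [h.qexp, hZZ, ← mul_assoc, ← map_mul]
      norm_num
    · rw [hZ₁, coeff_mk, h.const]
      norm_num
  exact h8.false_of_eight hu2 hκ (Or.inl hp1) hodd

end

end Fermat.Agent.S16
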