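import Mathlib
import Fermat.Agent.S16.FIN_helper2_NC

/-!
# (S16, UB-FIN) `(C2)` from the (NC) statements
-/

set_option autoImplicit false

namespace Fermat.Agent.S16

open UpperHalfPlane ModularForm ModularFormClass CuspForm ModularCurve
open Fermat.Agent.GR Fermat.Agent.Helper2
open scoped MatrixGroups ModularForm

noncomputable section

/-- `ν · n = p − 1` and `ν · c = 24`. -/
theorem s16_numerator_facts (p : ℕ) :
    Nat.gcd (p - 1) 12 * eisensteinNumerator p = p - 1 ∧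
      Nat.gcd (p - 1) 12 * (24 / Nat.gcd (p - 1) 12) = 24 := by
  constructor
  · rw [eisensteinNumerator]
    exact Nat.mul_div_cancel' (Nat.gcd_dvd_left _ _)
  · exact Nat.mul_div_cancel' (dvd_trans (Nat.gcd_dvd_right _ _) (by norm_num))

/-- The main step: a congruence `f ≡ E mod ℓ^t` with `ℓ^t ∤ n` contradicts (NC). -/
theorem dvd_of_noCong {p : ℕ} [Fact p.Prime] (hp5 : 5 ≤ p) {l t : ℕ} (hl : l.Prime)
    (hNC : NoCong p l (ncExp p l))
    (f : CuspForm (CongruenceSubgroup.Gamma0 p) 2)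
    (hf : ∀ k : ℕ, 1 ≤ k → ∃ z : ℤ,
      qCoeff ⇑f k = (sigmaP p k : ℂ) + ((l ^ t : ℕ) : ℂ) * (z : ℂ)) :
    l ^ t ∣ eisensteinNumerator p := by
  by_contra hnd
  have : Fact l.Prime := ⟨hl⟩
  obtain ⟨hν1, hν2⟩ := s16_numerator_facts p
  set ν := Nat.gcd (p - 1) 12 with hν
  set n := eisensteinNumerator p with hn
  set c := 24 / ν with hc
  have hνpos : 0 < ν := Nat.gcd_pos_of_pos_right _ (by norm_num)
  have hn0 : n ≠ 0 := by
    intro h
    rw [h, mul_zero] at hν1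
    omega
  have hc0 : c ≠ 0 := by
    intro h
    rw [h, mul_zero] at hν2
    omega
  -- `n = l^a u`, `c = l^b c'`
  set a := padicValNat l n with ha
  set b := padicValNat l c with hb
  obtain ⟨u, hu⟩ : l ^ a ∣ n := pow_padicValNat_dvd
  obtain ⟨c', hc'⟩ : l ^ b ∣ c := pow_padicValNat_dvd
  have hlu : ¬ l ∣ u := by
    intro ⟨u', hu'⟩
    have : l ^ (a + 1) ∣ n := ⟨u', by rw [hu, hu', pow_succ]; ring⟩
    exact pow_succ_padicValNat_not_dvd hn0 this
  have hat : a < t := by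
    by_contra hta
    rw [not_lt] at hta
    exact hnd (dvd_trans (pow_dvd_pow l hta) ⟨u, hu⟩)
  obtain ⟨d, hd⟩ : ∃ d, t = a + 1 + d := ⟨t - a - 1, by omega⟩
  choose z hz using hf
  set zz : ℕ → ℤ := fun k => if h : 1 ≤ k then z k h else 0 with hzz
  have hzz' : ∀ k, 1 ≤ k → qCoeff ⇑f k = (sigmaP p k : ℂ) + ((l ^ t : ℕ) : ℂ) * (zz k : ℂ) := by
    intro k hk
    rw [hzz]
    simp only [dif_pos hk]
    exact hz k hk
  set κ : ℂ := (c : ℂ) / ((l : ℂ) ^ a) with hκ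
  have hl0 : (l : ℂ) ≠ 0 := by exact_mod_cast hl.ne_zero
  have hla0 : ((l : ℂ) ^ a) ≠ 0 := pow_ne_zero _ hl0
  set Z : PowerSeries ℤ := PowerSeries.mk
    (fun k => if k = 0 then 0 else - ((l : ℤ) ^ d * (c' : ℤ) * zz k)) with hZ
  refine hNC (ncForm p κ f) (u : ℤ) Z (by exact_mod_cast hlu) ?_
  ext k
  rw [qExpansion_ncForm_coeff, PowerSeries.coeff_map, map_add, PowerSeries.coeff_C,
    PowerSeries.coeff_C_mul, hZ, PowerSeries.coeff_mk]
  have hpC : ((p : ℂ) - 1) = (ν : ℂ) * (n : ℂ) := by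
    have h1 : 1 ≤ p := by omega
    have := congrArg (Nat.cast : ℕ → ℂ) hν1
    rw [Nat.cast_sub h1] at this
    push_cast at this
    rw [← this]
  have h24 : (24 : ℂ) = (ν : ℂ) * (c : ℂ) := by
    have := congrArg (Nat.cast : ℕ → ℂ) hν2
    push_cast at this
    rw [← this]
  have hνC : (ν : ℂ) ≠ 0 := by exact_mod_cast hνpos.ne'
  have hcC : (c : ℂ) ≠ 0 := by exact_mod_cast hc0
  have hnC : (n : ℂ) = (l : ℂ) ^ a * (u : ℂ) := by
    have := congrArg (Nat.cast : ℕ → ℂ) hu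
    push_cast at this
    exact this
  have hcC' : (c : ℂ) = (l : ℂ) ^ b * (c' : ℂ) := by
    have := congrArg (Nat.cast : ℕ → ℂ) hc'
    push_cast at this
    exact this
  rcases Nat.eq_zero_or_pos k with rfl | hk
  · rw [qExpansion_eisP_coeff_zero, qCoeff_cusp_idx_zero, if_pos rfl, if_pos rfl, hpC, h24, hκ, hnC]
    simp only [sub_zero, mul_zero, add_zero, eq_intCast, Int.cast_natCast]
    field_simp
  · have hk0 : k ≠ 0 := by omega
    rw [qExpansion_eisP_coeff_pos p hk, hzz' k hk, if_neg hk0, if_neg hk0, hκ, hcC', hd, ncExp]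
    rw [← hν, ← hc, ← hb]
    simp only [eq_intCast]
    push_cast
    field_simp
    ring

/-- `[SL₂(ℤ) : Γ₀(p)] = p + 1`. -/
theorem s16_index_Gamma0_prime {p : ℕ} (hp : p.Prime) :
    (CongruenceSubgroup.Gamma0 p).index = p + 1 := by
  have : NeZero p := ⟨hp.ne_zero⟩
  rw [Fermat.Agent.X0N.index_Gamma0 p]
  have h := Fermat.Agent.X0N.dedekindPsi_prime_pow hp (n := 1) one_pos
  simpa using h

/-- For `p < 5` there are no cusp forms of weight two on `Γ₀(p)`. -/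
theorem s16_cuspForm_eq_zero_of_lt_five {p : ℕ} (hp : p.Prime) (hp5 : p < 5)
    (f : CuspForm (CongruenceSubgroup.Gamma0 p) 2) : f = 0 := by
  have : NeZero p := ⟨hp.ne_zero⟩
  apply cuspForm_Gamma0_eq_zero_of_sturm_zero p 2 _ f
  rw [s16_index_Gamma0_prime hp]
  have : ((2 : ℤ) * ((p + 1 : ℕ) : ℤ)).toNat = 2 * (p + 1) := by
    rw [show (2 : ℤ) * ((p + 1 : ℕ) : ℤ) = ((2 * (p + 1) : ℕ) : ℤ) by push_cast; ring]
    exact Int.toNat_natCast _
  rw [this]
  omega

/-- **(UB-FIN)** the statement `hC2` of helper9's `s16_of_C1_C2` from the (NC) statements. -/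
theorem hC2_of_noCong (p : ℕ) [Fact p.Prime]
    (h5 : 5 ≤ p → ∀ l : ℕ, l.Prime → 5 ≤ l → NoCong p l 1)
    (h31 : 5 ≤ p → p % 3 = 1 → NoCong p 3 1)
    (h32 : 5 ≤ p → p % 3 = 2 → NoCong p 3 2)
    (h21 : 5 ≤ p → p % 4 = 1 → NoCong p 2 2)
    (h23 : 5 ≤ p → p % 4 = 3 → NoCong p 2 3) :
    ∀ l t : ℕ, l.Prime → 1 ≤ t →
      (∃ f ∈ intLattice p 2, ∀ k : ℕ, 1 ≤ k → ∃ z : ℤ,
        ModularFormClass.qCoeff ⇑f k = (sigmaP p k : ℂ) + ((l ^ t : ℕ) : ℂ) * (z : ℂ)) →
      l ^ t ∣ eisensteinNumerator p := by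
  intro l t hl ht ⟨f, _, hf⟩
  have hp : p.Prime := Fact.out
  rcases lt_or_ge p 5 with hp5 | hp5
  · -- no cusp forms
    exfalso
    have hf0 := s16_cuspForm_eq_zero_of_lt_five hp hp5 f
    obtain ⟨z, hz⟩ := hf 1 le_rfl
    rw [hf0, qCoeff_cusp_zero, sigmaP_one hp] at hz
    have h1 : ((l ^ t : ℕ) : ℤ) ∣ 1 := by
      refine ⟨-z, ?_⟩
      have : ((1 : ℤ) : ℂ) = (((l ^ t : ℕ) : ℤ) * -z : ℤ) := by
        push_cast at hz ⊢
        linear_combination -hz
      exact_mod_cast this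
    have h2 : l ^ t ∣ 1 := by exact_mod_cast h1
    have h3 : l ^ t = 1 := Nat.dvd_one.1 h2
    have h4 : 2 ≤ l ^ t := le_trans hl.two_le (Nat.le_self_pow (by omega) l)
    omega
  · refine dvd_of_noCong hp5 hl ?_ f hf
    have hl2 := hl.two_le
    rcases lt_or_ge l 5 with hl5 | hl5
    · have hl23 : l = 2 ∨ l = 3 := by
        interval_cases l
        · left; rfl
        · right; rfl
        · exact absurd hl (by decide)
      have hpmod := s16_prime_mod_twelve hp hp5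
      rcases hl23 with rfl | rfl
      · obtain ⟨e1, e3⟩ := ncExp_two hp hp5
        have : p % 4 = 1 ∨ p % 4 = 3 := by omega
        rcases this with h | h
        · rw [e1 h]; exact h21 hp5 h
        · rw [e3 h]; exact h23 hp5 h
      · obtain ⟨e1, e2⟩ := ncExp_three hp hp5
        have : p % 3 = 1 ∨ p % 3 = 2 := by omega
        rcases this with h | h
        · rw [e1 h]; exact h31 hp5 h
        · rw [e2 h]; exact h32 hp5 h
    · rw [ncExp_of_five_le hl hl5]
      exact h5 hp5 l hl hl5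

end

end Fermat.Agent.S16
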