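import Mathlib
import Fermat.Agent.S16.FIN_helper2_Main
import Fermat.Agent.GR.S16D_helper9_Main

/-!
# (S16) the frozen statement from (C1) and the five (NC) statements
-/

set_option autoImplicit false

namespace Fermat.Agent.S16

open UpperHalfPlane ModularForm ModularFormClass CuspForm ModularCurve
open Fermat.Agent.GR Fermat.Agent.Helper2
open scoped MatrixGroups ModularForm

/-- **S16 from (C1) and (NC).** -/
theorem s16_of_C1_noCong (p : ℕ) [Fact p.Prime]
    (hC1 : ∃ f : CuspForm (CongruenceSubgroup.Gamma0 p) 2,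
      ∀ k : ℕ, 1 ≤ k → ∃ z : ℤ, qCoeff ⇑f k =
        (sigmaP p k : ℂ) + (eisensteinNumerator p : ℂ) * (z : ℂ))
    (h5 : 5 ≤ p → ∀ l : ℕ, l.Prime → 5 ≤ l → NoCong p l 1)
    (h31 : 5 ≤ p → p % 3 = 1 → NoCong p 3 1)
    (h32 : 5 ≤ p → p % 3 = 2 → NoCong p 3 2)
    (h21 : 5 ≤ p → p % 4 = 1 → NoCong p 2 2)
    (h23 : 5 ≤ p → p % 4 = 3 → NoCong p 2 3) :
    Nat.card (↥(heckeLatticeAlgebra p ∅) ⧸
        Ideal.map ((latticeRestrictHom p ∅).toRingHom.comp (heckeEvalForms p 2))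
          (eisensteinIdeal p)) = eisensteinNumerator p :=
  s16_of_C1_C2 p hC1 (hC2_of_noCong p h5 h31 h32 h21 h23)

end Fermat.Agent.S16
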