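import Mathlib
import Fermat.Agent.S16.CASE_helper2_B
import Fermat.Agent.S16.CASE_helper2_Three
import Fermat.Agent.S16.CASE_helper2_Two
import Fermat.Agent.S16.FIN_helper2_S16

/-!
# (S16) assembly: S16 from (C1) and the four "norm" cases (a'), (c5'), (d'), (g)

The coefficient cases (b), (c3), (d''), (e), (f), and the easy halves of (a), (c5), are proved in
`CASE_helper2_{B,Three,Two}`.
-/

set_option autoImplicit false

namespace Fermat.Agent.S16

open UpperHalfPlane ModularForm ModularFormClass CuspForm ModularCurve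
open Fermat.Agent.GR Fermat.Agent.Helper2
open scoped MatrixGroups ModularForm

variable {p : ℕ} [Fact p.Prime]

/-- Case (c5), easy half: `ℓ = 5`, `p ≡ ±2 mod 5`, from (T6). -/
theorem noCong_five_of_mod_five (hp5 : p % 5 = 2 ∨ p % 5 = 3) : NoCong p 5 1 := by
  apply noCong_of_not_dvd_T6 Nat.prime_five
  rintro ⟨k, hk⟩
  rcases hp5 with h | h
  · obtain ⟨m, hm⟩ : ∃ m : ℤ, (p : ℤ) = 5 * m + 2 := ⟨(p / 5 : ℕ), by
      have := Nat.div_add_mod p 5
      rw [h] at this
      exact_mod_cast this.symm⟩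
    have e : (p : ℤ) ^ 2 - 1 = 5 * (5 * m ^ 2 + 4 * m) + 3 := by rw [hm]; ring
    rw [e] at hk
    generalize 5 * m ^ 2 + 4 * m = M at hk
    push_cast at hk
    omega
  · obtain ⟨m, hm⟩ : ∃ m : ℤ, (p : ℤ) = 5 * m + 3 := ⟨(p / 5 : ℕ), by
      have := Nat.div_add_mod p 5
      rw [h] at this
      exact_mod_cast this.symm⟩
    have e : (p : ℤ) ^ 2 - 1 = 5 * (5 * m ^ 2 + 6 * m + 1) + 3 := by rw [hm]; ring
    rw [e] at hk
    generalize 5 * m ^ 2 + 6 * m + 1 = M at hk
    push_cast at hk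
    omega

/-- **S16 from (C1) and the four remaining (norm) cases.** -/
theorem s16_of_C1_normCases (p : ℕ) [Fact p.Prime]
    (hC1 : ∃ f : CuspForm (CongruenceSubgroup.Gamma0 p) 2,
      ∀ k : ℕ, 1 ≤ k → ∃ z : ℤ, qCoeff ⇑f k =
        (sigmaP p k : ℂ) + (eisensteinNumerator p : ℂ) * (z : ℂ))
    (ha : 5 ≤ p → ∀ l : ℕ, l.Prime → 7 ≤ l → l ≠ p → l ∣ p + 1 → NoCong p l 1)
    (hc5 : 5 ≤ p → (p % 5 = 1 ∨ p % 5 = 4) → NoCong p 5 1)
    (hd' : 5 ≤ p → p % 9 = 8 → NoCong p 3 2)
    (hg : 5 ≤ p → p % 8 = 7 → NoCong p 2 3) :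
    Nat.card (↥(heckeLatticeAlgebra p ∅) ⧸
        Ideal.map ((latticeRestrictHom p ∅).toRingHom.comp (heckeEvalForms p 2))
          (eisensteinIdeal p)) = eisensteinNumerator p := by
  have hp : p.Prime := Fact.out
  refine s16_of_C1_noCong p hC1 ?_ ?_ ?_ ?_ ?_
  · intro hp5 l hl hl5
    by_cases hlp : l = p
    · subst hlp
      exact noCong_self hp5
    rcases Nat.lt_or_ge l 7 with hl7 | hl7
    · have h56 : l = 5 ∨ l = 6 := by omega
      rcases h56 with rfl | rfl
      · have hp5' : p % 5 ≠ 0 := by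
          intro h0
          have : 5 ∣ p := Nat.dvd_of_mod_eq_zero h0
          exact hlp ((Nat.prime_dvd_prime_iff_eq Nat.prime_five hp).1 this)
        have : p % 5 = 1 ∨ p % 5 = 2 ∨ p % 5 = 3 ∨ p % 5 = 4 := by omega
        rcases this with h | h | h | h
        · exact hc5 hp5 (Or.inl h)
        · exact noCong_five_of_mod_five (Or.inl h)
        · exact noCong_five_of_mod_five (Or.inr h)
        · exact hc5 hp5 (Or.inr h)
      · exact absurd hl (by decide)
    · by_cases hd : l ∣ p + 1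
      · exact ha hp5 l hl hl7 hlp hd
      · exact noCong_of_seven_le_of_not_dvd hl hl7 hd
  · intro _ h
    exact noCong_three_one h
  · intro hp5 h
    have : p % 9 = 2 ∨ p % 9 = 5 ∨ p % 9 = 8 := by omega
    rcases this with h9 | h9 | h9
    · exact noCong_three_two_of_mod_nine (Or.inl h9)
    · exact noCong_three_two_of_mod_nine (Or.inr h9)
    · exact hd' hp5 h9
  · intro _ h
    exact noCong_two_two h
  · intro hp5 h
    have : p % 8 = 3 ∨ p % 8 = 7 := by omega
    rcases this with h8 | h8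
    · exact noCong_two_three_of_mod_eight h8
    · exact hg hp5 h8

end Fermat.Agent.S16
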