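import Mathlib
import Fermat.Agent.S16.WTR_helper4_Id
import Fermat.Prelude.Thm_UpperHalfPlane_qExpansion_coeff_nat_mul
import Fermat.Prelude.Thm_UpperHalfPlane_qExpansion_prod

/-!
# S16 / UB-N, part 1: the conjugates `F ∣ S Tʲ`, their expansions in `t = q^{1/p}`, and the norm
-/

set_option autoImplicit false
noncomputable section
namespace Fermat.Agent.S16

open Matrix.SpecialLinearGroup CongruenceSubgroup UpperHalfPlane ModularForm Function
open scoped MatrixGroups ModularForm Manifold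

variable {p : ℕ} {k : ℤ}

/-- The `j`-th conjugate `F ∣[k] S Tʲ` of a form of level `Γ₀(p)`. -/
def conjF (F : ModularForm (Gamma0 p) k) (j : ℕ) : ℍ → ℂ := ⇑F ∣[k] mapGL ℝ (stMat (j : ℤ))

/-- The expansion of the `j`-th conjugate in `t = q^{1/p}`. -/
def conjS (F : ModularForm (Gamma0 p) k) (j : ℕ) : PowerSeries ℂ := qExpansion p (conjF F j)

theorem conjF_apply [NeZero p] (F : ModularForm (Gamma0 p) k) (j : ℕ) (τ : ℍ) :
    conjF F j τ = (p : ℂ) ^ (1 - k) * (wOp F) (heckeMatrix p j • τ) := by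
  have hp' : (p : ℂ) ≠ 0 := by exact_mod_cast NeZero.ne p
  rw [conjF, slash_stMat_eq, Pi.smul_apply, slash_heckeMatrix_apply k (NeZero.ne p), smul_eq_mul,
    ← mul_assoc]
  congr 1
  rw [show (1 : ℤ) - k = (2 - k) + (-1) by ring, zpow_add₀ hp', zpow_neg_one]

theorem conjF_apply' [NeZero p] (F : ModularForm (Gamma0 p) k) (j : ℕ) (τ : ℍ) :
    conjF F j τ = (p : ℂ) ^ (1 - k) * (⇑(wOp F) ∘ ofComplex) (((τ : ℂ) + j) / p) := by
  rw [conjF_apply, comp_apply, ← coe_heckeMatrix_smul (NeZero.ne p), ofComplex_apply]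

theorem mdifferentiable_conjF (F : ModularForm (Gamma0 p) k) (j : ℕ) : MDiff (conjF F j) :=
  (ModularFormClass.holo F).slash k _

theorem isBoundedAtImInfty_conjF [NeZero p] (F : ModularForm (Gamma0 p) k) (j : ℕ) :
    IsBoundedAtImInfty (conjF F j) :=
  ModularFormClass.bdd_at_infty_slash F (stMat (j : ℤ))

theorem periodic_conjF [NeZero p] (F : ModularForm (Gamma0 p) k) (j : ℕ) :
    Periodic (conjF F j ∘ ofComplex) (p : ℝ) := by
  have hp' : (p : ℂ) ≠ 0 := by exact_mod_cast NeZero.ne p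
  have hper : Periodic (⇑(wOp F) ∘ ofComplex) (1 : ℝ) :=
    SlashInvariantFormClass.periodic_comp_ofComplex (wOp F) (one_mem_strictPeriods_G0 p)
  intro w
  by_cases! hw : 0 < w.im
  · have hw' : 0 < (w + (p : ℝ)).im := by simpa using hw
    simp only [comp_apply, ofComplex_apply_of_im_pos hw', ofComplex_apply_of_im_pos hw]
    rw [conjF_apply', conjF_apply']
    congr 1
    have : ((((⟨w + (p : ℝ), hw'⟩ : ℍ) : ℂ)) + j) / p = (((⟨w, hw⟩ : ℍ) : ℂ) + j) / p + (1 : ℝ) := by
      push_cast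
      field_simp
      ring
    rw [this]
    exact hper _
  · have : (w + ((p : ℝ) : ℂ)).im ≤ 0 := by simpa using hw
    simp only [comp_apply, ofComplex_apply_of_im_nonpos this, ofComplex_apply_of_im_nonpos hw]

theorem analyticAt_cuspFunction_conjF [NeZero p] (F : ModularForm (Gamma0 p) k) (j : ℕ) :
    AnalyticAt ℂ (cuspFunction p (conjF F j)) 0 :=
  analyticAt_cuspFunction_zero (by exact_mod_cast Nat.pos_of_ne_zero (NeZero.ne p))
    (periodic_conjF F j) (mdifferentiable_conjF F j) (isBoundedAtImInfty_conjF F j)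

/-- The primitive `p`-th root of unity `exp(2πi/p)`. -/
def zetaP (p : ℕ) : ℂ := Complex.exp (2 * Real.pi * Complex.I / p)

theorem qParam_heckeMatrix_smul [NeZero p] (j : ℕ) (τ : ℍ) :
    Periodic.qParam 1 ((heckeMatrix p j • τ : ℍ) : ℂ) = zetaP p ^ j * Periodic.qParam p τ := by
  have hp' : (p : ℂ) ≠ 0 := by exact_mod_cast NeZero.ne p
  rw [coe_heckeMatrix_smul (NeZero.ne p), Periodic.qParam, Periodic.qParam, zetaP, ← Complex.exp_nat_mul,
    ← Complex.exp_add]
  congr 1
  push_cast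
  field_simp
  ring

/-- The `t`-expansion coefficients of the `j`-th conjugate. -/
def conjCoeff (F : ModularForm (Gamma0 p) k) [NeZero p] (j m : ℕ) : ℂ :=
  (p : ℂ) ^ (1 - k) * zetaP p ^ (j * m) * (qExpansion 1 ⇑(wOp F)).coeff m

theorem hasSum_conjF [NeZero p] (F : ModularForm (Gamma0 p) k) (j : ℕ) (τ : ℍ) :
    HasSum (fun m : ℕ => conjCoeff F j m • Periodic.qParam p τ ^ m) (conjF F j τ) := by
  have h := (ModularForm.hasSum_qExpansion (wOp F) one_pos (one_mem_strictPeriods_G0 p)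
    (heckeMatrix p j • τ)).mul_left ((p : ℂ) ^ (1 - k))
  rw [← conjF_apply] at h
  have h2 : (fun m : ℕ => conjCoeff F j m • Periodic.qParam p τ ^ m) =
      fun i => (p : ℂ) ^ (1 - k) * ((PowerSeries.coeff i) (qExpansion 1 ⇑(wOp F)) *
        Periodic.qParam 1 ↑(heckeMatrix p j • τ) ^ i) := by
    funext m
    rw [qParam_heckeMatrix_smul, smul_eq_mul, mul_pow, ← pow_mul, conjCoeff]
    ring
  rw [h2]
  exact h

theorem coeff_conjS [NeZero p] (F : ModularForm (Gamma0 p) k) (j m : ℕ) :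
    PowerSeries.coeff m (conjS F j) = conjCoeff F j m := by
  have hpos : (0 : ℝ) < (p : ℝ) := by exact_mod_cast Nat.pos_of_ne_zero (NeZero.ne p)
  have h1 : AnalyticAt ℂ (cuspFunction (p : ℝ) (conjF F j)) 0 := analyticAt_cuspFunction_conjF F j
  have h2 : ∀ τ : ℍ, HasSum (fun m : ℕ => conjCoeff F j m • Periodic.qParam (p : ℝ) τ ^ m) (conjF F j τ) :=
    hasSum_conjF F j
  exact (qExpansion_coeff_unique (ModularForm.translate F (mapGL ℝ (stMat (j : ℤ)))) hpos h1 h2 m).symm

theorem natCast_mem_strictPeriods_G0 (p : ℕ) :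
    (p : ℝ) ∈ (Subgroup.map (mapGL ℝ) (Gamma0 p)).strictPeriods := by
  have := AddSubgroup.nsmul_mem _ (one_mem_strictPeriods_G0 p) p
  simpa using this

/-- For a function of period one, the expansion in `t = q^{1/p}` is the `q`-expansion with `X`
replaced by `X ^ p`. -/
theorem qExpansion_natCast_eq_expand [NeZero p] {f : ℍ → ℂ}
    (hper : Periodic (f ∘ ofComplex) (1 : ℝ)) (hhol : MDiff f) (hbdd : IsBoundedAtImInfty f) :
    qExpansion (p : ℝ) f = PowerSeries.expand p (NeZero.ne p) (qExpansion 1 f) := by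
  ext n
  rw [PowerSeries.coeff_expand]
  have := UpperHalfPlane.qExpansion_coeff_nat_mul (h := 1) one_pos hper hhol hbdd
    (Nat.pos_of_ne_zero (NeZero.ne p)) n
  rwa [mul_one] at this

theorem qExpansion_natCast_eq_expand_of_form [NeZero p] {Γ : Subgroup (GL (Fin 2) ℝ)}
    [Γ.IsArithmetic] (hΓ : (1 : ℝ) ∈ Γ.strictPeriods) (f : ModularForm Γ k) :
    qExpansion (p : ℝ) ⇑f = PowerSeries.expand p (NeZero.ne p) (qExpansion 1 ⇑f) :=
  qExpansion_natCast_eq_expand (SlashInvariantFormClass.periodic_comp_ofComplex f hΓ)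
    (ModularFormClass.holo f) (ModularFormClass.bdd_at_infty f)

/-- (N4) The `q`-expansion of the norm, in the variable `t = q^{1/p}`. -/
theorem expand_qExpansion_norm [Fact p.Prime] (F : ModularForm (Gamma0 p) k) :
    PowerSeries.expand p (NeZero.ne p) (qExpansion 1 ⇑(ModularForm.norm 𝒮ℒ F)) =
      PowerSeries.expand p (NeZero.ne p) (qExpansion 1 ⇑F) * ∏ j : Fin p, conjS F j := by
  have hpos : (0 : ℝ) < (p : ℝ) := by exact_mod_cast Nat.pos_of_ne_zero (NeZero.ne p)
  rw [← qExpansion_natCast_eq_expand_of_form one_mem_strictPeriods_SL,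
    ← qExpansion_natCast_eq_expand_of_form (one_mem_strictPeriods_G0 p)]
  let G : Option (Fin p) → ℍ → ℂ := fun a => a.elim ⇑F (fun j => conjF F j)
  have hG : ⇑(ModularForm.norm 𝒮ℒ F) = ∏ a ∈ (Finset.univ : Finset (Option (Fin p))), G a := by
    rw [coe_norm_eq, Fintype.prod_option]
    rfl
  have han : ∀ a ∈ (Finset.univ : Finset (Option (Fin p))),
      AnalyticAt ℂ (cuspFunction (p : ℝ) (G a)) 0 := by
    intro a _
    rcases a with _ | j
    · exact ModularFormClass.analyticAt_cuspFunction_zero F hpos (natCast_mem_strictPeriods_G0 p)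
    · exact analyticAt_cuspFunction_conjF F j
  rw [hG, UpperHalfPlane.qExpansion_prod _ han, Fintype.prod_option]
  rfl

/-! ### Algebra of conjugates -/

theorem conjS_eq_rescale [NeZero p] (F : ModularForm (Gamma0 p) k) (j : ℕ) :
    conjS F j = PowerSeries.C ((p : ℂ) ^ (1 - k)) *
      PowerSeries.rescale (zetaP p ^ j) (qExpansion 1 ⇑(wOp F)) := by
  ext m
  rw [coeff_conjS, conjCoeff, PowerSeries.coeff_C_mul, PowerSeries.coeff_rescale, pow_mul]
  ring

theorem conjF_add (A B : ModularForm (Gamma0 p) k) (j : ℕ) :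
    conjF (A + B) j = conjF A j + conjF B j := by
  rw [conjF, FunLike.coe_add, SlashAction.add_slash]; rfl

theorem conjF_neg (A : ModularForm (Gamma0 p) k) (j : ℕ) : conjF (-A) j = -conjF A j := by
  rw [conjF, FunLike.coe_neg, SlashAction.neg_slash]; rfl

theorem conjF_sub (A B : ModularForm (Gamma0 p) k) (j : ℕ) :
    conjF (A - B) j = conjF A j - conjF B j := by
  rw [sub_eq_add_neg, conjF_add, conjF_neg, ← sub_eq_add_neg]

theorem conjF_smul (c : ℂ) (A : ModularForm (Gamma0 p) k) (j : ℕ) :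
    conjF (c • A) j = c • conjF A j := by
  rw [conjF, FunLike.coe_smul, ModularForm.smul_slash]
  have hσ : σ (mapGL ℝ (stMat (j : ℤ))) = .refl ℝ ℂ := by rw [σ, if_pos (det_mapGL_pos _)]
  rw [hσ]
  rfl

theorem conjF_mul {k₁ k₂ : ℤ} (A : ModularForm (Gamma0 p) k₁) (B : ModularForm (Gamma0 p) k₂)
    (j : ℕ) : conjF (A.mul B) j = conjF A j * conjF B j := by
  rw [conjF, ModularForm.coe_mul]
  exact ModularForm.mul_slash_SL2 k₁ k₂ (stMat (j : ℤ)) ⇑A ⇑B

theorem conjS_add [NeZero p] (A B : ModularForm (Gamma0 p) k) (j : ℕ) :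
    conjS (A + B) j = conjS A j + conjS B j := by
  rw [conjS, conjF_add, qExpansion_add (analyticAt_cuspFunction_conjF A j)
    (analyticAt_cuspFunction_conjF B j)]
  rfl

theorem conjS_neg [NeZero p] (A : ModularForm (Gamma0 p) k) (j : ℕ) :
    conjS (-A) j = -conjS A j := by
  rw [conjS, conjF_neg, qExpansion_neg (analyticAt_cuspFunction_conjF A j)]
  rfl

theorem conjS_sub [NeZero p] (A B : ModularForm (Gamma0 p) k) (j : ℕ) :
    conjS (A - B) j = conjS A j - conjS B j := by
  rw [conjS, conjF_sub, qExpansion_sub (analyticAt_cuspFunction_conjF A j)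
    (analyticAt_cuspFunction_conjF B j)]
  rfl

theorem conjS_smul [NeZero p] (c : ℂ) (A : ModularForm (Gamma0 p) k) (j : ℕ) :
    conjS (c • A) j = c • conjS A j := by
  rw [conjS, conjF_smul, qExpansion_smul (analyticAt_cuspFunction_conjF A j)]
  rfl

theorem conjS_mul [NeZero p] {k₁ k₂ : ℤ} (A : ModularForm (Gamma0 p) k₁)
    (B : ModularForm (Gamma0 p) k₂) (j : ℕ) :
    conjS (A.mul B) j = conjS A j * conjS B j := by
  rw [conjS, conjF_mul, qExpansion_mul (analyticAt_cuspFunction_conjF A j)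
    (analyticAt_cuspFunction_conjF B j)]
  rfl

/-- Restriction of a level-one form to `Γ₀(p)`. -/
def resL1 (p : ℕ) (E : ModularForm 𝒮ℒ k) : ModularForm (Gamma0 p) k where
  toFun := ⇑E
  slash_action_eq' γ hγ := E.slash_action_eq' γ (Subgroup.map_le_range _ _ hγ)
  holo' := E.holo'
  bdd_at_cusps' hc := E.bdd_at_cusps' (hc.mono (Subgroup.map_le_range _ _))

@[simp] theorem coe_resL1 (p : ℕ) (E : ModularForm 𝒮ℒ k) : ⇑(resL1 p E) = ⇑E := rfl

theorem conjF_resL1 (E : ModularForm 𝒮ℒ k) (j : ℕ) : conjF (resL1 p E) j = ⇑E := by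
  rw [conjF, coe_resL1]
  exact SlashInvariantFormClass.slash_action_eq E _ ⟨_, rfl⟩

/-- (N2) The conjugates of a level-one form are the form itself. -/
theorem conjS_resL1 [NeZero p] (E : ModularForm 𝒮ℒ k) (j : ℕ) :
    conjS (resL1 p E) j = PowerSeries.expand p (NeZero.ne p) (qExpansion 1 ⇑E) := by
  rw [conjS, conjF_resL1, qExpansion_natCast_eq_expand_of_form one_mem_strictPeriods_SL]

/-- (N3) In weight two the conjugates are `ε · (U_p G)(ζʲ t)` with `ε = -1/p`. -/
theorem conjS_weight_two [Fact p.Prime] (G : ModularForm (Gamma0 p) 2) (j : ℕ) :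
    conjS G j = PowerSeries.C (-(p : ℂ)⁻¹) *
      PowerSeries.rescale (zetaP p ^ j) (upS p (qExpansion 1 ⇑G)) := by
  rw [conjS_eq_rescale, qExpansion_wOp, map_neg, mul_neg, map_neg, neg_mul]
  congr 2
  norm_num

end Fermat.Agent.S16
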