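import Mathlib
import Fermat.Agent.S16.N_helper4_Conj

/-!
# S16 / UB-N, part 2: `ℓ`-integral algebraic numbers, power series with such coefficients,
congruences modulo `ℓ ^ s`
-/

set_option autoImplicit false
noncomputable section
namespace Fermat.Agent.S16

open PowerSeries

theorem isIntegral_intCast_complex (n : ℤ) : IsIntegral ℤ (n : ℂ) := by
  simpa using (isIntegral_algebraMap (R := ℤ) (A := ℂ) (x := n))

theorem isIntegral_natCast_complex (n : ℕ) : IsIntegral ℤ (n : ℂ) := by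
  simpa using isIntegral_intCast_complex (n : ℤ)

/-- The subring of `ℓ`-integral algebraic numbers: `x` such that `b x` is an algebraic integer for
some natural number `b` prime to `ℓ`. -/
def Rint (ℓ : ℕ) [Fact ℓ.Prime] : Subring ℂ where
  carrier := {x | ∃ b : ℕ, ¬ ℓ ∣ b ∧ IsIntegral ℤ ((b : ℂ) * x)}
  mul_mem' := by
    rintro x y ⟨b, hb, hx⟩ ⟨c, hc, hy⟩
    refine ⟨b * c, fun h => ((Fact.out : ℓ.Prime).dvd_mul.mp h).elim hb hc, ?_⟩
    have := hx.mul hy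
    have e : ((b * c : ℕ) : ℂ) * (x * y) = (b : ℂ) * x * ((c : ℂ) * y) := by push_cast; ring
    rw [e]; exact this
  one_mem' := ⟨1, by simpa using (Fact.out : ℓ.Prime).one_lt.ne', by simpa using isIntegral_one⟩
  add_mem' := by
    rintro x y ⟨b, hb, hx⟩ ⟨c, hc, hy⟩
    refine ⟨b * c, fun h => ((Fact.out : ℓ.Prime).dvd_mul.mp h).elim hb hc, ?_⟩
    have h1 : IsIntegral ℤ ((c : ℂ) * ((b : ℂ) * x)) := (isIntegral_natCast_complex c).mul hx
    have h2 : IsIntegral ℤ ((b : ℂ) * ((c : ℂ) * y)) := (isIntegral_natCast_complex b).mul hy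
    have e : ((b * c : ℕ) : ℂ) * (x + y) = (c : ℂ) * ((b : ℂ) * x) + (b : ℂ) * ((c : ℂ) * y) := by
      push_cast; ring
    rw [e]; exact h1.add h2
  zero_mem' := ⟨1, by simpa using (Fact.out : ℓ.Prime).one_lt.ne', by simp [isIntegral_zero]⟩
  neg_mem' := by
    rintro x ⟨b, hb, hx⟩
    exact ⟨b, hb, by simpa using hx.neg⟩

variable {ℓ : ℕ} [Fact ℓ.Prime]

theorem mem_Rint_iff {x : ℂ} :
    x ∈ Rint ℓ ↔ ∃ b : ℕ, ¬ ℓ ∣ b ∧ IsIntegral ℤ ((b : ℂ) * x) := Iff.rfl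

theorem mem_Rint_of_isIntegral {x : ℂ} (hx : IsIntegral ℤ x) : x ∈ Rint ℓ :=
  ⟨1, by simpa using (Fact.out : ℓ.Prime).one_lt.ne', by simpa using hx⟩

theorem intCast_mem_Rint (n : ℤ) : (n : ℂ) ∈ Rint ℓ :=
  mem_Rint_of_isIntegral (isIntegral_intCast_complex n)

theorem natCast_mem_Rint (n : ℕ) : (n : ℂ) ∈ Rint ℓ :=
  mem_Rint_of_isIntegral (isIntegral_natCast_complex n)

theorem inv_natCast_mem_Rint {b : ℕ} (hb : ¬ ℓ ∣ b) : ((b : ℂ))⁻¹ ∈ Rint ℓ := by
  have hb0 : (b : ℂ) ≠ 0 := by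
    rintro h
    have : b = 0 := by exact_mod_cast h
    exact hb (this ▸ dvd_zero ℓ)
  exact ⟨b, hb, by rw [mul_inv_cancel₀ hb0]; exact isIntegral_one⟩

theorem zetaP_pow_eq_one (p : ℕ) [NeZero p] : zetaP p ^ p = 1 := by
  have hp : (p : ℂ) ≠ 0 := by exact_mod_cast NeZero.ne p
  rw [zetaP, ← Complex.exp_nat_mul, mul_div_cancel₀ _ hp, Complex.exp_two_pi_mul_I]

theorem zetaP_mem_Rint (p : ℕ) [NeZero p] : zetaP p ∈ Rint ℓ := by
  refine mem_Rint_of_isIntegral ⟨Polynomial.X ^ p - 1, ?_, ?_⟩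
  · exact Polynomial.monic_X_pow_sub_C 1 (NeZero.ne p)
  · simp [zetaP_pow_eq_one]

/-- The key arithmetic fact: an integer lying in `ℓ · Rint ℓ` is divisible by `ℓ`. -/
theorem dvd_of_intCast_eq_mul {m : ℤ} {x : ℂ} (hx : x ∈ Rint ℓ) (h : (m : ℂ) = (ℓ : ℂ) * x) :
    (ℓ : ℤ) ∣ m := by
  obtain ⟨b, hb, hbx⟩ := hx
  have hℓ : (ℓ : ℂ) ≠ 0 := by exact_mod_cast (Fact.out : ℓ.Prime).ne_zero
  -- `b * m / ℓ` is a rational algebraic integer
  have e : (b : ℂ) * x = (((b : ℤ) * m / (ℓ : ℤ) : ℚ) : ℂ) := by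
    push_cast
    field_simp
    rw [h]; ring
  rw [e] at hbx
  have h2 : IsIntegral ℤ (((b : ℤ) * m / (ℓ : ℤ) : ℚ)) :=
    (isIntegral_algebraMap_iff (algebraMap ℚ ℂ).injective).mp (by simpa using hbx)
  obtain ⟨z, hz⟩ := IsIntegrallyClosed.isIntegral_iff.mp h2
  have h3 : (b : ℤ) * m = z * ℓ := by
    have hℓ' : ((ℓ : ℤ) : ℚ) ≠ 0 := by exact_mod_cast (Fact.out : ℓ.Prime).ne_zero
    have : ((z : ℤ) : ℚ) = (b : ℤ) * m / (ℓ : ℤ) := by simpa using hz
    have h4 : ((z : ℤ) : ℚ) * (ℓ : ℤ) = (b : ℤ) * m := by rw [this]; field_simp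
    exact_mod_cast h4.symm
  have h5 : (ℓ : ℤ) ∣ (b : ℤ) * m := ⟨z, by rw [h3]; ring⟩
  have hpr : Prime (ℓ : ℤ) := Nat.prime_iff_prime_int.mp Fact.out
  rcases hpr.dvd_or_dvd h5 with h6 | h6
  · exact absurd (by exact_mod_cast h6) hb
  · exact h6

/-! ### Power series with `ℓ`-integral coefficients, congruences modulo `ℓ ^ s` -/

/-- Power series all of whose coefficients are `ℓ`-integral algebraic numbers. -/
def Sint (ℓ : ℕ) [Fact ℓ.Prime] : Subring (PowerSeries ℂ) where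
  carrier := {f | ∀ n, coeff n f ∈ Rint ℓ}
  mul_mem' := by
    intro f g hf hg n
    rw [coeff_mul]
    exact Subring.sum_mem _ fun x _ => Subring.mul_mem _ (hf _) (hg _)
  one_mem' := by
    intro n
    rw [coeff_one]
    split_ifs
    · exact Subring.one_mem _
    · exact Subring.zero_mem _
  add_mem' := by
    intro f g hf hg n
    rw [map_add]
    exact Subring.add_mem _ (hf n) (hg n)
  zero_mem' := by
    intro n
    simp
  neg_mem' := by
    intro f hf n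
    rw [map_neg]
    exact Subring.neg_mem _ (hf n)

theorem mem_Sint_iff {f : PowerSeries ℂ} : f ∈ Sint ℓ ↔ ∀ n, coeff n f ∈ Rint ℓ := Iff.rfl

theorem C_mem_Sint {c : ℂ} (hc : c ∈ Rint ℓ) : C c ∈ Sint ℓ := by
  intro n
  rw [coeff_C]
  split_ifs
  · exact hc
  · exact Subring.zero_mem _

theorem smul_mem_Sint {c : ℂ} (hc : c ∈ Rint ℓ) {f : PowerSeries ℂ} (hf : f ∈ Sint ℓ) :
    c • f ∈ Sint ℓ := by
  intro n
  rw [coeff_smul]
  exact Subring.mul_mem _ hc (hf n)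

theorem X_mem_Sint : (X : PowerSeries ℂ) ∈ Sint ℓ := by
  intro n
  rw [coeff_X]
  split_ifs
  · exact Subring.one_mem _
  · exact Subring.zero_mem _

theorem map_intCast_mem_Sint (P : PowerSeries ℤ) : P.map (Int.castRingHom ℂ) ∈ Sint ℓ := by
  intro n
  rw [coeff_map]
  exact intCast_mem_Rint _

theorem expand_mem_Sint_iff {p : ℕ} (hp : p ≠ 0) {f : PowerSeries ℂ} :
    expand p hp f ∈ Sint ℓ ↔ f ∈ Sint ℓ := by
  constructor
  · intro h n
    have := h (p * n)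
    rwa [coeff_expand_mul] at this
  · intro h n
    rw [coeff_expand]
    split_ifs
    · exact h _
    · exact Subring.zero_mem _

theorem upS_mem_Sint (p : ℕ) {f : PowerSeries ℂ} (hf : f ∈ Sint ℓ) : upS p f ∈ Sint ℓ := by
  intro n
  rw [coeff_upS]
  exact hf _

theorem rescale_mem_Sint {a : ℂ} (ha : a ∈ Rint ℓ) {f : PowerSeries ℂ} (hf : f ∈ Sint ℓ) :
    rescale a f ∈ Sint ℓ := by
  intro n
  rw [coeff_rescale]
  exact Subring.mul_mem _ (Subring.pow_mem _ ha n) (hf n)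

/-- Congruence of power series modulo `ℓ ^ s` (with `ℓ`-integral algebraic quotient). -/
def SCong (ℓ : ℕ) [Fact ℓ.Prime] (s : ℕ) (f g : PowerSeries ℂ) : Prop :=
  ∃ h ∈ Sint ℓ, f = g + ((ℓ : ℂ) ^ s) • h

namespace SCong

variable {s : ℕ} {f g f' g' e : PowerSeries ℂ}

theorem refl (f : PowerSeries ℂ) : SCong ℓ s f f := ⟨0, Subring.zero_mem _, by simp⟩

theorem of_eq (h : f = g) : SCong ℓ s f g := h ▸ refl f

theorem symm (h : SCong ℓ s f g) : SCong ℓ s g f := by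
  obtain ⟨u, hu, rfl⟩ := h
  exact ⟨-u, Subring.neg_mem _ hu, by simp⟩

theorem trans (h : SCong ℓ s f g) (h' : SCong ℓ s g e) : SCong ℓ s f e := by
  obtain ⟨u, hu, rfl⟩ := h
  obtain ⟨v, hv, rfl⟩ := h'
  exact ⟨v + u, Subring.add_mem _ hv hu, by rw [smul_add]; ring⟩

theorem add (h : SCong ℓ s f g) (h' : SCong ℓ s f' g') : SCong ℓ s (f + f') (g + g') := by
  obtain ⟨u, hu, rfl⟩ := h
  obtain ⟨v, hv, rfl⟩ := h'
  exact ⟨u + v, Subring.add_mem _ hu hv, by rw [smul_add]; ring⟩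

theorem neg (h : SCong ℓ s f g) : SCong ℓ s (-f) (-g) := by
  obtain ⟨u, hu, rfl⟩ := h
  exact ⟨-u, Subring.neg_mem _ hu, by rw [smul_neg]; ring⟩

theorem sub (h : SCong ℓ s f g) (h' : SCong ℓ s f' g') : SCong ℓ s (f - f') (g - g') := by
  rw [sub_eq_add_neg, sub_eq_add_neg]
  exact h.add h'.neg

theorem mem_Sint (h : SCong ℓ s f g) (hg : g ∈ Sint ℓ) : f ∈ Sint ℓ := by
  obtain ⟨u, hu, rfl⟩ := h
  exact Subring.add_mem _ hg (smul_mem_Sint (Subring.pow_mem _ (natCast_mem_Rint ℓ) s) hu)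

theorem mul (h : SCong ℓ s f g) (h' : SCong ℓ s f' g') (hg : g ∈ Sint ℓ) (hg' : g' ∈ Sint ℓ) :
    SCong ℓ s (f * f') (g * g') := by
  have hf' := h'.mem_Sint hg'
  obtain ⟨u, hu, rfl⟩ := h
  obtain ⟨v, hv, hv'⟩ := h'
  refine ⟨g * v + u * f', Subring.add_mem _ (Subring.mul_mem _ hg hv) (Subring.mul_mem _ hu hf'), ?_⟩
  have e : g * f' = g * g' + (ℓ : ℂ) ^ s • (g * v) := by
    conv_lhs => rw [hv']
    rw [mul_add, mul_smul_comm]
  rw [add_mul, smul_mul_assoc, e, smul_add]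
  abel

theorem mul_left (e : PowerSeries ℂ) (he : e ∈ Sint ℓ) (h : SCong ℓ s f g) :
    SCong ℓ s (e * f) (e * g) := by
  obtain ⟨u, hu, rfl⟩ := h
  exact ⟨e * u, Subring.mul_mem _ he hu, by rw [mul_add, mul_smul_comm]⟩

theorem pow (h : SCong ℓ s f g) (hg : g ∈ Sint ℓ) (n : ℕ) : SCong ℓ s (f ^ n) (g ^ n) := by
  induction n with
  | zero => simpa using refl (1 : PowerSeries ℂ)
  | succ n ih =>
    rw [pow_succ, pow_succ]
    exact ih.mul h (Subring.pow_mem _ hg n) hg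

theorem prod {ι : Type*} (t : Finset ι) {F G : ι → PowerSeries ℂ}
    (h : ∀ i ∈ t, SCong ℓ s (F i) (G i)) (hG : ∀ i ∈ t, G i ∈ Sint ℓ) :
    SCong ℓ s (∏ i ∈ t, F i) (∏ i ∈ t, G i) := by
  classical
  induction t using Finset.induction_on with
  | empty => simpa using refl (1 : PowerSeries ℂ)
  | insert a t ha ih =>
    rw [Finset.prod_insert ha, Finset.prod_insert ha]
    exact (h a (Finset.mem_insert_self a t)).mul
      (ih (fun i hi => h i (Finset.mem_insert_of_mem hi))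
        (fun i hi => hG i (Finset.mem_insert_of_mem hi)))
      (hG a (Finset.mem_insert_self a t))
      (Subring.prod_mem _ fun i hi => hG i (Finset.mem_insert_of_mem hi))

theorem expand {p : ℕ} (hp : p ≠ 0) (h : SCong ℓ s f g) :
    SCong ℓ s (PowerSeries.expand p hp f) (PowerSeries.expand p hp g) := by
  obtain ⟨u, hu, rfl⟩ := h
  exact ⟨PowerSeries.expand p hp u, (expand_mem_Sint_iff hp).mpr hu, by
    rw [map_add, PowerSeries.expand_smul]⟩

theorem of_expand {p : ℕ} (hp : p ≠ 0)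
    (h : SCong ℓ s (PowerSeries.expand p hp f) (PowerSeries.expand p hp g)) : SCong ℓ s f g := by
  obtain ⟨u, hu, hfu⟩ := h
  refine ⟨upS p u, upS_mem_Sint p hu, ?_⟩
  ext n
  have := congrArg (coeff (p * n)) hfu
  rw [coeff_expand_mul, map_add, coeff_expand_mul, coeff_smul] at this
  rw [map_add, coeff_smul, coeff_upS, mul_comm n p]
  exact this

theorem coeff_sub_mem (h : SCong ℓ s f g) (n : ℕ) :
    ∃ x ∈ Rint ℓ, coeff n f = coeff n g + (ℓ : ℂ) ^ s * x := by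
  obtain ⟨u, hu, rfl⟩ := h
  exact ⟨coeff n u, hu n, by rw [map_add, coeff_smul, smul_eq_mul]⟩

end SCong

end Fermat.Agent.S16
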