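import Mathlib
import Fermat.Agent.S16.N_helper4_Int

/-!
# S16 / UB-N, part 3: congruence for the norm, and the "norm + Sturm" contradiction
-/

set_option autoImplicit false
noncomputable section
namespace Fermat.Agent.S16

open PowerSeries CongruenceSubgroup UpperHalfPlane ModularForm
open scoped MatrixGroups ModularForm

variable {ℓ : ℕ} [Fact ℓ.Prime] {p : ℕ}

/-- The statement of "Sturm modulo an ideal" in level one (provided by package UB-L1). -/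
def SturmModStatement : Prop :=
  ∀ (R' : Subring ℂ) (I : Ideal R') (w : ℕ) (f : ModularForm 𝒮ℒ (w : ℤ)) (P : PowerSeries R'),
    P.map R'.subtype = qExpansion 1 ⇑f → (∀ k, 12 * k ≤ w → coeff k P ∈ I) → ∀ k, coeff k P ∈ I

/-- If `F ≡ ψ₀` and every conjugate of `F` is `≡ ψ(q)` modulo `ℓ ^ s`, then the norm of `F` is
`≡ ψ₀ ψ ^ p`. -/
theorem norm_scong [Fact p.Prime] {k : ℤ} (F : ModularForm (Gamma0 p) k) {s : ℕ}
    {ψ₀ ψ : PowerSeries ℂ} (hψ₀ : ψ₀ ∈ Sint ℓ) (hψ : ψ ∈ Sint ℓ)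
    (hF : SCong ℓ s (qExpansion 1 ⇑F) ψ₀)
    (hconj : ∀ j : Fin p, SCong ℓ s (conjS F j) (PowerSeries.expand p (NeZero.ne p) ψ)) :
    SCong ℓ s (qExpansion 1 ⇑(ModularForm.norm 𝒮ℒ F)) (ψ₀ * ψ ^ p) := by
  apply SCong.of_expand (NeZero.ne p)
  rw [expand_qExpansion_norm, map_mul, map_pow]
  have hE : PowerSeries.expand p (NeZero.ne p) ψ ∈ Sint ℓ := (expand_mem_Sint_iff _).mpr hψ
  refine (hF.expand (NeZero.ne p)).mul ?_ ((expand_mem_Sint_iff _).mpr hψ₀)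
    (Subring.pow_mem _ hE p)
  have := SCong.prod (ℓ := ℓ) (s := s) (Finset.univ : Finset (Fin p))
    (F := fun j => conjS F j) (G := fun _ => PowerSeries.expand p (NeZero.ne p) ψ)
    (fun j _ => hconj j) (fun _ _ => hE)
  simpa using this

theorem coeff_pow_of_constantCoeff_eq_zero {ψ : PowerSeries ℂ} (hψ0 : coeff 0 ψ = 0) (d i : ℕ) :
    coeff i (ψ ^ d) = if d ≤ i then coeff (i - d) ((PowerSeries.mk fun n => coeff (n + 1) ψ) ^ d)
      else 0 := by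
  have hX : ψ = X * PowerSeries.mk fun n => coeff (n + 1) ψ := by
    ext n
    rcases n with _ | n
    · simpa using hψ0
    · rw [coeff_succ_X_mul, coeff_mk]
  conv_lhs => rw [hX, mul_pow, coeff_X_pow_mul']

theorem coeff_pow_self_of_constantCoeff_eq_zero {ψ : PowerSeries ℂ} (hψ0 : coeff 0 ψ = 0)
    (d : ℕ) : coeff d (ψ ^ d) = (coeff 1 ψ) ^ d := by
  rw [coeff_pow_of_constantCoeff_eq_zero hψ0, if_pos le_rfl, Nat.sub_self,
    coeff_zero_eq_constantCoeff, map_pow, ← coeff_zero_eq_constantCoeff, coeff_mk]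

theorem coeff_pow_of_lt {ψ : PowerSeries ℂ} (hψ0 : coeff 0 ψ = 0) {d i : ℕ} (hi : i < d) :
    coeff i (ψ ^ d) = 0 := by
  rw [coeff_pow_of_constantCoeff_eq_zero hψ0, if_neg (not_le.mpr hi)]

/-- **Norm + Sturm contradiction.** If `F ∈ M_k(Γ₀(p))`, `k < 12`, is congruent modulo `ℓ ^ s` to
a series `ψ` of order one with leading coefficient an integer prime to `ℓ`, and all its conjugates
are congruent to `ψ(q)`, we get a contradiction. -/
theorem norm_sturm_contra (hS : SturmModStatement) [Fact p.Prime] {k : ℕ} (hk : k < 12)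
    (F : ModularForm (Gamma0 p) (k : ℤ)) {s : ℕ} (hs : 1 ≤ s) {ψ : PowerSeries ℂ}
    (hψ : ψ ∈ Sint ℓ) (hψ0 : coeff 0 ψ = 0) {m : ℤ} (hψ1 : coeff 1 ψ = m) (hm : ¬ (ℓ : ℤ) ∣ m)
    (hF : SCong ℓ s (qExpansion 1 ⇑F) ψ)
    (hconj : ∀ j : Fin p, SCong ℓ s (conjS F j) (PowerSeries.expand p (NeZero.ne p) ψ)) :
    False := by
  have hn := norm_scong F hψ hψ hF hconj
  rw [← pow_succ'] at hn
  set n := qExpansion 1 ⇑(ModularForm.norm 𝒮ℒ F) with hndef
  have hn_mem : n ∈ Sint ℓ := hn.mem_Sint (Subring.pow_mem _ hψ _)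
  -- the norm as a form of natural weight
  have hw : (k : ℤ) * (Nat.card (Quo p) : ℤ) = ((k * (p + 1) : ℕ) : ℤ) := by
    rw [card_Quo]; push_cast; ring
  let NF : ModularForm 𝒮ℒ ((k * (p + 1) : ℕ) : ℤ) := ModularForm.mcast hw (ModularForm.norm 𝒮ℒ F)
  let P : PowerSeries (Rint ℓ) := PowerSeries.mk fun i => ⟨coeff i n, hn_mem i⟩
  have hP : P.map (Rint ℓ).subtype = qExpansion 1 ⇑NF := by
    ext i
    simp [P, NF, hndef]
  let ℓs : Rint ℓ := ⟨(ℓ : ℂ) ^ s, Subring.pow_mem _ (natCast_mem_Rint ℓ) s⟩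
  have key := hS (Rint ℓ) (Ideal.span {ℓs}) (k * (p + 1)) NF P hP ?_ (p + 1)
  · rw [Ideal.mem_span_singleton'] at key
    obtain ⟨a, ha⟩ := key
    obtain ⟨x, hx, hxe⟩ := hn.coeff_sub_mem (p + 1)
    rw [coeff_pow_self_of_constantCoeff_eq_zero hψ0, hψ1] at hxe
    have ha' : (a : ℂ) * (ℓ : ℂ) ^ s = coeff (p + 1) n := by
      have := congrArg (Subtype.val) ha
      simpa [P, ℓs] using this
    have hm' : ((m ^ (p + 1) : ℤ) : ℂ) = (ℓ : ℂ) * ((ℓ : ℂ) ^ (s - 1) * ((a : ℂ) - x)) := by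
      have e : (ℓ : ℂ) ^ s = (ℓ : ℂ) * (ℓ : ℂ) ^ (s - 1) := by
        rw [← pow_succ', Nat.sub_add_cancel hs]
      push_cast
      rw [← mul_assoc, ← e]
      linear_combination -hxe - ha'
    have hd := dvd_of_intCast_eq_mul (ℓ := ℓ) (Subring.mul_mem _
      (Subring.pow_mem _ (natCast_mem_Rint ℓ) _) (Subring.sub_mem _ a.2 hx)) hm'
    exact hm ((Nat.prime_iff_prime_int.mp Fact.out).dvd_of_dvd_pow hd)
  · intro i hi
    have hi' : i < p + 1 := by
      have : k * (p + 1) ≤ 11 * (p + 1) := Nat.mul_le_mul_right _ (by omega)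
      omega
    obtain ⟨x, hx, hxe⟩ := hn.coeff_sub_mem i
    rw [coeff_pow_of_lt hψ0 hi', zero_add] at hxe
    rw [Ideal.mem_span_singleton']
    refine ⟨⟨x, hx⟩, ?_⟩
    apply Subtype.ext
    simp [P, ℓs, hxe, mul_comm]

end Fermat.Agent.S16
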