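import Mathlib
import Fermat.Agent.S16.N_helper4_Main
import Fermat.Agent.S16.L1_helper1_Int
import Fermat.Agent.S16.FIN_helper2_NC

set_option autoImplicit false
noncomputable section
namespace Fermat.Agent.S16

open PowerSeries CongruenceSubgroup UpperHalfPlane ModularForm
open scoped MatrixGroups ModularForm ArithmeticFunction.sigma

theorem sturmModStatement : SturmModStatement := fun R' I w f P hP h => sturm_mod R' I w f P hP h

theorem sigmaPS_mem (ℓ : ℕ) [Fact ℓ.Prime] (r : ℕ) : sigmaPS r ∈ Sint ℓ := fun n => by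
  rw [coeff_sigmaPS]; exact natCast_mem_Rint _

theorem coeff_zero_sigmaPS (r : ℕ) : coeff 0 (sigmaPS r) = 0 := by
  rw [coeff_sigmaPS]; simp

theorem coeff_one_sigmaPS (r : ℕ) : coeff 1 (sigmaPS r) = 1 := by
  rw [coeff_sigmaPS]; simp

variable {p : ℕ}

theorem conjS_mcast {a b : ℤ} (h : a = b) (f : ModularForm (Gamma0 p) a) (j : ℕ) :
    conjS (ModularForm.mcast h f) j = conjS f j := by
  subst h; rfl

theorem qExpansion_resL1 {k : ℤ} (E : ModularForm 𝒮ℒ k) :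
    qExpansion 1 ⇑(resL1 p E) = qExpansion 1 ⇑E := rfl

/-! ### Generic set-up: normalising `g ≡ u mod ℓ^s` to `G = g/u ≡ 1` -/

theorem inv_intCast_mem_Rint {ℓ : ℕ} [Fact ℓ.Prime] {u : ℤ} (hu : ¬ (ℓ : ℤ) ∣ u) :
    ((u : ℂ))⁻¹ ∈ Rint ℓ := by
  have hn : ¬ ℓ ∣ u.natAbs := fun h => hu (Int.natCast_dvd.mpr h)
  have hu0 : (u : ℂ) ≠ 0 := by
    rintro h
    have : u = 0 := by exact_mod_cast h
    exact hu (this ▸ dvd_zero _)
  have e : ((u : ℂ))⁻¹ = (u : ℂ) * (((u.natAbs : ℕ) : ℂ)⁻¹) ^ 2 := by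
    have h2 : ((u.natAbs : ℕ) : ℂ) ^ 2 = (u : ℂ) ^ 2 := by
      have h3 : ((u.natAbs : ℕ) : ℤ) ^ 2 = u ^ 2 := Int.natAbs_sq u
      have h4 := congrArg (Int.cast (R := ℂ)) h3
      rw [Int.cast_pow, Int.cast_pow, Int.cast_natCast] at h4
      exact h4
    rw [inv_pow, h2]
    field_simp
  rw [e]
  exact Subring.mul_mem _ (intCast_mem_Rint u) (Subring.pow_mem _ (inv_natCast_mem_Rint hn) 2)

theorem upS_one {p : ℕ} (hp : p ≠ 0) : upS p (1 : PowerSeries ℂ) = 1 := by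
  ext n
  rw [coeff_upS, coeff_one, coeff_one]
  simp [hp]

/-- If `qExpansion g = u + ℓ^s Z` with `ℓ ∤ u`, then `G := u⁻¹ • g` has expansion `1 + ℓ^s H` with
`H` an `ℓ`-integral series. -/
theorem exists_normalised {ℓ s : ℕ} [Fact ℓ.Prime] (g : ModularForm (Gamma0 p) 2) (u : ℤ)
    (Z : PowerSeries ℤ) (hu : ¬ (ℓ : ℤ) ∣ u)
    (hg : qExpansion 1 g = (PowerSeries.C (u : ℤ) + PowerSeries.C ((ℓ : ℤ) ^ s) * Z).map
      (Int.castRingHom ℂ)) :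
    ∃ (G : ModularForm (Gamma0 p) 2) (H : PowerSeries ℂ), H ∈ Sint ℓ ∧
      qExpansion 1 ⇑G = 1 + C ((ℓ : ℂ) ^ s) * H := by
  have hu0 : (u : ℂ) ≠ 0 := by
    rintro h
    have : u = 0 := by exact_mod_cast h
    exact hu (this ▸ dvd_zero _)
  refine ⟨((u : ℂ))⁻¹ • g, ((u : ℂ))⁻¹ • Z.map (Int.castRingHom ℂ),
    smul_mem_Sint (inv_intCast_mem_Rint hu) (map_intCast_mem_Sint Z), ?_⟩
  rw [FunLike.coe_smul, ModularForm.qExpansion_smul one_pos (one_mem_strictPeriods_G0 p), hg,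
    map_add, map_mul, map_C, map_C, smul_add, smul_eq_C_mul, smul_eq_C_mul, ← map_mul]
  simp only [eq_intCast, Int.cast_pow, Int.cast_natCast]
  rw [inv_mul_cancel₀ hu0, map_one, smul_eq_C_mul]
  ring

theorem rescale_C' (a r : ℂ) : rescale a (C r) = C r := by
  ext n
  rw [coeff_rescale, coeff_C]
  split_ifs with h
  · subst h; simp
  · simp

/-- Conjugates of `G = 1 + ℓ^s H` when `ℓ^s ∣ p + 1`: they are again `≡ 1 mod ℓ^s`. -/
theorem exists_conj_normalised {ℓ s : ℕ} [Fact ℓ.Prime] [Fact p.Prime] (hℓp : ℓ ≠ p)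
    (hdvd : ℓ ^ s ∣ p + 1) (G : ModularForm (Gamma0 p) 2) (H : PowerSeries ℂ) (hH : H ∈ Sint ℓ)
    (hG : qExpansion 1 ⇑G = 1 + C ((ℓ : ℂ) ^ s) * H) (j : ℕ) :
    ∃ Hj ∈ Sint ℓ, conjS G j = 1 + C ((ℓ : ℂ) ^ s) * Hj := by
  have hp : p.Prime := Fact.out
  have hℓ : ℓ.Prime := Fact.out
  have hp0 : (p : ℂ) ≠ 0 := by exact_mod_cast hp.ne_zero
  have hℓ0 : (ℓ : ℂ) ^ s ≠ 0 := pow_ne_zero _ (by exact_mod_cast hℓ.ne_zero)
  have hpinv : ((p : ℂ))⁻¹ ∈ Rint ℓ :=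
    inv_natCast_mem_Rint (fun h => hℓp ((Nat.prime_dvd_prime_iff_eq hℓ hp).mp h))
  obtain ⟨c, hc⟩ := hdvd
  set ε : ℂ := -(p : ℂ)⁻¹ with hε
  have hεm : ε ∈ Rint ℓ := Subring.neg_mem _ hpinv
  -- `ε = 1 + ℓ^s * e`
  set e : ℂ := -(c : ℂ) * (p : ℂ)⁻¹ with he
  have hem : e ∈ Rint ℓ := Subring.mul_mem _ (Subring.neg_mem _ (natCast_mem_Rint c)) hpinv
  have hεe : ε = 1 + (ℓ : ℂ) ^ s * e := by
    have : ((p : ℂ) + 1) = (ℓ : ℂ) ^ s * c := by exact_mod_cast congrArg (Nat.cast (R := ℂ)) hc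
    rw [hε, he]
    field_simp
    linear_combination -this
  refine ⟨C e + C ε * rescale (zetaP p ^ j) (upS p H), ?_, ?_⟩
  · exact Subring.add_mem _ (C_mem_Sint hem) (Subring.mul_mem _ (C_mem_Sint hεm)
      (rescale_mem_Sint (Subring.pow_mem _ (zetaP_mem_Rint p) j) (upS_mem_Sint p hH)))
  · have h1 : upS p (1 + C ((ℓ : ℂ) ^ s) * H) = 1 + C ((ℓ : ℂ) ^ s) * upS p H := by
      rw [map_add, upS_one hp.ne_zero, ← smul_eq_C_mul, map_smul, smul_eq_C_mul]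
    have h2 : rescale (zetaP p ^ j) (1 + C ((ℓ : ℂ) ^ s) * upS p H) =
        1 + C ((ℓ : ℂ) ^ s) * rescale (zetaP p ^ j) (upS p H) := by
      rw [map_add, map_one, map_mul, rescale_C']
    have hCε : (C ε : PowerSeries ℂ) = 1 + C ((ℓ : ℂ) ^ s) * C e := by
      rw [hεe, map_add, map_one, map_mul]
    rw [conjS_weight_two, hG, h1, h2, ← hε]
    set R := rescale (zetaP p ^ j) (upS p H) with hR
    calc C ε * (1 + C ((ℓ : ℂ) ^ s) * R) = C ε + C ((ℓ : ℂ) ^ s) * (C ε * R) := by ring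
      _ = 1 + C ((ℓ : ℂ) ^ s) * (C e + C ε * R) := by rw [hCε]; ring

end Fermat.Agent.S16
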