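import Mathlib
import Fermat.Agent.S16.CASE_helper4_Kit

/-!
# S16 / UB case (d'): `ℓ = 3`, `p ≡ 8 mod 9`, no congruence modulo `9`

With `G ≡ 1 mod 9`, the weight-four form `D₄ = (G² - E₄)/3` is `≡ σ mod 3` (`σ = ∑ σ₃(n) qⁿ`), and
so are all its conjugates (in `q^p`); the norm + Sturm argument gives a contradiction.
-/

set_option autoImplicit false
noncomputable section
namespace Fermat.Agent.S16

open PowerSeries CongruenceSubgroup UpperHalfPlane ModularForm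
open scoped MatrixGroups ModularForm ArithmeticFunction.sigma

/-! ### The `d₄`-polynomial -/

/-- `D₄ = (G² - E₄)/3`. -/
def d4Poly (x e4 : PowerSeries ℂ) : PowerSeries ℂ :=
  (1 / 3 : ℂ) • (x ^ 2 - e4)

theorem d4_identity (h s : PowerSeries ℂ) :
    (1 + 9 * h) ^ 2 - (1 + 240 * s) = 3 * (s + 3 * (2 * h + 9 * h ^ 2 - 27 * s)) := by
  ring

theorem d4Poly_scong {x e4 h s : PowerSeries ℂ} (hh : h ∈ Sint 3) (hs : s ∈ Sint 3)
    (hx : x = 1 + 9 * h) (h4 : e4 = 1 + 240 * s) :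
    SCong 3 1 (d4Poly x e4) s := by
  set T : PowerSeries ℂ := 2 * h + 9 * h ^ 2 - 27 * s with hT
  have hTm : T ∈ Sint 3 := by
    have h2 : ∀ n : ℕ, (n : PowerSeries ℂ) ∈ Sint 3 := fun n => natCast_mem _ n
    rw [hT]
    have e2 : (2 : PowerSeries ℂ) ∈ Sint 3 := by exact_mod_cast h2 2
    have e9 : (9 : PowerSeries ℂ) ∈ Sint 3 := by exact_mod_cast h2 9
    have e27 : (27 : PowerSeries ℂ) ∈ Sint 3 := by exact_mod_cast h2 27
    refine Subring.sub_mem _ (Subring.add_mem _ ?_ ?_) ?_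
    · exact Subring.mul_mem _ e2 hh
    · exact Subring.mul_mem _ e9 (Subring.pow_mem _ hh 2)
    · exact Subring.mul_mem _ e27 hs
  refine ⟨T, hTm, ?_⟩
  rw [d4Poly, hx, h4, d4_identity, ← hT]
  have e1 : (3 : PowerSeries ℂ) = C (3 : ℂ) := (map_ofNat C 3).symm
  rw [e1, ← smul_eq_C_mul, ← smul_eq_C_mul, smul_smul, smul_add]
  norm_num

/-! ### The form `D₄` -/

variable {p : ℕ}

/-- The weight-four form `D₄ = (G² - E₄)/3` of level `Γ₀(p)`. -/
def d4Form (p : ℕ) (G : ModularForm (Gamma0 p) 2) : ModularForm (Gamma0 p) ((4 : ℕ) : ℤ) :=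
  (1 / 3 : ℂ) •
    (ModularForm.mcast (by norm_num) (G.mul G) - ModularForm.mcast (by norm_num) (resL1 p E₄))

theorem qExpansion_d4Form [NeZero p] (G : ModularForm (Gamma0 p) 2) :
    qExpansion 1 ⇑(d4Form p G) = d4Poly (qExpansion 1 ⇑G) e4PS := by
  have hΓ := one_mem_strictPeriods_G0 p
  rw [d4Form, d4Poly, FunLike.coe_smul, ModularForm.qExpansion_smul one_pos hΓ,
    FunLike.coe_sub, ModularForm.qExpansion_sub one_pos hΓ]
  simp only [ModularForm.qExpansion_mcast, ModularForm.qExpansion_mul one_pos hΓ, qExpansion_resL1,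
    e4PS, pow_two]

theorem conjS_d4Form [NeZero p] (G : ModularForm (Gamma0 p) 2) (j : ℕ) :
    conjS (d4Form p G) j = d4Poly (conjS G j) (PowerSeries.expand p (NeZero.ne p) e4PS) := by
  rw [d4Form, d4Poly, conjS_smul, conjS_sub]
  simp only [conjS_mcast, conjS_mul, conjS_resL1, e4PS, pow_two]

/-! ### The case (d') -/

theorem noCong_three_two_of_mod_nine_eight [Fact p.Prime] (hp9 : p % 9 = 8) : NoCong p 3 2 := by
  intro g u Z hu hg
  have hp : p.Prime := Fact.out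
  obtain ⟨G, H, hH, hG⟩ := exists_normalised (ℓ := 3) (s := 2) g u Z hu hg
  have h3p : (3 : ℕ) ≠ p := by rintro rfl; omega
  have hdvd : 3 ^ 2 ∣ p + 1 := Nat.dvd_of_mod_eq_zero (by omega)
  have h9 : (C (((3 : ℕ) : ℂ) ^ 2) : PowerSeries ℂ) = 9 := by
    have : (((3 : ℕ) : ℂ) ^ 2) = 9 := by norm_num
    rw [this, map_ofNat]
  have h240 : (C (240 : ℂ) : PowerSeries ℂ) = 240 := map_ofNat C 240
  have h4 : e4PS = 1 + 240 * sigmaPS 3 := by rw [e4PS_eq, h240]
  set ψ : PowerSeries ℂ := sigmaPS 3 with hψdef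
  have hψ : ψ ∈ Sint 3 := sigmaPS_mem 3 3
  have hψ0 : coeff 0 ψ = 0 := coeff_zero_sigmaPS 3
  have hψ1 : coeff 1 ψ = ((1 : ℤ) : ℂ) := by
    rw [hψdef, coeff_one_sigmaPS, Int.cast_one]
  have hF : SCong 3 1 (qExpansion 1 ⇑(d4Form p G)) ψ := by
    rw [qExpansion_d4Form]
    exact d4Poly_scong hH (sigmaPS_mem 3 3) (by rw [hG, h9]) h4
  have hconj : ∀ j : Fin p, SCong 3 1 (conjS (d4Form p G) j)
      (PowerSeries.expand p (NeZero.ne p) ψ) := by
    intro j
    obtain ⟨Hj, hHj, hGj⟩ := exists_conj_normalised h3p hdvd G H hH hG j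
    rw [conjS_d4Form]
    refine d4Poly_scong hHj ((expand_mem_Sint_iff _).mpr (sigmaPS_mem 3 3)) (by rw [hGj, h9]) ?_
    rw [h4, map_add, map_one, map_mul, map_ofNat]
  exact norm_sturm_contra sturmModStatement (k := 4) (by norm_num) (d4Form p G) le_rfl hψ hψ0
    hψ1 (by norm_num) hF hconj

end Fermat.Agent.S16
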