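import Mathlib
import Fermat.Agent.S16.CASE_helper4_Kit

/-!
# S16 / UB case (a): `ℓ ≥ 7`, `ℓ ≠ p`, `ℓ ∣ p + 1`, no congruence modulo `ℓ`

With `G ≡ 1 mod ℓ`, the weight-four form `G² - E₄` is `≡ -240 σ mod ℓ` (`σ = ∑ σ₃(n) qⁿ`), and so are
all its conjugates (in `q^p`) since `-1/p ≡ 1 mod ℓ`; the norm + Sturm argument gives a
contradiction.
-/

set_option autoImplicit false
noncomputable section
namespace Fermat.Agent.S16

open PowerSeries CongruenceSubgroup UpperHalfPlane ModularForm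
open scoped MatrixGroups ModularForm ArithmeticFunction.sigma

variable {p : ℕ}

/-- `a4Poly x e4 = x² - e4`. -/
def a4Poly (x e4 : PowerSeries ℂ) : PowerSeries ℂ := x ^ 2 - e4

theorem a4Poly_scong {ℓ : ℕ} [Fact ℓ.Prime] {x e4 h s : PowerSeries ℂ} (hh : h ∈ Sint ℓ)
    (hx : x = 1 + C ((ℓ : ℂ) ^ 1) * h) (h4 : e4 = 1 + C (240 : ℂ) * s) :
    SCong ℓ 1 (a4Poly x e4) (-(C (240 : ℂ) * s)) := by
  refine ⟨2 * h + C ((ℓ : ℂ) ^ 1) * h ^ 2, ?_, ?_⟩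
  · have h2 : (2 : PowerSeries ℂ) ∈ Sint ℓ := by exact_mod_cast natCast_mem (Sint ℓ) 2
    exact Subring.add_mem _ (Subring.mul_mem _ h2 hh)
      (Subring.mul_mem _ (C_mem_Sint (Subring.pow_mem _ (natCast_mem_Rint ℓ) 1))
        (Subring.pow_mem _ hh 2))
  · rw [a4Poly, hx, h4, smul_eq_C_mul]
    ring

/-- The weight-four form `G² - E₄` of level `Γ₀(p)`. -/
def a4Form (p : ℕ) (G : ModularForm (Gamma0 p) 2) : ModularForm (Gamma0 p) ((4 : ℕ) : ℤ) :=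
  ModularForm.mcast (by norm_num) (G.mul G) - ModularForm.mcast (by norm_num) (resL1 p E₄)

theorem qExpansion_a4Form [NeZero p] (G : ModularForm (Gamma0 p) 2) :
    qExpansion 1 ⇑(a4Form p G) = a4Poly (qExpansion 1 ⇑G) e4PS := by
  have hΓ := one_mem_strictPeriods_G0 p
  rw [a4Form, a4Poly, FunLike.coe_sub, ModularForm.qExpansion_sub one_pos hΓ]
  simp only [ModularForm.qExpansion_mcast, ModularForm.qExpansion_mul one_pos hΓ, qExpansion_resL1,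
    e4PS]
  ring

theorem conjS_a4Form [NeZero p] (G : ModularForm (Gamma0 p) 2) (j : ℕ) :
    conjS (a4Form p G) j = a4Poly (conjS G j) (PowerSeries.expand p (NeZero.ne p) e4PS) := by
  rw [a4Form, a4Poly, conjS_sub]
  simp only [conjS_mcast, conjS_mul, conjS_resL1, e4PS]
  ring

theorem not_dvd_240 {ℓ : ℕ} (hℓ : ℓ.Prime) (h7 : 7 ≤ ℓ) : ¬ (ℓ : ℤ) ∣ (-240 : ℤ) := by
  intro h
  have h2 : ℓ ∣ 240 := by
    have := Int.natAbs_dvd_natAbs.mpr h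
    simpa using this
  have h3 : (240 : ℕ) = 2 ^ 4 * 3 * 5 := by norm_num
  rw [h3] at h2
  rcases (Nat.Prime.dvd_mul hℓ).1 h2 with h2 | h2
  · rcases (Nat.Prime.dvd_mul hℓ).1 h2 with h2 | h2
    · have := (Nat.prime_dvd_prime_iff_eq hℓ Nat.prime_two).1 (hℓ.dvd_of_dvd_pow h2)
      omega
    · have := (Nat.prime_dvd_prime_iff_eq hℓ Nat.prime_three).1 h2
      omega
  · have := (Nat.prime_dvd_prime_iff_eq hℓ Nat.prime_five).1 h2
    omega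

/-- Case (a): `ℓ ≥ 7` prime, `ℓ ≠ p`, `ℓ ∣ p + 1`. -/
theorem noCong_of_seven_le_of_dvd [Fact p.Prime] {ℓ : ℕ} (hℓ : ℓ.Prime) (h7 : 7 ≤ ℓ) (hℓp : ℓ ≠ p)
    (hdvd : ℓ ∣ p + 1) : NoCong p ℓ 1 := by
  have : Fact ℓ.Prime := ⟨hℓ⟩
  intro g u Z hu hg
  obtain ⟨G, H, hH, hG⟩ := exists_normalised (ℓ := ℓ) (s := 1) g u Z hu hg
  have hdvd' : ℓ ^ 1 ∣ p + 1 := by rwa [pow_one]
  obtain ⟨ψ, hψdef⟩ : ∃ ψ : PowerSeries ℂ, ψ = -(C (240 : ℂ) * sigmaPS 3) := ⟨_, rfl⟩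
  have hψ : ψ ∈ Sint ℓ := by
    rw [hψdef]
    refine Subring.neg_mem _ (Subring.mul_mem _ (C_mem_Sint ?_) (sigmaPS_mem ℓ 3))
    exact_mod_cast natCast_mem_Rint (ℓ := ℓ) 240
  have hψ0 : coeff 0 ψ = 0 := by
    rw [hψdef, map_neg, coeff_C_mul, coeff_zero_sigmaPS, mul_zero, neg_zero]
  have hψ1 : coeff 1 ψ = ((-240 : ℤ) : ℂ) := by
    rw [hψdef, map_neg, coeff_C_mul, coeff_one_sigmaPS, mul_one]
    norm_num
  have hF : SCong ℓ 1 (qExpansion 1 ⇑(a4Form p G)) ψ := by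
    rw [qExpansion_a4Form, hψdef]
    exact a4Poly_scong hH hG e4PS_eq
  have hconj : ∀ j : Fin p, SCong ℓ 1 (conjS (a4Form p G) j)
      (PowerSeries.expand p (NeZero.ne p) ψ) := by
    intro j
    obtain ⟨Hj, hHj, hGj⟩ := exists_conj_normalised hℓp hdvd' G H hH hG j
    rw [conjS_a4Form, hψdef, map_neg, map_mul, expand_C]
    refine a4Poly_scong hHj hGj ?_
    rw [e4PS_eq, map_add, map_one, map_mul, expand_C]
  exact norm_sturm_contra sturmModStatement (k := 4) (by norm_num) (a4Form p G) le_rfl hψ hψ0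
    hψ1 (not_dvd_240 hℓ h7) hF hconj

end Fermat.Agent.S16
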