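import Mathlib
import Fermat.Agent.S16.CASE_helper4_Kit

/-!
# S16 / UB case (g): `ℓ = 2`, `p ≡ 7 mod 8`, no congruence modulo `8`

With `G ≡ 1 mod 8`, the weight-eight form
`B₈ = (G⁴ - 6 G² E₄ + 8 G E₆ - 3 E₄²)/6912` is `≡ σ + σ² mod 2` (`σ = ∑ σ₃(n) qⁿ`), and so are all
its conjugates (in `q^p`); the norm + Sturm argument gives a contradiction.
-/

set_option autoImplicit false
noncomputable section
namespace Fermat.Agent.S16

open PowerSeries CongruenceSubgroup UpperHalfPlane ModularForm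
open scoped MatrixGroups ModularForm ArithmeticFunction.sigma


/-! ### `σ₅ ≡ σ₃ mod 8` -/

theorem zmod8_pow_five (x : ZMod 8) : x ^ 5 = x ^ 3 := by
  revert x; decide

theorem sigma_five_sub_sigma_three (n : ℕ) :
    ∃ w : ℤ, ((σ 5 n : ℕ) : ℤ) = ((σ 3 n : ℕ) : ℤ) + 8 * w := by
  have h : (((σ 5 n : ℕ) : ℤ) : ZMod 8) = (((σ 3 n : ℕ) : ℤ) : ZMod 8) := by
    rw [ArithmeticFunction.sigma_apply, ArithmeticFunction.sigma_apply]
    push_cast
    exact Finset.sum_congr rfl fun d _ => zmod8_pow_five _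
  have h2 : ((8 : ℕ) : ℤ) ∣ ((σ 5 n : ℕ) : ℤ) - ((σ 3 n : ℕ) : ℤ) := by
    rw [← ZMod.intCast_zmod_eq_zero_iff_dvd]
    push_cast
    rw [sub_eq_zero]
    exact_mod_cast h
  obtain ⟨w, hw⟩ := h2
  exact ⟨w, by push_cast at hw; linarith⟩

/-- The series `∑ (σ₅(n) - σ₃(n))/8 qⁿ`. -/
def wPS : PowerSeries ℂ :=
  PowerSeries.mk fun n => (((sigma_five_sub_sigma_three n).choose : ℤ) : ℂ)

theorem sigmaPS_five_eq : sigmaPS 5 = sigmaPS 3 + 8 * wPS := by
  ext n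
  have h := (sigma_five_sub_sigma_three n).choose_spec
  have h8 : (8 : PowerSeries ℂ) = C (8 : ℂ) := (map_ofNat C 8).symm
  rw [map_add, h8, coeff_C_mul, coeff_sigmaPS, coeff_sigmaPS, wPS, coeff_mk]
  exact_mod_cast h

theorem wPS_mem (ℓ : ℕ) [Fact ℓ.Prime] : wPS ∈ Sint ℓ := fun n => by
  rw [wPS, coeff_mk]; exact intCast_mem_Rint _

/-! ### The `b₈`-polynomial -/

/-- `B₈ = (G⁴ - 6 G² E₄ + 8 G E₆ - 3 E₄²)/6912`. -/
def b8Poly (x e4 e6 : PowerSeries ℂ) : PowerSeries ℂ :=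
  (1 / 6912 : ℂ) • (x ^ 4 - 6 * x ^ 2 * e4 + 8 * x * e6 - 3 * e4 ^ 2)

theorem b8_identity (h s w : PowerSeries ℂ) :
    (1 + 8 * h) ^ 4 - 6 * (1 + 8 * h) ^ 2 * (1 + 240 * s) + 8 * (1 + 8 * h) * (1 - 504 * (s + 8 * w))
      - 3 * (1 + 240 * s) ^ 2 =
    6912 * (s + s ^ 2) + 512 * (-63 * w - 27 * s - 351 * s ^ 2 - 504 * h * w - 108 * h * s
      - 180 * h ^ 2 * s + 4 * h ^ 3 + 8 * h ^ 4) := by
  ring

theorem b8Poly_scong {x e4 e6 h s w : PowerSeries ℂ} (hh : h ∈ Sint 2) (hs : s ∈ Sint 2)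
    (hw : w ∈ Sint 2) (hx : x = 1 + 8 * h) (h4 : e4 = 1 + 240 * s)
    (h6 : e6 = 1 - 504 * (s + 8 * w)) :
    SCong 2 1 (b8Poly x e4 e6) (s + s ^ 2) := by
  set T : PowerSeries ℂ := -63 * w - 27 * s - 351 * s ^ 2 - 504 * h * w - 108 * h * s
      - 180 * h ^ 2 * s + 4 * h ^ 3 + 8 * h ^ 4 with hT
  have hTm : T ∈ Sint 2 := by
    have h2 : ∀ n : ℕ, (n : PowerSeries ℂ) ∈ Sint 2 := fun n => natCast_mem _ n
    rw [hT]
    have e63 : (63 : PowerSeries ℂ) ∈ Sint 2 := by exact_mod_cast h2 63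
    have e27 : (27 : PowerSeries ℂ) ∈ Sint 2 := by exact_mod_cast h2 27
    have e351 : (351 : PowerSeries ℂ) ∈ Sint 2 := by exact_mod_cast h2 351
    have e504 : (504 : PowerSeries ℂ) ∈ Sint 2 := by exact_mod_cast h2 504
    have e108 : (108 : PowerSeries ℂ) ∈ Sint 2 := by exact_mod_cast h2 108
    have e180 : (180 : PowerSeries ℂ) ∈ Sint 2 := by exact_mod_cast h2 180
    have e4' : (4 : PowerSeries ℂ) ∈ Sint 2 := by exact_mod_cast h2 4
    have e8 : (8 : PowerSeries ℂ) ∈ Sint 2 := by exact_mod_cast h2 8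
    refine Subring.add_mem _ (Subring.add_mem _ (Subring.sub_mem _ (Subring.sub_mem _
      (Subring.sub_mem _ (Subring.sub_mem _ (Subring.sub_mem _ ?_ ?_) ?_) ?_) ?_) ?_) ?_) ?_
    · exact Subring.mul_mem _ (Subring.neg_mem _ e63) hw
    · exact Subring.mul_mem _ e27 hs
    · exact Subring.mul_mem _ e351 (Subring.pow_mem _ hs 2)
    · exact Subring.mul_mem _ (Subring.mul_mem _ e504 hh) hw
    · exact Subring.mul_mem _ (Subring.mul_mem _ e108 hh) hs
    · exact Subring.mul_mem _ (Subring.mul_mem _ e180 (Subring.pow_mem _ hh 2)) hs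
    · exact Subring.mul_mem _ e4' (Subring.pow_mem _ hh 3)
    · exact Subring.mul_mem _ e8 (Subring.pow_mem _ hh 4)
  refine ⟨(1 / 27 : ℂ) • T, smul_mem_Sint ?_ hTm, ?_⟩
  · have : (1 / 27 : ℂ) = ((27 : ℕ) : ℂ)⁻¹ := by norm_num
    rw [this]
    exact inv_natCast_mem_Rint (by norm_num)
  · rw [b8Poly, hx, h4, h6, b8_identity, ← hT]
    have e1 : (6912 : PowerSeries ℂ) = C (6912 : ℂ) := (map_ofNat C 6912).symm
    have e2 : (512 : PowerSeries ℂ) = C (512 : ℂ) := (map_ofNat C 512).symm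
    rw [e1, e2, ← smul_eq_C_mul, ← smul_eq_C_mul, smul_add, smul_smul, smul_smul, smul_smul]
    norm_num

/-! ### The form `B₈` -/

variable {p : ℕ}

/-- The weight-eight form `B₈ = (G⁴ - 6 G² E₄ + 8 G E₆ - 3 E₄²)/6912` of level `Γ₀(p)`. -/
def b8Form (p : ℕ) (G : ModularForm (Gamma0 p) 2) : ModularForm (Gamma0 p) ((8 : ℕ) : ℤ) :=
  (1 / 6912 : ℂ) •
    (ModularForm.mcast (by norm_num) ((G.mul G).mul (G.mul G))
      - (6 : ℂ) • ModularForm.mcast (by norm_num) ((G.mul G).mul (resL1 p E₄))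
      + (8 : ℂ) • ModularForm.mcast (by norm_num) (G.mul (resL1 p E₆))
      - (3 : ℂ) • ModularForm.mcast (by norm_num) ((resL1 p E₄).mul (resL1 p E₄)))

theorem qExpansion_b8Form [NeZero p] (G : ModularForm (Gamma0 p) 2) :
    qExpansion 1 ⇑(b8Form p G) = b8Poly (qExpansion 1 ⇑G) e4PS e6PS := by
  have hΓ := one_mem_strictPeriods_G0 p
  rw [b8Form, b8Poly, FunLike.coe_smul, ModularForm.qExpansion_smul one_pos hΓ,
    FunLike.coe_sub, ModularForm.qExpansion_sub one_pos hΓ,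
    FunLike.coe_add, ModularForm.qExpansion_add one_pos hΓ,
    FunLike.coe_sub, ModularForm.qExpansion_sub one_pos hΓ,
    FunLike.coe_smul, ModularForm.qExpansion_smul one_pos hΓ,
    FunLike.coe_smul, ModularForm.qExpansion_smul one_pos hΓ,
    FunLike.coe_smul, ModularForm.qExpansion_smul one_pos hΓ]
  simp only [ModularForm.qExpansion_mcast, ModularForm.qExpansion_mul one_pos hΓ, qExpansion_resL1,
    Algebra.smul_def, e4PS, e6PS]
  congr 1
  simp only [map_ofNat]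
  ring

theorem conjS_b8Form [NeZero p] (G : ModularForm (Gamma0 p) 2) (j : ℕ) :
    conjS (b8Form p G) j = b8Poly (conjS G j) (PowerSeries.expand p (NeZero.ne p) e4PS)
      (PowerSeries.expand p (NeZero.ne p) e6PS) := by
  rw [b8Form, b8Poly, conjS_smul, conjS_sub, conjS_add, conjS_sub, conjS_smul, conjS_smul,
    conjS_smul]
  simp only [conjS_mcast, conjS_mul, conjS_resL1, Algebra.smul_def, e4PS, e6PS]
  congr 1
  simp only [map_ofNat]
  ring

/-! ### The case (g) -/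

theorem expand_sigma_sq {p : ℕ} (hp : p ≠ 0) (s : PowerSeries ℂ) :
    PowerSeries.expand p hp (s + s ^ 2) = PowerSeries.expand p hp s + (PowerSeries.expand p hp s) ^ 2 := by
  rw [map_add, map_pow]

theorem noCong_two_three_of_seven [Fact p.Prime] (hp8 : p % 8 = 7) : NoCong p 2 3 := by
  intro g u Z hu hg
  have hp : p.Prime := Fact.out
  obtain ⟨G, H, hH, hG⟩ := exists_normalised (ℓ := 2) (s := 3) g u Z hu hg
  have h2p : (2 : ℕ) ≠ p := by rintro rfl; omega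
  have hdvd : 2 ^ 3 ∣ p + 1 := Nat.dvd_of_mod_eq_zero (by omega)
  have h8 : (C (((2 : ℕ) : ℂ) ^ 3) : PowerSeries ℂ) = 8 := by
    have : (((2 : ℕ) : ℂ) ^ 3) = 8 := by norm_num
    rw [this, map_ofNat]
  have h240 : (C (240 : ℂ) : PowerSeries ℂ) = 240 := map_ofNat C 240
  have h504 : (C (504 : ℂ) : PowerSeries ℂ) = 504 := map_ofNat C 504
  have h4 : e4PS = 1 + 240 * sigmaPS 3 := by rw [e4PS_eq, h240]
  have h6 : e6PS = 1 - 504 * (sigmaPS 3 + 8 * wPS) := by rw [e6PS_eq, h504, sigmaPS_five_eq]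
  set ψ : PowerSeries ℂ := sigmaPS 3 + sigmaPS 3 ^ 2 with hψdef
  have hψ : ψ ∈ Sint 2 :=
    Subring.add_mem _ (sigmaPS_mem 2 3) (Subring.pow_mem _ (sigmaPS_mem 2 3) 2)
  have hψ0 : coeff 0 ψ = 0 := by
    rw [hψdef, map_add, coeff_zero_sigmaPS, coeff_pow_of_lt (coeff_zero_sigmaPS 3) (by norm_num),
      add_zero]
  have hψ1 : coeff 1 ψ = ((1 : ℤ) : ℂ) := by
    rw [hψdef, map_add, coeff_one_sigmaPS, coeff_pow_of_lt (coeff_zero_sigmaPS 3) (by norm_num),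
      add_zero, Int.cast_one]
  have hF : SCong 2 1 (qExpansion 1 ⇑(b8Form p G)) ψ := by
    rw [qExpansion_b8Form]
    exact b8Poly_scong hH (sigmaPS_mem 2 3) (wPS_mem 2) (by rw [hG, h8]) h4 h6
  have hconj : ∀ j : Fin p, SCong 2 1 (conjS (b8Form p G) j)
      (PowerSeries.expand p (NeZero.ne p) ψ) := by
    intro j
    obtain ⟨Hj, hHj, hGj⟩ := exists_conj_normalised h2p hdvd G H hH hG j
    rw [conjS_b8Form, hψdef, expand_sigma_sq]
    refine b8Poly_scong hHj ((expand_mem_Sint_iff _).mpr (sigmaPS_mem 2 3))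
      ((expand_mem_Sint_iff (NeZero.ne p)).mpr (wPS_mem 2)) (by rw [hGj, h8]) ?_ ?_
    · rw [h4, map_add, map_one, map_mul, map_ofNat]
    · rw [h6, map_sub, map_one, map_mul, map_add, map_mul, map_ofNat, map_ofNat]
  exact norm_sturm_contra sturmModStatement (k := 8) (by norm_num) (b8Form p G) le_rfl hψ hψ0
    hψ1 (by norm_num) hF hconj

end Fermat.Agent.S16
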