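/-
S16, package UB-ϑ (helper1), part 1: the Serre derivative `ϑ g = 12 D g − 2 E₂ g` of a weight two
form on `Γ₀(p)` as a modular form of weight four.

* `isBoundedAtImInfty_D` : Cauchy's estimate, `D F` is bounded at `i∞` when `F` is;
* `thetaForm g : ModularForm (Gamma0 p) 4`, `coe_thetaForm`, `thetaForm_slash_SL`.
-/
import Mathlib
import Fermat.Agent.X0N.J_helper8_Deriv

set_option autoImplicit false

noncomputable section

namespace Fermat.Agent.S16

open UpperHalfPlane hiding I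
open Complex Filter Function Topology ModularForm EisensteinSeries Derivative
open Matrix Matrix.SpecialLinearGroup CongruenceSubgroup
open scoped Manifold MatrixGroups Real

/-- **Cauchy's estimate**: the normalised derivative of a holomorphic function bounded at `i∞` is
bounded at `i∞`. -/
theorem isBoundedAtImInfty_D {F : ℍ → ℂ} (hF : MDiff F) (hb : IsBoundedAtImInfty F) :
    IsBoundedAtImInfty (D F) := by
  rw [isBoundedAtImInfty_iff] at hb ⊢
  obtain ⟨M, A, hMA⟩ := hb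
  refine ⟨‖(2 * π * I : ℂ)⁻¹‖ * (M / 1), max A 1 + 1, fun z hz => ?_⟩
  have hdiff : DifferentiableOn ℂ (F ∘ ofComplex) {w : ℂ | 0 < w.im} :=
    UpperHalfPlane.mdifferentiable_iff.1 hF
  have hsub : Metric.closedBall (z : ℂ) 1 ⊆ {w : ℂ | 0 < w.im} := by
    intro w hw
    rw [Metric.mem_closedBall, dist_eq_norm] at hw
    have h1 : |(w - (z : ℂ)).im| ≤ 1 := (Complex.abs_im_le_norm _).trans hw
    rw [Complex.sub_im, abs_le] at h1
    have h2 : (z : ℂ).im = z.im := rfl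
    have h3 : (1 : ℝ) ≤ max A 1 := le_max_right _ _
    change 0 < w.im
    linarith [h1.1]
  have hcl : DiffContOnCl ℂ (F ∘ ofComplex) (Metric.ball (z : ℂ) 1) :=
    (hdiff.mono hsub).diffContOnCl_ball subset_rfl
  have hbound : ∀ w ∈ Metric.sphere (z : ℂ) 1, ‖(F ∘ ofComplex) w‖ ≤ M := by
    intro w hw
    have hw' : w ∈ Metric.closedBall (z : ℂ) 1 := Metric.sphere_subset_closedBall hw
    have hwim : 0 < w.im := hsub hw'
    rw [Metric.mem_closedBall, dist_eq_norm] at hw'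
    have h1 : |(w - (z : ℂ)).im| ≤ 1 := (Complex.abs_im_le_norm _).trans hw'
    rw [Complex.sub_im, abs_le] at h1
    have h2 : (z : ℂ).im = z.im := rfl
    have h3 : A ≤ max A 1 := le_max_left _ _
    rw [Function.comp_apply, ofComplex_apply_of_im_pos hwim]
    apply hMA
    change A ≤ w.im
    linarith [h1.1]
  have := Complex.norm_deriv_le_of_forall_mem_sphere_norm_le one_pos hcl hbound
  rw [normalizedDerivOfComplex, norm_mul]
  exact mul_le_mul_of_nonneg_left this (norm_nonneg _)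

theorem isBoundedAtImInfty_serreDerivative {F : ℍ → ℂ} (k : ℂ) (hF : MDiff F)
    (hb : IsBoundedAtImInfty F) : IsBoundedAtImInfty (serreDerivative k F) := by
  have h1 := isBoundedAtImInfty_D hF hb
  have h2 : IsBoundedAtImInfty (fun z => k * 12⁻¹ * E2 z * F z) := by
    have := (isBoundedAtImInfty_E2.mul hb).const_mul_left (k * 12⁻¹)
    refine this.congr' ?_ ?_
    · exact Eventually.of_forall fun z => by simp [mul_assoc]
    · exact Eventually.of_forall fun z => rfl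
  exact h1.sub h2

variable {p : ℕ}

/-- the slash action of `SL₂(ℤ)` on a weight two form on `Γ₀(p)` keeps it holomorphic and bounded
at `i∞`. -/
theorem isBoundedAtImInfty_slash_SL {k : ℤ} (g : ModularForm (Gamma0 p) k) [NeZero p]
    (γ : SL(2, ℤ)) : IsBoundedAtImInfty (⇑g ∣[k] γ) := by
  have hc : IsCusp (mapGL ℝ γ • OnePoint.infty) 𝒮ℒ := by
    rw [isCusp_SL2Z_iff']
    exact ⟨γ, rfl⟩
  have hc' : IsCusp (mapGL ℝ γ • OnePoint.infty) ((Gamma0 p).map (mapGL ℝ)) := by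
    rwa [Subgroup.IsArithmetic.isCusp_iff_isCusp_SL2Z]
  have := g.bdd_at_cusps' hc'
  rw [OnePoint.isBoundedAt_iff_forall_SL2Z hc] at this
  exact this γ rfl

theorem slash_mapGL_eq_SL (F : ℍ → ℂ) (k : ℤ) (γ : SL(2, ℤ)) :
    F ∣[k] (mapGL ℝ γ : GL (Fin 2) ℝ) = F ∣[k] γ := rfl

/-- `(c • ∂₂ F) ∣[4] γ = c • ∂₂ (F ∣[2] γ)` for `γ ∈ SL₂(ℤ)`. -/
theorem smul_serreDerivative_slash_SL {F : ℍ → ℂ} (hF : MDiff F) (γ : SL(2, ℤ)) (c : ℂ) :
    (c • serreDerivative ((2 : ℤ) : ℂ) F) ∣[(4 : ℤ)] γ =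
      c • serreDerivative ((2 : ℤ) : ℂ) (F ∣[(2 : ℤ)] γ) := by
  rw [SL_smul_slash]
  congr 1
  exact serreDerivative_slash_equivariant (k := 2) hF (γ := γ)

/-- **the Serre derivative** `ϑ g = 12 D g − 2 E₂ g` of a weight two form on `Γ₀(p)`. -/
def thetaForm [NeZero p] (g : ModularForm (Gamma0 p) 2) : ModularForm (Gamma0 p) 4 where
  toFun := (12 : ℂ) • serreDerivative ((2 : ℤ) : ℂ) ⇑g
  slash_action_eq' := by
    intro γ hγ
    obtain ⟨γ0, hγ0, rfl⟩ := Subgroup.mem_map.1 hγ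
    have hinv : ⇑g ∣[(2 : ℤ)] γ0 = ⇑g :=
      SlashInvariantFormClass.slash_action_eq g _ ⟨γ0, hγ0, rfl⟩
    rw [slash_mapGL_eq_SL, smul_serreDerivative_slash_SL (ModularFormClass.holo g), hinv]
  holo' := (serreDerivative_mdifferentiable _ (ModularFormClass.holo g)).const_smul _
  bdd_at_cusps' := by
    intro c hc
    rw [Subgroup.IsArithmetic.isCusp_iff_isCusp_SL2Z] at hc
    rw [OnePoint.isBoundedAt_iff_forall_SL2Z hc]
    intro γ _
    rw [smul_serreDerivative_slash_SL (ModularFormClass.holo g)]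
    refine (isBoundedAtImInfty_serreDerivative _ ?_
      (isBoundedAtImInfty_slash_SL g γ)).const_smul_left _
    exact (ModularFormClass.holo g).slash 2 _

@[simp] theorem coe_thetaForm [NeZero p] (g : ModularForm (Gamma0 p) 2) :
    ⇑(thetaForm g) = (12 : ℂ) • serreDerivative ((2 : ℤ) : ℂ) ⇑g := rfl

theorem thetaForm_apply [NeZero p] (g : ModularForm (Gamma0 p) 2) (z : ℍ) :
    thetaForm g z = 12 * D ⇑g z - 2 * E2 z * g z := by
  rw [coe_thetaForm, Pi.smul_apply, serreDerivative_apply, smul_eq_mul]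
  push_cast
  ring

/-- **equivariance**: `(ϑ g) ∣[4] γ = ϑ (g ∣[2] γ)` for `γ ∈ SL₂(ℤ)`. -/
theorem thetaForm_slash_SL [NeZero p] (g : ModularForm (Gamma0 p) 2) (γ : SL(2, ℤ)) :
    ⇑(thetaForm g) ∣[(4 : ℤ)] (mapGL ℝ γ : GL (Fin 2) ℝ) =
      (12 : ℂ) • serreDerivative ((2 : ℤ) : ℂ) (⇑g ∣[(2 : ℤ)] (mapGL ℝ γ : GL (Fin 2) ℝ)) := by
  rw [slash_mapGL_eq_SL, slash_mapGL_eq_SL, coe_thetaForm,
    smul_serreDerivative_slash_SL (ModularFormClass.holo g)]

end Fermat.Agent.S16
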