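/-
S16, package UB-ϑ (helper1), part 2: `q`-expansions.

* `thetaPS` : `X d/dX` on power series; `qExpansion_D : qExpansion 1 (D F) = thetaPS (qExpansion 1 F)`;
* `E2Z : ℤ⟦X⟧`, `qExpansion_E2`, `qExpansion_dilate_E2`;
* `qExpansion_thetaForm`.
-/
import Fermat.Agent.S16.TH_helper1_Form
import Fermat.Prelude.Thm_CongruenceSubgroup_one_mem_strictPeriods_Gamma0

set_option autoImplicit false

noncomputable section

namespace Fermat.Agent.S16

open UpperHalfPlane hiding I
open Complex Filter Function Topology ModularForm EisensteinSeries Derivative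
open Matrix Matrix.SpecialLinearGroup CongruenceSubgroup
open Fermat.Agent.RatStr Fermat.Agent.X0N
open scoped Manifold MatrixGroups Real

local notation "𝕢" => Periodic.qParam

/-- `X d/dX` on power series. -/
def thetaPS : PowerSeries ℂ →ₗ[ℂ] PowerSeries ℂ where
  toFun a := PowerSeries.mk fun n => (n : ℂ) * PowerSeries.coeff n a
  map_add' a b := by ext n; simp [mul_add]
  map_smul' c a := by ext n; simp [mul_left_comm]

@[simp] theorem coeff_thetaPS (a : PowerSeries ℂ) (n : ℕ) :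
    PowerSeries.coeff n (thetaPS a) = (n : ℂ) * PowerSeries.coeff n a := by
  simp [thetaPS]

/-- near `0` the cusp function of `D F` is `q ↦ q · G'(q)`, `G` the cusp function of `F`. -/
theorem cuspFunction_D_eventuallyEq {F : ℍ → ℂ} (hF : IsHolBdd 1 F) :
    cuspFunction 1 (D F) =ᶠ[𝓝 0] fun q => q * deriv (cuspFunction 1 F) q := by
  have hDF : IsHolBdd 1 (D F) := isHolBdd_D hF
  have hc1 : ContinuousAt (cuspFunction 1 (D F)) 0 := (hDF.analyticAt one_pos).continuousAt
  have hc2 : ContinuousAt (fun q => q * deriv (cuspFunction 1 F) q) 0 :=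
    continuousAt_id.mul (hF.analyticAt one_pos).deriv.continuousAt
  rw [← hc1.eventuallyEq_nhds_iff_eventuallyEq_nhdsNE hc2]
  have hball : Metric.ball (0 : ℂ) 1 ∈ 𝓝 (0 : ℂ) := Metric.ball_mem_nhds 0 one_pos
  filter_upwards [self_mem_nhdsWithin, nhdsWithin_le_nhds hball] with q hq0 hq1
  have hq0' : q ≠ 0 := hq0
  have hq1' : ‖q‖ < 1 := by simpa using hq1
  have him := Periodic.im_invQParam_pos_of_norm_lt_one one_pos hq1' hq0'
  set τ : ℍ := ⟨Periodic.invQParam 1 q, him⟩ with hτ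
  have hqτ : 𝕢 1 (τ : ℂ) = q := Periodic.qParam_right_inv one_ne_zero hq0'
  have h1 := eq_cuspFunction τ one_ne_zero hDF.per
  rw [hqτ] at h1
  rw [h1, D_eq_of_isHolBdd hF τ, hqτ]

/-- **the `q`-expansion of the normalised derivative**. -/
theorem qExpansion_D {F : ℍ → ℂ} (hF : IsHolBdd 1 F) :
    qExpansion 1 (D F) = thetaPS (qExpansion 1 F) := by
  ext m
  rw [coeff_thetaPS, qExpansion_coeff, qExpansion_coeff,
    (cuspFunction_D_eventuallyEq hF).iteratedDeriv_eq m]
  have hG : AnalyticAt ℂ (cuspFunction 1 F) 0 := hF.analyticAt one_pos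
  have hid : ContDiffAt ℂ m (id : ℂ → ℂ) 0 := contDiffAt_id
  have hG' : ContDiffAt ℂ m (deriv (cuspFunction 1 F)) 0 := hG.deriv.contDiffAt
  have hmul : (fun q : ℂ => q * deriv (cuspFunction 1 F) q) =
      (id : ℂ → ℂ) * deriv (cuspFunction 1 F) := rfl
  rw [hmul, iteratedDeriv_mul hid hG']
  rcases Nat.eq_zero_or_pos m with rfl | hm
  · simp
  · rw [Finset.sum_eq_single 1]
    · rw [iteratedDeriv_id, if_neg one_ne_zero, if_pos rfl, Nat.choose_one_right, mul_one,
        ← iteratedDeriv_succ', show m - 1 + 1 = m by omega]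
      ring
    · intro i _ hi1
      rw [iteratedDeriv_id]
      split_ifs with h0
      · simp
      · simp
    · intro h
      exact absurd (Finset.mem_range.2 (by omega)) h

/-! ### `E₂` -/

/-- `E₂ = 1 - 24 ∑ σ₁(n) qⁿ` over `ℤ`. -/
def E2Z : PowerSeries ℤ :=
  PowerSeries.mk fun n => if n = 0 then 1 else -24 * ((ArithmeticFunction.sigma 1 n : ℕ) : ℤ)

theorem coeff_E2Z (n : ℕ) : PowerSeries.coeff n E2Z =
    if n = 0 then 1 else -24 * ((ArithmeticFunction.sigma 1 n : ℕ) : ℤ) :=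
  PowerSeries.coeff_mk _ _

theorem constantCoeff_E2Z : PowerSeries.constantCoeff E2Z = 1 := by
  rw [← PowerSeries.coeff_zero_eq_constantCoeff_apply, coeff_E2Z, if_pos rfl]

theorem qExpansion_E2 : qExpansion 1 E2 = E2Z.map (Int.castRingHom ℂ) := by
  ext m
  have h0 := qExpansion_coeff_unique' (isHolBdd_E2.analyticAt one_pos)
    (c := fun m : ℕ => (if m = 0 then 1 else -24 * (ArithmeticFunction.sigma 1 m : ℂ)))
    (fun τ => by
      simpa only [Function.Periodic.qParam, ofReal_one, div_one] using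
        hasSum_qExpansion_E2 (z := τ)) m
  rw [← h0, PowerSeries.coeff_map, coeff_E2Z]
  split_ifs <;> simp

theorem qExpansion_dilate_E2 {d : ℕ} (hd : d ≠ 0) :
    qExpansion 1 (dilate d E2) = dilPS d (E2Z.map (Int.castRingHom ℂ)) := by
  rw [qExpansion_dilate hd isHolBdd_E2, qExpansion_E2]

/-! ### `ϑ g` -/

variable {p : ℕ}

theorem isHolBdd_of_Gamma0 [NeZero p] {k : ℤ} (g : ModularForm (Gamma0 p) k) :
    IsHolBdd 1 ⇑g :=
  isHolBdd_of_modularForm g one_pos (CongruenceSubgroup.one_mem_strictPeriods_Gamma0 p)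

/-- `q`-expansion of `12 D G − c E G` for functions holomorphic, periodic and bounded at `i∞`. -/
theorem qExpansion_serre_aux {G E : ℍ → ℂ} (hG : IsHolBdd 1 G) (hE : IsHolBdd 1 E) (c : ℂ) :
    qExpansion 1 ((12 : ℂ) • D G - c • (E * G)) =
      (12 : ℂ) • thetaPS (qExpansion 1 G) - c • (qExpansion 1 E * qExpansion 1 G) := by
  have hDG : IsHolBdd 1 (D G) := isHolBdd_D hG
  have hEG : IsHolBdd 1 (E * G) := hE.mul hG
  have a1 : AnalyticAt ℂ (cuspFunction 1 ((12 : ℂ) • D G)) 0 :=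
    (hDG.smul 12).analyticAt one_pos
  have a2 : AnalyticAt ℂ (cuspFunction 1 (c • (E * G))) 0 := (hEG.smul c).analyticAt one_pos
  rw [UpperHalfPlane.qExpansion_sub a1 a2,
    UpperHalfPlane.qExpansion_smul (hDG.analyticAt one_pos),
    UpperHalfPlane.qExpansion_smul (hEG.analyticAt one_pos),
    UpperHalfPlane.qExpansion_mul (hE.analyticAt one_pos) (hG.analyticAt one_pos),
    qExpansion_D hG]

/-- **the `q`-expansion of `ϑ g`**: `12 θ(a) − 2 E₂ a`. -/
theorem qExpansion_thetaForm [NeZero p] (g : ModularForm (Gamma0 p) 2) :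
    qExpansion 1 ⇑(thetaForm g) =
      (12 : ℂ) • thetaPS (qExpansion 1 ⇑g) -
        (2 : ℂ) • (E2Z.map (Int.castRingHom ℂ) * qExpansion 1 ⇑g) := by
  have h : ⇑(thetaForm g) = (12 : ℂ) • D ⇑g - (2 : ℂ) • (E2 * ⇑g) := by
    funext z
    rw [thetaForm_apply]
    simp only [Pi.sub_apply, Pi.smul_apply, Pi.mul_apply, smul_eq_mul]
    ring
  rw [h, qExpansion_serre_aux (isHolBdd_of_Gamma0 g) isHolBdd_E2, qExpansion_E2]

end Fermat.Agent.S16
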