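/-
S16, package UB-ϑ (helper1), part 3: the Fricke operator on `ϑ g`.

* `coe_wOp_thetaForm : (ϑ g) ∣ W = p • (12 D (g ∣ W) − 2 p E₂(p ·) (g ∣ W))`;
* `qExpansion_wOp_thetaForm`.
-/
import Fermat.Agent.S16.TH_helper1_QExp
import Fermat.Agent.S16.WTR_helper4_Id
import Fermat.Agent.S16.E_helper2_Slash

set_option autoImplicit false

noncomputable section

namespace Fermat.Agent.S16

open UpperHalfPlane hiding I
open Complex Filter Function Topology ModularForm EisensteinSeries Derivative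
open Matrix Matrix.SpecialLinearGroup CongruenceSubgroup
open Fermat.Agent.RatStr Fermat.Agent.X0N
open scoped Manifold MatrixGroups Real

variable {p : ℕ}

theorem wMat_eq_S_mul_diag [NeZero p] :
    wMat p = (mapGL ℝ ModularGroup.S : GL (Fin 2) ℝ) * heckeDiagMatrix p := by
  apply Matrix.GeneralLinearGroup.ext
  intro i j
  rw [Matrix.GeneralLinearGroup.coe_mul, val_wMat, val_heckeDiagMatrix (NeZero.ne p),
    mapGL_coe_matrix]
  fin_cases i <;> fin_cases j <;>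
    simp [ModularGroup.S, Matrix.mul_apply, Fin.sum_univ_two]

theorem σ_wMat [NeZero p] : σ (wMat p) = .refl ℝ ℂ := by
  rw [σ, if_pos det_wMat_pos]

theorem wMat_one_zero [NeZero p] : (wMat p) 1 0 = (p : ℝ) := by
  simp [wMat]

theorem denom_wMat [NeZero p] (z : ℍ) : denom (wMat p) z = (p : ℂ) * z := by
  rw [denom, wMat_one_zero]
  simp [wMat]

theorem denom_S (w : ℍ) : denom (ModularGroup.S : SL(2, ℤ)) w = w := by
  rw [ModularGroup.denom_apply]
  simp [ModularGroup.S]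

/-- `E₂ ∣[2] W = p E₂(p z) − (1 / (2ζ(2))) · 2πi / z`. -/
theorem E2_slash_wMat [NeZero p] (z : ℍ) :
    (E2 ∣[(2 : ℤ)] wMat p) z =
      (p : ℂ) * E2 ((heckeDiagMatrix p • z : ℍ)) - e2Const * (2 * π * I) / (z : ℂ) := by
  have hp : p ≠ 0 := NeZero.ne p
  have hp' : (p : ℂ) ≠ 0 := by exact_mod_cast hp
  rw [wMat_eq_S_mul_diag, SlashAction.slash_mul, e2_slash_SL,
    slash_heckeDiagMatrix_apply 2 hp]
  simp only [Pi.sub_apply, Pi.smul_apply, smul_eq_mul, D2]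
  have hd : denom (ModularGroup.S : SL(2, ℤ)) ((heckeDiagMatrix p • z : ℍ) : ℂ) = (p : ℂ) * z := by
    rw [denom_S, coe_heckeDiagMatrix_smul hp]
  rw [hd]
  have hz : (z : ℂ) ≠ 0 := ne_zero z
  have hS : ((ModularGroup.S : SL(2, ℤ)) 1 0 : ℤ) = 1 := by simp [ModularGroup.S]
  rw [hS]
  push_cast
  field_simp

/-- `D g ∣[4] W` in terms of `D (g ∣[2] W)`. -/
theorem D_slash_wMat [NeZero p] {F : ℍ → ℂ} (hF : MDiff F) (z : ℍ) :
    (D F ∣[(4 : ℤ)] wMat p) z =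
      (p : ℂ) * (D (F ∣[(2 : ℤ)] wMat p) z +
        2 * (2 * π * I)⁻¹ * (1 / (z : ℂ)) * (F ∣[(2 : ℤ)] wMat p) z) := by
  have hp' : (p : ℂ) ≠ 0 := by exact_mod_cast NeZero.ne p
  have hz : (z : ℂ) ≠ 0 := ne_zero z
  have hdet : (0 : ℝ) < (wMat p : GL (Fin 2) ℝ).val.det := by
    have := det_wMat_pos (p := p)
    rwa [Matrix.GeneralLinearGroup.val_det_apply] at this
  have hdet' : ((wMat p : GL (Fin 2) ℝ).val.det : ℝ) = p := by
    rw [← Matrix.GeneralLinearGroup.val_det_apply, det_wMat]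
  have h := congrFun (normalizedDerivOfComplex_slash (k := 2) hF (g := wMat p) hdet) z
  rw [hdet', wMat_one_zero, denom_wMat] at h
  change D (F ∣[(2 : ℤ)] wMat p) z = _ * (D F ∣[(4 : ℤ)] wMat p) z - _ at h
  rw [h]
  push_cast
  field_simp
  ring

/-- **the Fricke operator on `ϑ g`**:
`(ϑ g) ∣ W = p • (12 D (g ∣ W) − 2 p E₂(p ·) (g ∣ W))`. -/
theorem coe_wOp_thetaForm [NeZero p] (g : ModularForm (Gamma0 p) 2) :
    ⇑(wOp (thetaForm g)) = (p : ℂ) • ((12 : ℂ) • D ⇑(wOp g) -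
      (2 * (p : ℂ)) • (dilate p E2 * ⇑(wOp g))) := by
  have hp : p ≠ 0 := NeZero.ne p
  have hp' : (p : ℂ) ≠ 0 := by exact_mod_cast hp
  have hg : MDiff ⇑g := ModularFormClass.holo g
  have hdecomp : ⇑(thetaForm g) = (12 : ℂ) • D ⇑g - (2 : ℂ) • (E2 * ⇑g) := by
    funext z
    rw [thetaForm_apply]
    simp only [Pi.sub_apply, Pi.smul_apply, Pi.mul_apply, smul_eq_mul]
    ring
  have hpos : (0 : ℝ) < p := by exact_mod_cast Nat.pos_of_ne_zero hp
  rw [coe_wOp, hdecomp, sub_eq_add_neg, SlashAction.add_slash, SlashAction.neg_slash,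
    smul_slash, smul_slash, σ_wMat, show (4 : ℤ) = 2 + 2 by norm_num, mul_slash, det_wMat,
    abs_of_pos hpos]
  funext z
  have hz : (z : ℂ) ≠ 0 := ne_zero z
  have h1 := D_slash_wMat (p := p) hg z
  have h2 := E2_slash_wMat (p := p) z
  simp only [ContinuousAlgEquiv.refl_apply, Pi.add_apply, Pi.neg_apply, Pi.smul_apply,
    Pi.mul_apply, Pi.sub_apply, smul_eq_mul, coe_wOp, dilate_apply]
  rw [show (2 : ℤ) + 2 = 4 by norm_num, h1, h2]
  have hζ : e2Const = 3 / (π : ℂ) ^ 2 := by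
    rw [e2Const, riemannZeta_two]
    have : (π : ℂ) ≠ 0 := by exact_mod_cast Real.pi_ne_zero
    field_simp
    ring
  rw [hζ]
  have hπ : (π : ℂ) ≠ 0 := by exact_mod_cast Real.pi_ne_zero
  have hI : (I : ℂ) ≠ 0 := I_ne_zero
  simp only [real_smul, ofReal_natCast]
  field_simp
  ring_nf
  rw [I_sq]
  ring

/-- **the `q`-expansion of `(ϑ g) ∣ W`** in terms of `b = ` the `q`-expansion of `g ∣ W`:
`p • (12 θ(b) − 2p E₂(X^p) b)`. -/
theorem qExpansion_wOp_thetaForm [NeZero p] (g : ModularForm (Gamma0 p) 2) :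
    qExpansion 1 ⇑(wOp (thetaForm g)) =
      (p : ℂ) • ((12 : ℂ) • thetaPS (qExpansion 1 ⇑(wOp g)) -
        (2 * (p : ℂ)) • (dilPS p (E2Z.map (Int.castRingHom ℂ)) * qExpansion 1 ⇑(wOp g))) := by
  have hp : p ≠ 0 := NeZero.ne p
  have hG : IsHolBdd 1 ⇑(wOp g) := isHolBdd_of_Gamma0 (wOp g)
  have hE : IsHolBdd 1 (dilate p E2) := isHolBdd_dilate hp isHolBdd_E2
  have hin : IsHolBdd 1 ((12 : ℂ) • D ⇑(wOp g) - (2 * (p : ℂ)) • (dilate p E2 * ⇑(wOp g))) :=
    ((isHolBdd_D hG).smul 12).sub ((hE.mul hG).smul _)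
  rw [coe_wOp_thetaForm, UpperHalfPlane.qExpansion_smul (hin.analyticAt one_pos),
    qExpansion_serre_aux hG hE, qExpansion_dilate_E2 hp]

end Fermat.Agent.S16
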