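/-
S16, package UB-ϑ (helper1), part 4: the conjugates of `ϑ g` (in helper4's `conjS` language):
`conjS (ϑ g) j = (12 / p) θ(conjS g j) − 2 E₂(X^p) · conjS g j`.
-/
import Fermat.Agent.S16.TH_helper1_W
import Fermat.Agent.S16.N_helper4_Conj

set_option autoImplicit false

noncomputable section

namespace Fermat.Agent.S16

open UpperHalfPlane hiding I
open Complex Function ModularForm
open Matrix Matrix.SpecialLinearGroup CongruenceSubgroup
open Fermat.Agent.X0N
open scoped MatrixGroups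

variable {p : ℕ}

theorem zetaP_pow_self [NeZero p] : zetaP p ^ p = 1 := by
  have hp' : (p : ℂ) ≠ 0 := by exact_mod_cast NeZero.ne p
  rw [zetaP, ← Complex.exp_nat_mul, mul_div_cancel₀ _ hp']
  exact Complex.exp_two_pi_mul_I

theorem thetaPS_rescale (c : ℂ) (a : PowerSeries ℂ) :
    thetaPS (PowerSeries.rescale c a) = PowerSeries.rescale c (thetaPS a) := by
  ext n
  rw [coeff_thetaPS, PowerSeries.coeff_rescale, PowerSeries.coeff_rescale, coeff_thetaPS]
  ring

theorem dilPS_eq_expand [NeZero p] (a : PowerSeries ℂ) :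
    dilPS p a = PowerSeries.expand p (NeZero.ne p) a := by
  ext n
  rw [dilPS, PowerSeries.coeff_mk, PowerSeries.coeff_expand]

theorem rescale_expand_of_pow_eq_one [NeZero p] {c : ℂ} (hc : c ^ p = 1) (a : PowerSeries ℂ) :
    PowerSeries.rescale c (PowerSeries.expand p (NeZero.ne p) a) =
      PowerSeries.expand p (NeZero.ne p) a := by
  ext n
  rw [PowerSeries.coeff_rescale, PowerSeries.coeff_expand]
  split_ifs with h
  · obtain ⟨m, rfl⟩ := h
    rw [pow_mul, hc, one_pow, one_mul]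
  · rw [mul_zero]

theorem rescale_smul' (c a : ℂ) (P : PowerSeries ℂ) :
    PowerSeries.rescale c (a • P) = a • PowerSeries.rescale c P := by
  ext n
  rw [PowerSeries.coeff_rescale, PowerSeries.coeff_smul, PowerSeries.coeff_smul,
    PowerSeries.coeff_rescale]
  simp only [smul_eq_mul]
  ring

/-- **the conjugates of `ϑ g`**:
`conjS (ϑ g) j = (12 / p) θ(conjS g j) − 2 E₂(X^p) · conjS g j`. -/
theorem conjS_thetaForm [NeZero p] (g : ModularForm (Gamma0 p) 2) (j : ℕ) :
    conjS (thetaForm g) j =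
      ((12 : ℂ) * (p : ℂ)⁻¹) • thetaPS (conjS g j) -
        (2 : ℂ) • (PowerSeries.expand p (NeZero.ne p) (E2Z.map (Int.castRingHom ℂ)) *
          conjS g j) := by
  have hp' : (p : ℂ) ≠ 0 := by exact_mod_cast NeZero.ne p
  have hζ : (zetaP p ^ j) ^ p = 1 := by
    rw [← pow_mul, mul_comm, pow_mul, zetaP_pow_self, one_pow]
  rw [conjS_eq_rescale, conjS_eq_rescale, qExpansion_wOp_thetaForm, dilPS_eq_expand]
  set b := qExpansion 1 ⇑(wOp g) with hb
  set E := PowerSeries.expand p (NeZero.ne p) (E2Z.map (Int.castRingHom ℂ)) with hE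
  set c := zetaP p ^ j with hc
  have h1 : PowerSeries.rescale c E = E := rescale_expand_of_pow_eq_one hζ _
  rw [rescale_smul', map_sub, rescale_smul', rescale_smul', map_mul, h1, ← thetaPS_rescale,
    ← PowerSeries.smul_eq_C_mul, ← PowerSeries.smul_eq_C_mul, map_smul]
  simp only [smul_sub, smul_smul, mul_smul_comm]
  have e1 : (p : ℂ) ^ (1 - (4 : ℤ)) * ((p : ℂ) * 12) = 12 * (p : ℂ)⁻¹ * (p : ℂ) ^ (1 - (2 : ℤ)) := by
    rw [show (1 : ℤ) - 4 = -3 by norm_num, show (1 : ℤ) - 2 = -1 by norm_num, _root_.zpow_neg,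
      _root_.zpow_neg_one, show ((3 : ℤ)) = ((3 : ℕ) : ℤ) by norm_num, zpow_natCast]
    field_simp
  have e2 : (p : ℂ) ^ (1 - (4 : ℤ)) * ((p : ℂ) * (2 * (p : ℂ))) = 2 * (p : ℂ) ^ (1 - (2 : ℤ)) := by
    rw [show (1 : ℤ) - 4 = -3 by norm_num, show (1 : ℤ) - 2 = -1 by norm_num, _root_.zpow_neg,
      _root_.zpow_neg_one, show ((3 : ℤ)) = ((3 : ℕ) : ℤ) by norm_num, zpow_natCast]
    field_simp
  rw [e1, e2]

end Fermat.Agent.S16
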