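/-
S16, case (c5) (helper9): **`NoCong p 5 1` for every prime level `p ∉ {2, 5}`**: no weight-two form
on `Γ₀(p)` has a `q`-expansion `u + 5 Z` with `u ∈ ℤ` prime to `5` and `Z ∈ ℤ⟦X⟧`.

Proof: `ϑ g = 12 D g − 2 E₂ g ∈ M₄(Γ₀(p))` is `≡ −2u E₂ ≡ −2u E₆` modulo `5`, all its conjugates are
`≡ (2u/p) E₆(q)`, so the norm `Y ∈ M_{4(p+1)}(SL₂ℤ)` is `≡ c E₆^{p+1}` with `c` a `5`-adic unit.
Writing `Y` in the basis `Δ^c E₄^{p+1−3c}` (`c ≤ (p+1)/3`), `E₄ ≡ 1`, and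
`E₆^{p+1} = (E₄³ − 1728 Δ)^{(p+1)/2}`, the coefficient of `Δ^{(p+1)/2}` gives `5 ∣ c · 1728^{(p+1)/2}`.
-/
import Mathlib
import Fermat.Agent.S16.N_helper4_Main
import Fermat.Agent.S16.TH_helper1_Conj
import Fermat.Agent.S16.L1_helper1_Int
import Fermat.Agent.S16.FIN_helper2_NC

set_option autoImplicit false

noncomputable section

namespace Fermat.Agent.S16

open PowerSeries CongruenceSubgroup UpperHalfPlane ModularForm
open scoped MatrixGroups ModularForm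

/-! ### generalities on `SCong` -/

section General

variable {ℓ : ℕ} [Fact ℓ.Prime]

theorem c5_scong_sum {ι : Type*} (t : Finset ι) {s : ℕ} {F G : ι → PowerSeries ℂ}
    (h : ∀ i ∈ t, SCong ℓ s (F i) (G i)) : SCong ℓ s (∑ i ∈ t, F i) (∑ i ∈ t, G i) := by
  classical
  induction t using Finset.induction_on with
  | empty => simpa using SCong.refl (ℓ := ℓ) (s := s) (0 : PowerSeries ℂ)
  | insert a t ha ih =>
    rw [Finset.sum_insert ha, Finset.sum_insert ha]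
    exact (h a (Finset.mem_insert_self a t)).add
      (ih fun i hi => h i (Finset.mem_insert_of_mem hi))

theorem c5_scong_of_eq_add_smul {s : ℕ} {f g h : PowerSeries ℂ} (hh : h ∈ Sint ℓ)
    (e : f = g + ((ℓ : ℂ) ^ s) • h) : SCong ℓ s f g := ⟨h, hh, e⟩

theorem c5_thetaPS_mem_Sint {a : PowerSeries ℂ} (ha : a ∈ Sint ℓ) : thetaPS a ∈ Sint ℓ := by
  intro n
  rw [coeff_thetaPS]
  exact Subring.mul_mem _ (natCast_mem_Rint n) (ha n)

theorem c5_thetaPS_C (c : ℂ) : thetaPS (C c) = 0 := by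
  ext n
  rw [coeff_thetaPS, coeff_C]
  split_ifs with h
  · subst h
    simp
  · simp

theorem c5_upS_C {p : ℕ} (hp : p ≠ 0) (c : ℂ) : upS p (C c) = C c := by
  ext n
  rw [coeff_upS, coeff_C, coeff_C]
  by_cases h : n = 0
  · subst h
    simp
  · rw [if_neg h, if_neg (Nat.mul_ne_zero h hp)]

theorem c5_rescale_C' (a c : ℂ) : rescale a (C c) = C c := by
  ext n
  rw [coeff_rescale, coeff_C]
  split_ifs with h
  · subst h
    simp
  · simp

end General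


/-! ### congruences modulo `5` of `E₂`, `E₄`, `E₆` -/

section Five

local instance c5FactFive : Fact (Nat.Prime 5) := ⟨by norm_num⟩

theorem c5_five_dvd_pow_five_sub (d : ℤ) : (5 : ℤ) ∣ d ^ 5 - d := by
  have h : ((d ^ 5 - d : ℤ) : ZMod 5) = 0 := by
    push_cast
    have := ZMod.pow_card (d : ZMod 5)
    rw [this, sub_self]
  exact (ZMod.intCast_zmod_eq_zero_iff_dvd _ 5).mp h

theorem c5_five_dvd_sigma_five_sub_sigma_one (n : ℕ) :
    (5 : ℤ) ∣ ((ArithmeticFunction.sigma 5 n : ℕ) : ℤ) - ((ArithmeticFunction.sigma 1 n : ℕ) : ℤ) := by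
  rw [ArithmeticFunction.sigma_apply, ArithmeticFunction.sigma_apply]
  push_cast
  rw [← Finset.sum_sub_distrib]
  refine Finset.dvd_sum fun d _ => ?_
  rw [pow_one]
  exact c5_five_dvd_pow_five_sub d

/-- `E₂ ≡ E₆ mod 5`. -/
theorem c5_scong_E2Z_E6Z :
    SCong 5 1 (E2Z.map (Int.castRingHom ℂ)) (E6Z.map (Int.castRingHom ℂ)) := by
  have h : ∀ n : ℕ, ∃ z : ℤ, coeff n E2Z = coeff n E6Z + 5 * z := by
    intro n
    rw [coeff_E2Z, coeff_E6Z]
    split_ifs with h0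
    · exact ⟨0, by ring⟩
    · obtain ⟨w, hw⟩ := c5_five_dvd_sigma_five_sub_sigma_one n
      refine ⟨504 * w + 96 * ((ArithmeticFunction.sigma 1 n : ℕ) : ℤ), ?_⟩
      linear_combination (504 : ℤ) * hw
  choose z hz using h
  refine ⟨(PowerSeries.mk z).map (Int.castRingHom ℂ), map_intCast_mem_Sint _, ?_⟩
  ext n
  rw [map_add, coeff_smul, coeff_map, coeff_map, coeff_map, coeff_mk, hz n]
  simp

/-- `E₄ ≡ 1 mod 5`. -/
theorem c5_scong_e4PS_one : SCong 5 1 e4PS 1 := by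
  have h : ∀ n : ℕ, ∃ z : ℤ, coeff n E4Z = coeff n (1 : ℤ⟦X⟧) + 5 * z := by
    intro n
    rw [coeff_E4Z, coeff_one]
    split_ifs with h0
    · exact ⟨0, by ring⟩
    · exact ⟨48 * ((ArithmeticFunction.sigma 3 n : ℕ) : ℤ), by ring⟩
  choose z hz using h
  refine ⟨(PowerSeries.mk z).map (Int.castRingHom ℂ), map_intCast_mem_Sint _, ?_⟩
  rw [e4PS_eq_map]
  ext n
  rw [map_add, coeff_smul, coeff_map, coeff_map, coeff_mk, hz n, coeff_one, coeff_one]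
  split_ifs <;> simp


/-! ### more `SCong` calculus -/

theorem c5_scong_thetaPS {s : ℕ} {f g : PowerSeries ℂ} (h : SCong 5 s f g) :
    SCong 5 s (thetaPS f) (thetaPS g) := by
  obtain ⟨w, hw, rfl⟩ := h
  exact ⟨thetaPS w, c5_thetaPS_mem_Sint hw, by rw [map_add, map_smul]⟩

theorem c5_scong_smul {s : ℕ} {c : ℂ} (hc : c ∈ Rint 5) {f g : PowerSeries ℂ} (h : SCong 5 s f g) :
    SCong 5 s (c • f) (c • g) := by
  obtain ⟨w, hw, rfl⟩ := h
  exact ⟨c • w, smul_mem_Sint hc hw, by rw [smul_add, smul_comm]⟩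

theorem c5_e6PS_mem_Sint : E6Z.map (Int.castRingHom ℂ) ∈ Sint 5 := map_intCast_mem_Sint _

/-! ### the level-one contradiction -/

theorem c5_deltaPS_mem_Sint : deltaPS ∈ Sint 5 := fun n => deltaPS_mem (Rint 5) n

theorem c5_deltaPS_pow_mem_Sint (c : ℕ) : deltaPS ^ c ∈ Sint 5 :=
  Subring.pow_mem _ c5_deltaPS_mem_Sint c

theorem c5_e4PS_mem_Sint : e4PS ∈ Sint 5 := fun n => e4PS_mem (Rint 5) n

theorem c5_five_mem_Rint : (5 : ℂ) ∈ Rint 5 := by
  have := natCast_mem_Rint (ℓ := 5) 5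
  rwa [Nat.cast_ofNat] at this

/-- `5` as an element of `Rint 5`. -/
def c5_fiveR : Rint 5 := ⟨(5 : ℂ), c5_five_mem_Rint⟩

/-- the additive subgroup `5 · Rint 5` of `ℂ`. -/
def c5_fiveL : AddSubgroup ℂ := idealImage (Rint 5) (Ideal.span {c5_fiveR})

theorem c5_mem_fiveL_iff {x : ℂ} : x ∈ c5_fiveL ↔ ∃ y ∈ Rint 5, x = 5 * y := by
  constructor
  · rintro ⟨z, hz, rfl⟩
    have hz' : z ∈ Ideal.span {c5_fiveR} := hz
    rw [Ideal.mem_span_singleton'] at hz'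
    obtain ⟨a, ha⟩ := hz'
    refine ⟨a, a.2, ?_⟩
    have := congrArg Subtype.val ha
    simp only [Subring.coe_mul, c5_fiveR] at this
    show (z : ℂ) = 5 * a
    rw [← this]
    ring
  · rintro ⟨y, hy, rfl⟩
    refine ⟨⟨y, hy⟩ * c5_fiveR, ?_, ?_⟩
    · exact Ideal.mem_span_singleton'.mpr ⟨⟨y, hy⟩, rfl⟩
    · show y * 5 = 5 * y
      ring

theorem c5_stableUnder_fiveL : StableUnder (Rint 5) c5_fiveL := stableUnder_idealImage _

theorem c5_coeffsMem_fiveL_of_scong_zero {Y : PowerSeries ℂ} (h : SCong 5 1 Y 0) :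
    CoeffsMem c5_fiveL Y := by
  obtain ⟨w, hw, rfl⟩ := h
  intro n
  rw [c5_mem_fiveL_iff]
  refine ⟨coeff n w, hw n, ?_⟩
  rw [zero_add, coeff_smul, smul_eq_mul]
  norm_num


theorem c5_coeff_deltaPS_pow_of_lt {c n : ℕ} (h : n < c) : coeff n (deltaPS ^ c) = 0 :=
  coeff_pow_of_lt coeff_deltaPS_zero h

theorem c5_coeff_deltaPS_pow_self (c : ℕ) : coeff c (deltaPS ^ c) = 1 := by
  rw [coeff_pow_self_of_constantCoeff_eq_zero coeff_deltaPS_zero, coeff_deltaPS_one, one_pow]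

/-- **the level-one contradiction**: a form of weight `4 (p + 1)` cannot be congruent modulo `5`
to a unit multiple of `E₆ ^ (p + 1)`. -/
theorem c5_levelOne {p M : ℕ} (hM : p + 1 = 2 * M) (hM0 : 1 ≤ M)
    (f : ModularForm 𝒮ℒ ((4 * (p + 1) : ℕ) : ℤ)) {c₀ : ℂ} (hc₀ : c₀ ∈ Rint 5)
    (hf : SCong 5 1 (qExpansion 1 ⇑f) (C c₀ * e6PS ^ (p + 1))) :
    ∃ x ∈ Rint 5, c₀ * (-1728) ^ M = 5 * x := by
  have he6 : e6PS ∈ Sint 5 := fun n => e6PS_mem (Rint 5) n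
  have hfS : qExpansion 1 ⇑f ∈ Sint 5 :=
    hf.mem_Sint (Subring.mul_mem _ (C_mem_Sint hc₀) (Subring.pow_mem _ he6 _))
  obtain ⟨r, hrR, hr0, -, hr⟩ := exists_basis_expansion (Rint 5) (4 * (p + 1)) f hfS
  -- extend the range of summation
  have hr' : qExpansion 1 ⇑f = ∑ c ∈ Finset.range (M + 1), r c • basisPS (4 * (p + 1)) c := by
    rw [hr]
    apply Finset.sum_subset
    · intro c hc
      rw [Finset.mem_range] at hc ⊢
      omega
    · intro c _ hc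
      rw [Finset.mem_range, not_lt] at hc
      rw [hr0 c (by omega), zero_smul]
  -- reduce the basis modulo `5`
  have h1 : SCong 5 1 (qExpansion 1 ⇑f) (∑ c ∈ Finset.range (M + 1), r c • deltaPS ^ c) := by
    rw [hr']
    apply c5_scong_sum
    intro c _
    apply c5_scong_smul (hrR c)
    rw [basisPS, gPS_four_mul]
    have h2 : SCong 5 1 (e4PS ^ (p + 1 - 3 * c)) 1 := by
      have := c5_scong_e4PS_one.pow (Subring.one_mem _) (p + 1 - 3 * c)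
      rwa [one_pow] at this
    have h3 := h2.mul_left (deltaPS ^ c) (c5_deltaPS_pow_mem_Sint c)
    rwa [mul_one] at h3
  -- expand `E₆ ^ (p + 1)` modulo `5`
  have h4 : SCong 5 1 (e6PS ^ 2) (C (-1728 : ℂ) * deltaPS + 1) := by
    have e : e6PS ^ 2 = C (-1728 : ℂ) * deltaPS + e4PS ^ 3 := by
      have := e4PS_cube_sub_e6PS_sq
      rw [map_neg, neg_mul]
      linear_combination -this
    rw [e]
    have h5 : SCong 5 1 (e4PS ^ 3) 1 := by
      have := c5_scong_e4PS_one.pow (Subring.one_mem _) 3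
      rwa [one_pow] at this
    exact (SCong.refl _).add h5
  have h1728 : (-1728 : ℂ) ∈ Rint 5 := by
    have := intCast_mem_Rint (ℓ := 5) (-1728)
    rwa [Int.cast_neg, Int.cast_ofNat] at this
  have hy : C (-1728 : ℂ) * deltaPS + 1 ∈ Sint 5 :=
    Subring.add_mem _ (Subring.mul_mem _ (C_mem_Sint h1728) c5_deltaPS_mem_Sint) (Subring.one_mem _)
  have h6 : SCong 5 1 (e6PS ^ (p + 1)) ((C (-1728 : ℂ) * deltaPS + 1) ^ M) := by
    rw [hM, pow_mul]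
    exact h4.pow hy M
  rw [(Commute.all _ _).add_pow] at h6
  have h7 := h6.mul_left (C c₀) (C_mem_Sint hc₀)
  have h8 : SCong 5 1 (∑ c ∈ Finset.range (M + 1), r c • deltaPS ^ c)
      (C c₀ * ∑ m ∈ Finset.range (M + 1),
        (C (-1728 : ℂ) * deltaPS) ^ m * 1 ^ (M - m) * ((M.choose m : ℕ) : PowerSeries ℂ)) :=
    h1.symm.trans (hf.trans h7)
  have h9 := h8.sub (SCong.refl (C c₀ * ∑ m ∈ Finset.range (M + 1),
        (C (-1728 : ℂ) * deltaPS) ^ m * 1 ^ (M - m) * ((M.choose m : ℕ) : PowerSeries ℂ)))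
  rw [sub_self] at h9
  set s : ℕ → ℂ := fun c => r c - c₀ * (-1728) ^ c * (M.choose c : ℂ) with hs
  have h10 : (∑ c ∈ Finset.range (M + 1), r c • deltaPS ^ c) -
      C c₀ * ∑ m ∈ Finset.range (M + 1),
        (C (-1728 : ℂ) * deltaPS) ^ m * 1 ^ (M - m) * ((M.choose m : ℕ) : PowerSeries ℂ) =
      ∑ c ∈ Finset.range (M + 1), s c • deltaPS ^ c := by
    rw [Finset.mul_sum, ← Finset.sum_sub_distrib]
    refine Finset.sum_congr rfl fun c _ => ?_
    rw [hs]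
    simp only [smul_eq_C_mul, map_sub, map_mul, map_pow, map_natCast, one_pow, mul_one, mul_pow]
    ring
  rw [h10] at h9
  have h11 := (c5_coeffsMem_fiveL_of_scong_zero h9).coeffsMemLE M
  have h12 := mem_of_triangular c5_stableUnder_fiveL (fun c => deltaPS ^ c)
    (fun c => c5_deltaPS_pow_mem_Sint c) (fun c n hn => c5_coeff_deltaPS_pow_of_lt hn)
    (fun c => c5_coeff_deltaPS_pow_self c) s M h11 M le_rfl
  have hrM : r M = 0 := hr0 M (by omega)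
  rw [hs] at h12
  simp only [hrM, zero_sub, Nat.choose_self, Nat.cast_one, mul_one] at h12
  have h13 := c5_fiveL.neg_mem h12
  rw [neg_neg] at h13
  exact c5_mem_fiveL_iff.mp h13


/-! ### the congruences for `g`, `ϑ g` and their conjugates -/

section Level

variable {p : ℕ} [Fact p.Prime]

theorem c5_qExpansion_eq {g : ModularForm (Gamma0 p) 2} {u : ℤ} {Z : PowerSeries ℤ}
    (hg : qExpansion 1 ⇑g =
      (PowerSeries.C (u : ℤ) + PowerSeries.C ((5 : ℤ) ^ 1) * Z).map (Int.castRingHom ℂ)) :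
    SCong 5 1 (qExpansion 1 ⇑g) (C (u : ℂ)) := by
  refine ⟨Z.map (Int.castRingHom ℂ), map_intCast_mem_Sint _, ?_⟩
  rw [hg, map_add, map_mul, map_C, map_C, smul_eq_C_mul]
  simp

theorem c5_inv_p_mem_Rint (h5p : ¬ 5 ∣ p) : ((p : ℂ))⁻¹ ∈ Rint 5 := inv_natCast_mem_Rint h5p

/-- the conjugates of `g ≡ u` are `≡ -u/p`. -/
theorem c5_conjS_g (h5p : ¬ 5 ∣ p) {g : ModularForm (Gamma0 p) 2} {u : ℤ}
    (hg : SCong 5 1 (qExpansion 1 ⇑g) (C (u : ℂ))) (j : ℕ) :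
    SCong 5 1 (conjS g j) (C (-(p : ℂ)⁻¹ * (u : ℂ))) := by
  have hp : p.Prime := Fact.out
  haveI : NeZero p := ⟨hp.ne_zero⟩
  obtain ⟨w, hw, hwe⟩ := hg
  rw [conjS_weight_two, hwe]
  have hpi : -(p : ℂ)⁻¹ ∈ Rint 5 := Subring.neg_mem _ (c5_inv_p_mem_Rint h5p)
  have hζ : zetaP p ^ j ∈ Rint 5 := Subring.pow_mem _ (zetaP_mem_Rint p) j
  refine ⟨C (-(p : ℂ)⁻¹) * rescale (zetaP p ^ j) (upS p w),
    Subring.mul_mem _ (C_mem_Sint hpi) (rescale_mem_Sint hζ (upS_mem_Sint p hw)), ?_⟩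
  rw [map_add, map_smul, c5_upS_C hp.ne_zero, map_add, c5_rescale_C', rescale_smul', mul_add, map_mul,
    mul_smul_comm]

theorem c5_E2c_mem_Sint : E2Z.map (Int.castRingHom ℂ) ∈ Sint 5 := map_intCast_mem_Sint _

/-- `ϑ g ≡ -2u E₆`. -/
theorem c5_theta (g : ModularForm (Gamma0 p) 2) {u : ℤ}
    (hg : SCong 5 1 (qExpansion 1 ⇑g) (C (u : ℂ))) :
    SCong 5 1 (qExpansion 1 ⇑(thetaForm g)) (C (-2 * (u : ℂ)) * E6Z.map (Int.castRingHom ℂ)) := by
  have hp : p.Prime := Fact.out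
  haveI : NeZero p := ⟨hp.ne_zero⟩
  rw [qExpansion_thetaForm]
  have hu : (C (u : ℂ) : PowerSeries ℂ) ∈ Sint 5 := C_mem_Sint (intCast_mem_Rint u)
  have h12 : (12 : ℂ) ∈ Rint 5 := by
    have := natCast_mem_Rint (ℓ := 5) 12
    rwa [Nat.cast_ofNat] at this
  have h2 : (2 : ℂ) ∈ Rint 5 := by
    have := natCast_mem_Rint (ℓ := 5) 2
    rwa [Nat.cast_ofNat] at this
  have h1 := c5_scong_smul h12 (c5_scong_thetaPS hg)
  rw [c5_thetaPS_C, smul_zero] at h1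
  have h3 := c5_scong_smul h2 (c5_scong_E2Z_E6Z.mul hg c5_e6PS_mem_Sint hu)
  have h4 := h1.sub h3
  have e : (0 : PowerSeries ℂ) - (2 : ℂ) • (E6Z.map (Int.castRingHom ℂ) * C (u : ℂ)) =
      C (-2 * (u : ℂ)) * E6Z.map (Int.castRingHom ℂ) := by
    rw [smul_eq_C_mul, map_mul, map_neg]
    ring
  rwa [e] at h4

/-- the conjugates of `ϑ g` are `≡ (2u/p) E₆(q)`. -/
theorem c5_conjS_theta (h5p : ¬ 5 ∣ p) (g : ModularForm (Gamma0 p) 2) {u : ℤ}
    (hg : SCong 5 1 (qExpansion 1 ⇑g) (C (u : ℂ))) (j : ℕ) :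
    SCong 5 1 (conjS (thetaForm g) j)
      (PowerSeries.expand p (NeZero.ne p)
        (C (2 * (p : ℂ)⁻¹ * (u : ℂ)) * E6Z.map (Int.castRingHom ℂ))) := by
  have hp : p.Prime := Fact.out
  rw [conjS_thetaForm]
  have hpi : (p : ℂ)⁻¹ ∈ Rint 5 := c5_inv_p_mem_Rint h5p
  have hK : (C (-(p : ℂ)⁻¹ * (u : ℂ)) : PowerSeries ℂ) ∈ Sint 5 :=
    C_mem_Sint (Subring.mul_mem _ (Subring.neg_mem _ hpi) (intCast_mem_Rint u))
  have h12 : (12 : ℂ) * (p : ℂ)⁻¹ ∈ Rint 5 := by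
    have := natCast_mem_Rint (ℓ := 5) 12
    rw [Nat.cast_ofNat] at this
    exact Subring.mul_mem _ this hpi
  have h2 : (2 : ℂ) ∈ Rint 5 := by
    have := natCast_mem_Rint (ℓ := 5) 2
    rwa [Nat.cast_ofNat] at this
  have hc := c5_conjS_g h5p hg j
  have h1 := c5_scong_smul h12 (c5_scong_thetaPS hc)
  rw [c5_thetaPS_C, smul_zero] at h1
  have hE : PowerSeries.expand p (NeZero.ne p) (E6Z.map (Int.castRingHom ℂ)) ∈ Sint 5 :=
    (expand_mem_Sint_iff _).mpr c5_e6PS_mem_Sint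
  have h3 := c5_scong_smul h2 (((c5_scong_E2Z_E6Z).expand (NeZero.ne p)).mul hc hE hK)
  have h4 := h1.sub h3
  have e : (0 : PowerSeries ℂ) - (2 : ℂ) • (PowerSeries.expand p (NeZero.ne p)
      (E6Z.map (Int.castRingHom ℂ)) * C (-(p : ℂ)⁻¹ * (u : ℂ))) =
      PowerSeries.expand p (NeZero.ne p)
        (C (2 * (p : ℂ)⁻¹ * (u : ℂ)) * E6Z.map (Int.castRingHom ℂ)) := by
    have e1 : PowerSeries.expand p (NeZero.ne p)
        (C (2 * (p : ℂ)⁻¹ * (u : ℂ)) * E6Z.map (Int.castRingHom ℂ)) =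
        C (2 * (p : ℂ)⁻¹ * (u : ℂ)) * PowerSeries.expand p (NeZero.ne p)
          (E6Z.map (Int.castRingHom ℂ)) := by
      rw [map_mul, PowerSeries.expand_C]
    rw [e1, smul_eq_C_mul]
    simp only [map_mul, map_neg]
    ring
  rwa [e] at h4


/-- **case (c5)**: no weight-two form of prime level `p ∉ {2, 5}` is congruent to a unit constant
modulo `5`. -/
theorem c5_noCong_five (h5p : ¬ 5 ∣ p) (hp2 : p ≠ 2) : NoCong p 5 1 := by
  intro g u Z hu hg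
  have hp : p.Prime := Fact.out
  haveI : NeZero p := ⟨hp.ne_zero⟩
  have hg' := c5_qExpansion_eq hg
  have hpi : (p : ℂ)⁻¹ ∈ Rint 5 := c5_inv_p_mem_Rint h5p
  have h2 : (2 : ℂ) ∈ Rint 5 := by
    have := natCast_mem_Rint (ℓ := 5) 2
    rwa [Nat.cast_ofNat] at this
  have hu' : (u : ℂ) ∈ Rint 5 := intCast_mem_Rint u
  have hc1 : -2 * (u : ℂ) ∈ Rint 5 := Subring.mul_mem _ (Subring.neg_mem _ h2) hu'
  have hc2 : 2 * (p : ℂ)⁻¹ * (u : ℂ) ∈ Rint 5 := Subring.mul_mem _ (Subring.mul_mem _ h2 hpi) hu'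
  have hψ₀ : C (-2 * (u : ℂ)) * E6Z.map (Int.castRingHom ℂ) ∈ Sint 5 :=
    Subring.mul_mem _ (C_mem_Sint hc1) c5_e6PS_mem_Sint
  have hψ : C (2 * (p : ℂ)⁻¹ * (u : ℂ)) * E6Z.map (Int.castRingHom ℂ) ∈ Sint 5 :=
    Subring.mul_mem _ (C_mem_Sint hc2) c5_e6PS_mem_Sint
  have hn := norm_scong (thetaForm g) hψ₀ hψ (c5_theta g hg')
    (fun j => c5_conjS_theta h5p g hg' j)
  -- the norm as a form of natural weight
  have hw : (4 : ℤ) * (Nat.card (Quo p) : ℤ) = ((4 * (p + 1) : ℕ) : ℤ) := by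
    rw [card_Quo]; push_cast; ring
  let NF : ModularForm 𝒮ℒ ((4 * (p + 1) : ℕ) : ℤ) :=
    ModularForm.mcast hw (ModularForm.norm 𝒮ℒ (thetaForm g))
  have hNF : qExpansion 1 ⇑NF = qExpansion 1 ⇑(ModularForm.norm 𝒮ℒ (thetaForm g)) := rfl
  set c₀ : ℂ := -2 * (u : ℂ) * (2 * (p : ℂ)⁻¹ * (u : ℂ)) ^ p with hc₀
  have hc₀R : c₀ ∈ Rint 5 := Subring.mul_mem _ hc1 (Subring.pow_mem _ hc2 p)
  have e : C (-2 * (u : ℂ)) * E6Z.map (Int.castRingHom ℂ) *
      (C (2 * (p : ℂ)⁻¹ * (u : ℂ)) * E6Z.map (Int.castRingHom ℂ)) ^ p =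
      C c₀ * e6PS ^ (p + 1) := by
    rw [e6PS_eq_map, hc₀]
    simp only [map_mul, map_pow]
    ring
  rw [e, ← hNF] at hn
  -- `p` is odd
  obtain ⟨M, hM⟩ : ∃ M, p + 1 = 2 * M := by
    rcases hp.eq_two_or_odd with h | h
    · exact absurd h hp2
    · exact ⟨(p + 1) / 2, by omega⟩
  have hM0 : 1 ≤ M := by omega
  obtain ⟨x, hx, hxe⟩ := c5_levelOne hM hM0 NF hc₀R hn
  -- clear the denominators
  have hp0 : (p : ℂ) ≠ 0 := by exact_mod_cast hp.ne_zero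
  have key : (((-(2 * u) ^ (p + 1) * (-1728) ^ M : ℤ)) : ℂ) =
      ((5 : ℕ) : ℂ) * ((p : ℂ) ^ p * x) := by
    have h3 : (p : ℂ) ^ p * c₀ = -(2 * (u : ℂ)) ^ (p + 1) := by
      rw [hc₀, mul_pow, mul_pow, inv_pow]
      field_simp
      ring
    push_cast
    rw [← h3]
    linear_combination (p : ℂ) ^ p * hxe
  have hd := dvd_of_intCast_eq_mul (ℓ := 5)
    (Subring.mul_mem _ (Subring.pow_mem _ (natCast_mem_Rint p) p) hx) key
  have hpr : Prime (5 : ℤ) := by norm_num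
  have hd' : (5 : ℤ) ∣ -(2 * u) ^ (p + 1) * (-1728) ^ M := by exact_mod_cast hd
  rcases hpr.dvd_or_dvd hd' with h | h
  · rw [dvd_neg] at h
    have h4 := hpr.dvd_of_dvd_pow h
    rcases hpr.dvd_or_dvd h4 with h5 | h5
    · norm_num at h5
    · exact hu h5
  · have h4 := hpr.dvd_of_dvd_pow h
    norm_num at h4

end Level

end Five

end Fermat.Agent.S16
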