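/-
S16, case (a) (helper9): **`NoCong p ℓ 1` for primes `ℓ ≥ 7`, `ℓ ≠ p`, `ℓ ∣ p + 1`.**

With `G = g/u ≡ 1 mod ℓ`, the weight-four form `Ψ := G² − E₄` is `≡ −240 Σ σ₃(n) qⁿ`, and so are all
its conjugates (`−1/p ≡ 1 mod ℓ`); hence the norm of `Ψ`, of weight `4 (p + 1)`, has order `p + 1`
modulo `ℓ`, contradicting Sturm's bound (helper4's `norm_sturm_contra`).
-/
import Mathlib
import Fermat.Agent.S16.CASE_helper4_Kit

set_option autoImplicit false

noncomputable section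

namespace Fermat.Agent.S16

open PowerSeries CongruenceSubgroup UpperHalfPlane ModularForm
open scoped MatrixGroups ModularForm

variable {p : ℕ} [Fact p.Prime]

/-- the form `Ψ = G² − E₄` of weight `4` on `Γ₀(p)`. -/
def caPsi (G : ModularForm (Gamma0 p) 2) : ModularForm (Gamma0 p) ((4 : ℕ) : ℤ) :=
  ModularForm.mcast (by norm_num) (G.mul G) - ModularForm.mcast (by norm_num) (resL1 p E₄)

theorem qExpansion_caPsi (G : ModularForm (Gamma0 p) 2) :
    qExpansion 1 ⇑(caPsi G) = qExpansion 1 ⇑G * qExpansion 1 ⇑G - e4PS := by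
  have hp : p.Prime := Fact.out
  haveI : NeZero p := ⟨hp.ne_zero⟩
  rw [caPsi, FunLike.coe_sub, ModularForm.qExpansion_sub one_pos (one_mem_strictPeriods_G0 p),
    ModularForm.qExpansion_mcast, ModularForm.qExpansion_mcast,
    ModularForm.qExpansion_mul one_pos (one_mem_strictPeriods_G0 p), qExpansion_resL1]
  rfl

theorem conjS_caPsi (G : ModularForm (Gamma0 p) 2) (j : ℕ) :
    conjS (caPsi G) j = conjS G j * conjS G j - PowerSeries.expand p (NeZero.ne p) e4PS := by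
  have hp : p.Prime := Fact.out
  rw [caPsi, conjS_sub, conjS_mcast, conjS_mcast, conjS_mul, conjS_resL1]
  rfl

/-- `(1 + ℓ H)² − (1 + 240 σ) ≡ −240 σ mod ℓ`. -/
theorem ca_scong {ℓ : ℕ} [Fact ℓ.Prime] {A H E σ : PowerSeries ℂ} (hH : H ∈ Sint ℓ)
    (hA : A = 1 + C ((ℓ : ℂ) ^ 1) * H) (hE : E = 1 + C (240 : ℂ) * σ) :
    SCong ℓ 1 (A * A - E) (C (-240 : ℂ) * σ) := by
  refine ⟨2 • H + C ((ℓ : ℂ) ^ 1) * (H * H), ?_, ?_⟩
  · refine Subring.add_mem _ (nsmul_mem hH 2)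
      (Subring.mul_mem _ (C_mem_Sint (Subring.pow_mem _ (natCast_mem_Rint ℓ) 1))
        (Subring.mul_mem _ hH hH))
  · rw [hA, hE, smul_eq_C_mul, map_neg, nsmul_eq_mul]
    push_cast
    ring

/-- **case (a)**. -/
theorem noCong_of_dvd_succ {ℓ : ℕ} (hℓ : ℓ.Prime) (h7 : 7 ≤ ℓ) (hℓp : ℓ ≠ p)
    (hdvd : ℓ ∣ p + 1) : NoCong p ℓ 1 := by
  haveI : Fact ℓ.Prime := ⟨hℓ⟩
  have hp : p.Prime := Fact.out
  haveI : NeZero p := ⟨hp.ne_zero⟩
  intro g u Z hu hg
  obtain ⟨G, H, hH, hG⟩ := exists_normalised (ℓ := ℓ) (s := 1) g u Z hu hg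
  have hψ : C (-240 : ℂ) * sigmaPS 3 ∈ Sint ℓ := by
    have h240 : (-240 : ℂ) ∈ Rint ℓ := by
      have := intCast_mem_Rint (ℓ := ℓ) (-240)
      rwa [Int.cast_neg, Int.cast_ofNat] at this
    exact Subring.mul_mem _ (C_mem_Sint h240) (sigmaPS_mem ℓ 3)
  have hψ0 : coeff 0 (C (-240 : ℂ) * sigmaPS 3) = 0 := by
    rw [coeff_C_mul, coeff_zero_sigmaPS, mul_zero]
  have hψ1 : coeff 1 (C (-240 : ℂ) * sigmaPS 3) = ((-240 : ℤ) : ℂ) := by
    rw [coeff_C_mul, coeff_one_sigmaPS, mul_one]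
    norm_num
  have hm : ¬ (ℓ : ℤ) ∣ (-240 : ℤ) := by
    intro h
    have h1 : ℓ ∣ 240 := by
      have := Int.natCast_dvd.mp h
      simpa using this
    have h2 : ℓ ≤ 240 := Nat.le_of_dvd (by norm_num) h1
    have h3 : ℓ ∣ 2 ^ 4 * 3 * 5 := by norm_num; exact h1
    rcases (Nat.Prime.dvd_mul hℓ).mp h3 with h4 | h4
    · rcases (Nat.Prime.dvd_mul hℓ).mp h4 with h5 | h5
      · have := (Nat.prime_dvd_prime_iff_eq hℓ Nat.prime_two).mp (hℓ.dvd_of_dvd_pow h5)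
        omega
      · have := (Nat.prime_dvd_prime_iff_eq hℓ Nat.prime_three).mp h5
        omega
    · have := (Nat.prime_dvd_prime_iff_eq hℓ Nat.prime_five).mp h4
      omega
  have hF : SCong ℓ 1 (qExpansion 1 ⇑(caPsi G)) (C (-240 : ℂ) * sigmaPS 3) := by
    rw [qExpansion_caPsi]
    exact ca_scong hH hG e4PS_eq
  have hconj : ∀ j : Fin p, SCong ℓ 1 (conjS (caPsi G) j)
      (PowerSeries.expand p (NeZero.ne p) (C (-240 : ℂ) * sigmaPS 3)) := by
    intro j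
    obtain ⟨Hj, hHj, hGj⟩ := exists_conj_normalised (s := 1) hℓp (by rwa [pow_one]) G H hH hG j
    rw [conjS_caPsi, map_mul, PowerSeries.expand_C]
    refine ca_scong hHj hGj ?_
    rw [e4PS_eq, map_add, map_one, map_mul, PowerSeries.expand_C]
  exact norm_sturm_contra sturmModStatement (k := 4) (by norm_num) (caPsi G) le_rfl hψ hψ0 hψ1 hm
    hF hconj

end Fermat.Agent.S16
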