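/-
S16, package LB-X (helper9): **the Eisenstein homomorphism mod `m`**.
For `p` prime and `m ∣ n = (p - 1) / gcd(p - 1, 12)`:
`x : Γ₀(p) → ℤ/m`, `γ ↦ χ(upper left entry of γ mod p)` where `χ : (ℤ/p)ˣ → ℤ/m` is a surjective
homomorphism killing the `12`-torsion.  It is surjective, kills the parabolic elements and the
elements of order dividing `12`, and is an eigenvector of all Hecke operators with the Eisenstein
eigenvalues `1 + q` (`q ≠ p`) and `1` (`q = p`).
-/
import Mathlib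
import Fermat.Prelude.Def_HeckeGalois_EichlerShimura
import Fermat.Prelude.Def_ModularCurve_ModularUnit
import Fermat.Agent.GR.MULT1_helper2_Ops
import Fermat.Agent.S16.LB_helper9_TFBound

set_option autoImplicit false
set_option linter.unusedSectionVars false

namespace Fermat.Agent.S16

open CongruenceSubgroup MatrixGroups Matrix ModularCurve ModularCurve.Period
open Fermat.Agent.GR

/-! ### Arithmetic -/

theorem div_gcd_dvd_of_dvd_mul {c a : ℕ} (hc : 0 < c) (h : c ∣ 12 * a) :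
    c / Nat.gcd c 12 ∣ a := by
  set g := Nat.gcd c 12 with hg
  have hgpos : 0 < g := Nat.gcd_pos_of_pos_left _ hc
  have h1 : c = g * (c / g) := (Nat.mul_div_cancel' (Nat.gcd_dvd_left c 12)).symm
  have h2 : 12 = g * (12 / g) := (Nat.mul_div_cancel' (Nat.gcd_dvd_right c 12)).symm
  have hcop : Nat.Coprime (c / g) (12 / g) := Nat.coprime_div_gcd_div_gcd hgpos
  have h3 : g * (c / g) ∣ g * ((12 / g) * a) := by
    rw [← mul_assoc, ← h2, ← h1]
    exact h
  have h4 : c / g ∣ (12 / g) * a := (Nat.mul_dvd_mul_iff_left hgpos).mp h3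
  exact hcop.dvd_of_dvd_mul_left h4

/-! ### The character `χ` -/

section Chi

variable (p : ℕ) [Fact p.Prime]

theorem natCard_additive_units : Nat.card (Additive (ZMod p)ˣ) = p - 1 := by
  rw [show Nat.card (Additive (ZMod p)ˣ) = Nat.card (ZMod p)ˣ from rfl, Nat.card_eq_fintype_card,
    ZMod.card_units]

variable {p} in
theorem dvd_natCard_of_dvd_eisensteinNumerator {m : ℕ} (hm : m ∣ eisensteinNumerator p) :
    m ∣ Nat.card (Additive (ZMod p)ˣ) := by
  rw [natCard_additive_units]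
  exact dvd_trans hm (eisensteinNumerator_dvd p)

/-- the discrete logarithm `(ℤ/p)ˣ ≃ ℤ/(p-1)`. -/
noncomputable def dlogEquiv : ZMod (Nat.card (Additive (ZMod p)ˣ)) ≃+ Additive (ZMod p)ˣ :=
  zmodAddCyclicAddEquiv (G := Additive (ZMod p)ˣ) inferInstance

variable {p}

/-- a surjective character `(ℤ/p)ˣ → ℤ/m` killing the `12`-torsion. -/
noncomputable def chiAdd {m : ℕ} (hm : m ∣ eisensteinNumerator p) : Additive (ZMod p)ˣ →+ ZMod m :=
  (ZMod.castHom (dvd_natCard_of_dvd_eisensteinNumerator hm) (ZMod m)).toAddMonoidHom.comp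
    (dlogEquiv p).symm.toAddMonoidHom

theorem chiAdd_surjective {m : ℕ} (hm : m ∣ eisensteinNumerator p) :
    Function.Surjective (chiAdd hm) := by
  have h1 : Function.Surjective
      (ZMod.castHom (dvd_natCard_of_dvd_eisensteinNumerator hm) (ZMod m)) :=
    ZMod.castHom_surjective _
  exact h1.comp (dlogEquiv p).symm.surjective

theorem chiAdd_eq_zero_of_pow_eq_one {m : ℕ} (hm : m ∣ eisensteinNumerator p) (u : (ZMod p)ˣ)
    (hu : u ^ 12 = 1) : chiAdd hm (Additive.ofMul u) = 0 := by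
  have hp : p.Prime := Fact.out
  set c := Nat.card (Additive (ZMod p)ˣ) with hc
  have hc' : c = p - 1 := natCard_additive_units p
  have hcpos : 0 < c := by
    rw [hc']
    have := hp.two_le
    omega
  set z : ZMod c := (dlogEquiv p).symm (Additive.ofMul u) with hz
  have h1 : (12 : ℕ) • z = 0 := by
    rw [hz, ← map_nsmul, ← ofMul_pow, hu, ofMul_one, map_zero]
  haveI : NeZero c := ⟨hcpos.ne'⟩
  obtain ⟨a, ha⟩ : ∃ a : ℕ, (a : ZMod c) = z := ⟨z.val, ZMod.natCast_zmod_val z⟩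
  have h2 : c ∣ 12 * a := by
    rw [← ZMod.natCast_eq_zero_iff]
    rw [← ha, nsmul_eq_mul] at h1
    exact_mod_cast h1
  have h3 : c / Nat.gcd c 12 ∣ a := div_gcd_dvd_of_dvd_mul hcpos h2
  have h4 : m ∣ a := by
    refine dvd_trans hm ?_
    rw [eisensteinNumerator, ← hc']
    exact h3
  show ZMod.castHom (dvd_natCard_of_dvd_eisensteinNumerator hm) (ZMod m) z = 0
  rw [← ha, map_natCast, ZMod.natCast_eq_zero_iff]
  exact h4

end Chi

/-! ### The upper left entry -/

section UL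

variable (p : ℕ) [Fact p.Prime]

theorem ul_mul_lr (γ : Gamma0 p) :
    (((γ : SL(2, ℤ)) 0 0 : ℤ) : ZMod p) * (((γ : SL(2, ℤ)) 1 1 : ℤ) : ZMod p) = 1 := by
  have h1 := SL2_det_eq (γ : SL(2, ℤ))
  have h2 : ((((γ : SL(2, ℤ)) 1 0 : ℤ)) : ZMod p) = 0 := Gamma0_mem.mp γ.2
  have h3 := congrArg (Int.cast : ℤ → ZMod p) h1
  push_cast at h3
  rw [h2, mul_zero, sub_zero] at h3
  exact h3

/-- the upper left entry mod `p`, as a homomorphism `Γ₀(p) → (ℤ/p)ˣ`. -/
noncomputable def ulUnit : Gamma0 p →* (ZMod p)ˣ where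
  toFun γ := Units.mkOfMulEqOne _ _ (ul_mul_lr p γ)
  map_one' := by
    apply Units.ext
    simp
  map_mul' γ δ := by
    apply Units.ext
    have h2 : ((((δ : SL(2, ℤ)) 1 0 : ℤ)) : ZMod p) = 0 := Gamma0_mem.mp δ.2
    simp only [Units.val_mkOfMulEqOne, Units.val_mul, Subgroup.coe_mul,
      Matrix.SpecialLinearGroup.coe_mul, Matrix.mul_apply, Fin.sum_univ_two]
    push_cast
    rw [h2, mul_zero, add_zero]

@[simp] theorem val_ulUnit (γ : Gamma0 p) :
    ((ulUnit p γ : (ZMod p)ˣ) : ZMod p) = (((γ : SL(2, ℤ)) 0 0 : ℤ) : ZMod p) := rfl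

theorem ulUnit_surjective : Function.Surjective (ulUnit p) := by
  have hp : p.Prime := Fact.out
  intro u
  have hcop : Nat.Coprime (u : ZMod p).val p := ZMod.val_coe_unit_coprime u
  have hcop' : IsCoprime (((u : ZMod p).val : ℕ) : ℤ) (p : ℤ) := Nat.isCoprime_iff_coprime.mpr hcop
  obtain ⟨s, t, hst⟩ := hcop'
  set a : ℤ := (((u : ZMod p).val : ℕ) : ℤ) with ha
  let g : SL(2, ℤ) := ⟨!![a, -t; (p : ℤ), s], by
    rw [Matrix.det_fin_two_of]
    linarith⟩
  have hg : g ∈ Gamma0 p := by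
    rw [Gamma0_mem]
    show (((p : ℤ)) : ZMod p) = 0
    simp
  refine ⟨⟨g, hg⟩, ?_⟩
  apply Units.ext
  rw [val_ulUnit]
  show ((a : ℤ) : ZMod p) = u
  rw [ha]
  simp

theorem ulUnit_sq_eq_one_of_trace {γ : Gamma0 p}
    (hγ : ((γ : SL(2, ℤ)) : Matrix (Fin 2) (Fin 2) ℤ).trace ^ 2 = 4) : ulUnit p γ ^ 2 = 1 := by
  have hp : p.Prime := Fact.out
  apply Units.ext
  rw [Units.val_pow_eq_pow_val, val_ulUnit, Units.val_one]
  set a : ZMod p := (((γ : SL(2, ℤ)) 0 0 : ℤ) : ZMod p) with ha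
  set d : ZMod p := (((γ : SL(2, ℤ)) 1 1 : ℤ) : ZMod p) with hd
  have had : a * d = 1 := ul_mul_lr p γ
  rw [Matrix.trace_fin_two] at hγ
  have h1 := congrArg (Int.cast : ℤ → ZMod p) hγ
  push_cast at h1
  rw [← ha, ← hd] at h1
  -- `(a + d)² = 4`, `a d = 1` ⟹ `(a - d)² = 0` ⟹ `a = d` ⟹ `a² = 1`
  have h2 : (a - d) ^ 2 = 0 := by linear_combination h1 - 4 * had
  have h3 : a = d := sub_eq_zero.mp ((pow_eq_zero_iff (two_ne_zero)).mp h2)
  rw [pow_two]
  rw [← h3] at had
  exact had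

end UL

/-! ### The Eisenstein homomorphism -/

section X

variable {p : ℕ} [Fact p.Prime] {m : ℕ} (hm : m ∣ eisensteinNumerator p)

/-- **the Eisenstein homomorphism** `x : Γ₀(p) → ℤ/m`. -/
noncomputable def eisHom : Additive (Gamma0 p) →+ ZMod m :=
  (chiAdd hm).comp (MonoidHom.toAdditive (ulUnit p))

theorem eisHom_apply (γ : Gamma0 p) :
    eisHom hm (Additive.ofMul γ) = chiAdd hm (Additive.ofMul (ulUnit p γ)) := rfl

theorem eisHom_surjective : Function.Surjective (eisHom hm) := by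
  intro z
  obtain ⟨u, hu⟩ := chiAdd_surjective hm z
  obtain ⟨γ, hγ⟩ := ulUnit_surjective p (Additive.toMul u)
  refine ⟨Additive.ofMul γ, ?_⟩
  rw [eisHom_apply, hγ]
  exact hu

/-- `x` kills the parabolic elements and the elements of order dividing `12`. -/
theorem eisHom_kills : ∀ γ ∈ parTorSet (Gamma0 p), eisHom hm (Additive.ofMul γ) = 0 := by
  rintro γ (hγ | hγ)
  · rw [eisHom_apply]
    apply chiAdd_eq_zero_of_pow_eq_one
    have h1 := ulUnit_sq_eq_one_of_trace p hγ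
    rw [show 12 = 2 * 6 by norm_num, pow_mul, h1, one_pow]
  · rw [eisHom_apply]
    apply chiAdd_eq_zero_of_pow_eq_one
    rw [← map_pow, hγ, map_one]

end X

end Fermat.Agent.S16
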