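/-
S16, package LB-X (helper9), part 2: **the Eisenstein homomorphism `x : Γ₀(p) → ℤ/m` is an
eigenvector of all Hecke operators, with the Eisenstein eigenvalues.**
-/
import Mathlib
import Fermat.Agent.S16.LB_helper9_X

set_option autoImplicit false
set_option linter.unusedSectionVars false

namespace Fermat.Agent.S16

open CongruenceSubgroup MatrixGroups Matrix ModularCurve ModularCurve.Period
open Fermat.Agent.GR

/-- **telescoping**: if `ψ(γᵢ) = cᵢ + ψ(γ) - c_{σ(i)}` for the cocycle `αᵢ γ = γᵢ α_{σ(i)}` of a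
Hecke datum, then `T ψ = (number of cosets) • ψ`. -/
theorem heckeGrp_eq_card_nsmul_of_telescope {Γ G ι : Type*} [Group Γ] [Group G] [Fintype ι]
    (D : HeckeDatum Γ G ι) {A : Type*} [AddCommGroup A] (ψ : Additive Γ →+ A) (c : ι → A)
    (h : ∀ γ i, ψ (Additive.ofMul (D.cocycle γ i)) =
      c i + ψ (Additive.ofMul γ) - c (D.perm γ i)) :
    D.heckeGrp A ψ = Fintype.card ι • ψ := by
  refine AddMonoidHom.ext fun γ => ?_
  obtain ⟨γ, rfl⟩ := Additive.ofMul.surjective γ
  rw [HeckeDatum.heckeGrp_apply]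
  simp only [h, AddMonoidHom.coe_smul, Pi.smul_apply]
  rw [Finset.sum_sub_distrib, Finset.sum_add_distrib]
  have h1 : ∑ i, c (D.perm γ i) = ∑ i, c i := Equiv.sum_comp (D.permEquiv γ) c
  rw [h1, Finset.sum_const, Finset.card_univ]
  abel

variable {p : ℕ} [Fact p.Prime]

/-- the relation between the upper left entries in `αᵢ γ = δ αⱼ`. -/
theorem ul_cocycle_rel {q : ℕ} (hq : q ≠ 0) (i j : Option (Fin q)) (γ δ : Gamma0 p)
    (h : heckeRep q i * gammaEmb p γ = gammaEmb p δ * heckeRep q j) :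
    ((repA q i : ℤ) : ZMod p) * ((ulUnit p γ : (ZMod p)ˣ) : ZMod p) =
      ((ulUnit p δ : (ZMod p)ˣ) : ZMod p) * ((repA q j : ℤ) : ZMod p) := by
  rw [gammaEmb_apply, gammaEmb_apply, heckeRep_mul_eq_iff hq, heckeRepZ, heckeRepZ,
    utZ_mul_eq_iff] at h
  obtain ⟨h00, -, -, -⟩ := h
  have h2 : ((((γ : SL(2, ℤ)) 1 0 : ℤ)) : ZMod p) = 0 := Gamma0_mem.mp γ.2
  have h3 := congrArg (Int.cast : ℤ → ZMod p) h00
  push_cast at h3
  rw [h2, mul_zero, add_zero] at h3
  rw [val_ulUnit, val_ulUnit]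
  exact h3

variable {m : ℕ} (hm : m ∣ eisensteinNumerator p)

/-- the units `repA q i mod p` for `q ≠ p`. -/
noncomputable def repAUnit (q : Nat.Primes) (hq : ¬ (q : ℕ) ∣ p) : Option (Fin (q : ℕ)) → (ZMod p)ˣ
  | none => ZMod.unitOfCoprime (q : ℕ)
      ((Nat.coprime_primes q.2 (Fact.out : p.Prime)).mpr fun h => hq (h ▸ dvd_rfl))
  | some _ => 1

theorem val_repAUnit (q : Nat.Primes) (hq : ¬ (q : ℕ) ∣ p) (i : Option (Fin (q : ℕ))) :
    ((repAUnit q hq i : (ZMod p)ˣ) : ZMod p) = ((repA (q : ℕ) i : ℤ) : ZMod p) := by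
  cases i with
  | none =>
    rw [repAUnit, ZMod.coe_unitOfCoprime, repA]
    simp
  | some b =>
    rw [repAUnit, repA]
    simp

/-- **`T_q x = (1 + q) x`** for `q ≠ p`. -/
theorem heckeGrpP_eisHom_of_not_dvd (q : Nat.Primes) (hq : ¬ (q : ℕ) ∣ p) :
    heckeGrpP p q (ZMod m) (eisHom hm) = (1 + ((q : ℕ) : ℤ)) • eisHom hm := by
  rw [heckeGrpP_of_not_dvd (ZMod m) hq]
  have key := heckeGrp_eq_card_nsmul_of_telescope (heckeDatumT p q q.2 hq) (eisHom hm)
    (fun i => chiAdd hm (Additive.ofMul (repAUnit q hq i))) (by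
      intro γ i
      have h1 := (heckeDatumT p q q.2 hq).spec γ i
      have h2 := ul_cocycle_rel q.2.ne_zero i _ γ _ h1
      rw [← val_repAUnit q hq, ← val_repAUnit q hq, ← Units.val_mul, ← Units.val_mul] at h2
      have h3 : ulUnit p ((heckeDatumT p q q.2 hq).cocycle γ i) =
          repAUnit q hq i * ulUnit p γ * (repAUnit q hq ((heckeDatumT p q q.2 hq).perm γ i))⁻¹ := by
        rw [eq_mul_inv_iff_mul_eq]
        exact (Units.ext h2).symm
      rw [eisHom_apply, eisHom_apply, h3, ofMul_mul, ofMul_mul, ofMul_inv, map_add, map_add,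
        map_neg]
      abel)
  rw [key, Fintype.card_option, Fintype.card_fin]
  rw [← natCast_zsmul]
  congr 1
  push_cast
  ring

include hm in
theorem natCast_self_eq_one : ((p : ℕ) : ZMod m) = 1 := by
  have hp : p.Prime := Fact.out
  have h1 : m ∣ p - 1 := dvd_trans hm (eisensteinNumerator_dvd p)
  have h2 : ((p - 1 : ℕ) : ZMod m) = 0 := (ZMod.natCast_eq_zero_iff _ _).mpr h1
  have h3 : p = (p - 1) + 1 := by
    have := hp.one_le
    omega
  rw [h3]
  push_cast
  rw [h2, zero_add]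

/-- **`U_p x = x`**. -/
theorem heckeGrpP_eisHom_of_dvd (q : Nat.Primes) (hq : (q : ℕ) ∣ p) :
    heckeGrpP p q (ZMod m) (eisHom hm) = eisHom hm := by
  have hp : p.Prime := Fact.out
  have hqp : (q : ℕ) = p := (Nat.prime_dvd_prime_iff_eq q.2 hp).mp hq
  rw [heckeGrpP_of_dvd (ZMod m) hq]
  have key := heckeGrp_eq_card_nsmul_of_telescope (heckeDatumU p q q.2 hq) (eisHom hm)
    (fun _ => 0) (by
      intro γ b
      have h1 := (heckeDatumU p q q.2 hq).spec γ b
      have h2 := ul_cocycle_rel q.2.ne_zero (some b) (some _) γ _ h1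
      simp only [repA, Int.cast_one, one_mul, mul_one] at h2
      have h3 : ulUnit p ((heckeDatumU p q q.2 hq).cocycle γ b) = ulUnit p γ :=
        (Units.ext h2).symm
      rw [eisHom_apply, eisHom_apply, h3]
      simp)
  rw [key, Fintype.card_fin, hqp]
  refine AddMonoidHom.ext fun γ => ?_
  rw [AddMonoidHom.coe_smul, Pi.smul_apply, nsmul_eq_mul, natCast_self_eq_one hm, one_mul]

/-- **`x` is an eigenvector of all Hecke operators with the Eisenstein eigenvalues.** -/
theorem heckeGrpP_eisHom (q : Nat.Primes) :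
    heckeGrpP p q (ZMod m) (eisHom hm) = eisensteinSystem p q • eisHom hm := by
  by_cases hq : (q : ℕ) ∣ p
  · rw [heckeGrpP_eisHom_of_dvd hm q hq, eisensteinSystem_of_dvd hq, one_smul]
  · rw [heckeGrpP_eisHom_of_not_dvd hm q hq, eisensteinSystem_of_not_dvd hq]

end Fermat.Agent.S16
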