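/-
S16, packages LB-REL + LB-FIN (helper9): **the lower bound (C1)**:
every Hecke relation `ρ(t) = 0` has Eisenstein value `ε(t)` divisible by
`n = (p - 1) / gcd(p - 1, 12)`; hence there is a cusp form congruent to the Eisenstein series
modulo `n`.
-/
import Mathlib
import Fermat.Agent.GR.S16D_helper9_Main
import Fermat.Agent.S23
import Fermat.Agent.S16.LB_helper9_TFLift
import Fermat.Agent.S16.LB_helper9_XHecke

set_option autoImplicit false
set_option linter.unusedSectionVars false

namespace Fermat.Agent.S16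

open CongruenceSubgroup MatrixGroups Matrix ModularCurve ModularCurve.Period CuspForm
open Fermat.Agent.GR

variable (p : ℕ) [Fact p.Prime]

theorem heckeActP_gen_eq_heckeOpP (l : Nat.Primes) : heckeActP p (heckeGen l) = heckeOpP p l := by
  by_cases h : (l : ℕ) ∣ p
  · rw [heckeActP_gen_of_dvd p h, heckeOpP_of_dvd h]
  · rw [heckeActP_gen_of_not_dvd p h, heckeOpP_of_not_dvd h]

/-- **(LB-REL)** transport of a Hecke polynomial through the three coefficient groups `ℤ`, `ℂ`,
`ℤ/m`, without using the commutativity of the Hecke operators on `Hom(Γ₀(p), A)`. -/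
theorem exists_heckeTransport (m : ℕ) (t : HeckeAlg) :
    ∀ ψ : Additive (Gamma0 p) →+ ℤ, ∃ ψ' : Additive (Gamma0 p) →+ ℤ,
      (∀ f g : CuspForm (Gamma0 p) 2,
        (Int.castAddHom ℂ).comp ψ = periodHomPair p (f, g) →
        (Int.castAddHom ℂ).comp ψ' = periodHomPair p (heckeActP p t f, heckeActP p t g)) ∧
      ((∀ l : Nat.Primes, heckeGrpP p l (ZMod m) ((Int.castAddHom (ZMod m)).comp ψ) =
          eisensteinSystem p l • (Int.castAddHom (ZMod m)).comp ψ) →
        (Int.castAddHom (ZMod m)).comp ψ' =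
          eisEval p t • (Int.castAddHom (ZMod m)).comp ψ) := by
  induction t using MvPolynomial.induction_on with
  | C a =>
    intro ψ
    refine ⟨a • ψ, ?_, ?_⟩
    · intro f g hfg
      have h1 : (Int.castAddHom ℂ).comp (a • ψ) = a • (Int.castAddHom ℂ).comp ψ := by
        refine AddMonoidHom.ext fun γ => ?_
        simp
      rw [h1, hfg, heckeActP_C_apply, heckeActP_C_apply, ← map_zsmul]
      rfl
    · intro _
      rw [eisEval_C]
      refine AddMonoidHom.ext fun γ => ?_
      simp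
  | add s t hs ht =>
    intro ψ
    obtain ⟨ψs, hs1, hs2⟩ := hs ψ
    obtain ⟨ψt, ht1, ht2⟩ := ht ψ
    refine ⟨ψs + ψt, ?_, ?_⟩
    · intro f g hfg
      have h1 : (Int.castAddHom ℂ).comp (ψs + ψt) =
          (Int.castAddHom ℂ).comp ψs + (Int.castAddHom ℂ).comp ψt := by
        refine AddMonoidHom.ext fun γ => ?_
        simp
      rw [h1, hs1 f g hfg, ht1 f g hfg, heckeActP_add, ← map_add]
      rfl
    · intro hev
      have h1 : (Int.castAddHom (ZMod m)).comp (ψs + ψt) =
          (Int.castAddHom (ZMod m)).comp ψs + (Int.castAddHom (ZMod m)).comp ψt := by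
        refine AddMonoidHom.ext fun γ => ?_
        simp
      rw [h1, hs2 hev, ht2 hev, map_add, add_smul]
  | mul_X t l ht =>
    intro ψ
    obtain ⟨ψ', h1, h2⟩ := ht (heckeGrpP p l ℤ ψ)
    refine ⟨ψ', ?_, ?_⟩
    · intro f g hfg
      have h3 : (Int.castAddHom ℂ).comp (heckeGrpP p l ℤ ψ) =
          periodHomPair p (heckeOpP p l f, heckeOpP p l g) := by
        rw [← heckeGrpP_comp, hfg, periodHomPair_heckeOpP]
      have h4 := h1 _ _ h3
      rw [h4, heckeActP_mul]
      have h5 : heckeActP p (MvPolynomial.X l) = heckeOpP p l := heckeActP_gen_eq_heckeOpP p l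
      rw [h5]
      rfl
    · intro hev
      have h3 : (Int.castAddHom (ZMod m)).comp (heckeGrpP p l ℤ ψ) =
          eisensteinSystem p l • (Int.castAddHom (ZMod m)).comp ψ := by
        rw [← heckeGrpP_comp, hev l]
      have h4 : ∀ l' : Nat.Primes, heckeGrpP p l' (ZMod m)
          ((Int.castAddHom (ZMod m)).comp (heckeGrpP p l ℤ ψ)) =
          eisensteinSystem p l' • (Int.castAddHom (ZMod m)).comp (heckeGrpP p l ℤ ψ) := by
        intro l'
        rw [h3, map_zsmul, hev l', smul_comm]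
      rw [h2 h4, h3, map_mul, mul_smul]
      have h5 : eisEval p (MvPolynomial.X l) = eisensteinSystem p l := eisEval_gen p l
      rw [h5]

/-- a Hecke polynomial acting as zero on the integral lattice acts as zero on all cusp forms. -/
theorem heckeActP_eq_zero_of_heckeRho (t : HeckeAlg) (ht : heckeRho p t = 0) :
    heckeActP p t = 0 := by
  have hp : p.Prime := Fact.out
  haveI : NeZero p := ⟨hp.ne_zero⟩
  have hS23 : CuspForm.HasIntegralStructure p 2 := Fermat.Agent.S23.result p
  have h1 : Submodule.span ℂ ((intLattice p 2 : Submodule ℤ (CuspForm (Gamma0 p) 2)) :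
      Set (CuspForm (Gamma0 p) 2)) ≤ LinearMap.ker (heckeActP p t) := by
    rw [Submodule.span_le]
    intro f hf
    have h2 := heckeRho_apply_coe p t ⟨f, hf⟩
    rw [ht] at h2
    exact h2.symm
  rw [hS23] at h1
  exact LinearMap.ker_eq_top.mp (top_le_iff.mp h1)

/-- **(C1) at a prime power** `ℓ^k ∣ n`. -/
theorem primePow_dvd_eisEval (ℓ : ℕ) [Fact ℓ.Prime] (k : ℕ)
    (hm : ℓ ^ k ∣ eisensteinNumerator p) (t : HeckeAlg) (ht : heckeRho p t = 0) :
    ((ℓ ^ k : ℕ) : ℤ) ∣ eisEval p t := by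
  have hp : p.Prime := Fact.out
  haveI : NeZero p := ⟨hp.ne_zero⟩
  have hact := heckeActP_eq_zero_of_heckeRho p t ht
  -- the Eisenstein homomorphism and its integral parabolic lift
  obtain ⟨ψ, hψ, hxψ⟩ := exists_parabolic_lift p ℓ k (eisHom hm) (eisHom_kills hm)
  -- its complexification is a period pair
  have hψC : (Int.castAddHom ℂ).comp ψ ∈ parabolicHoms ℂ (Gamma0 p) ℂ :=
    comp_mem_parabolicHoms (R := ℤ) (S := ℂ) (Int.castAddHom ℂ) hψ
  obtain ⟨f, g, hfg⟩ := exists_periodHomPair_eq p hψC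
  obtain ⟨ψ', h1, h2⟩ := exists_heckeTransport p (ℓ ^ k) t ψ
  have h3 := h1 f g hfg.symm
  rw [hact] at h3
  have h4 : (Int.castAddHom ℂ).comp ψ' = 0 := by
    rw [h3]
    show periodHomPair p (0, 0) = 0
    exact map_zero _
  have h5 : ψ' = 0 := by
    refine AddMonoidHom.ext fun γ => ?_
    have h6 := DFunLike.congr_fun h4 γ
    have h7 : ((ψ' γ : ℤ) : ℂ) = 0 := h6
    exact_mod_cast h7
  have h8 := h2 (by
    intro l
    rw [← hxψ]
    exact heckeGrpP_eisHom hm l)
  rw [h5, ← hxψ] at h8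
  obtain ⟨γ, hγ⟩ := eisHom_surjective hm 1
  have h9 := DFunLike.congr_fun h8 γ
  rw [AddMonoidHom.coe_smul, Pi.smul_apply, hγ] at h9
  have h10 : ((eisEval p t : ℤ) : ZMod (ℓ ^ k)) = 0 := by
    rw [zsmul_eq_mul, mul_one] at h9
    rw [← h9]
    simp
  exact (ZMod.intCast_zmod_eq_zero_iff_dvd _ _).mp h10

/-- **(C1')**: every Hecke relation has Eisenstein value divisible by `n`. -/
theorem eisensteinNumerator_dvd_eisEval (t : HeckeAlg) (ht : heckeRho p t = 0) :
    (eisensteinNumerator p : ℤ) ∣ eisEval p t := by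
  rw [Int.natCast_dvd, Nat.dvd_iff_prime_pow_dvd_dvd]
  intro ℓ k hℓ hk
  haveI : Fact ℓ.Prime := ⟨hℓ⟩
  exact Int.natCast_dvd.mp (primePow_dvd_eisEval p ℓ k hk t ht)

/-- **(C1)**: there is a cusp form congruent to the Eisenstein series modulo `n`. -/
theorem exists_eisCong_eisensteinNumerator :
    ∃ f : CuspForm (Gamma0 p) 2, ∀ k : ℕ, 1 ≤ k → ∃ z : ℤ,
      ModularFormClass.qCoeff ⇑f k =
        (sigmaP p k : ℂ) + (eisensteinNumerator p : ℂ) * (z : ℂ) := by
  obtain ⟨f, -, hf⟩ := exists_eisCong_of_forall_dvd p (eisensteinNumerator p)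
    (eisensteinNumerator_dvd_eisEval p)
  refine ⟨f, fun k hk => ?_⟩
  obtain ⟨z, hz⟩ := hf k hk
  refine ⟨z, ?_⟩
  rw [hz]
  push_cast
  ring

end Fermat.Agent.S16
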