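import Mathlib.NumberTheory.ModularForms.NormTrace
import Mathlib.NumberTheory.ModularForms.CongruenceSubgroups
import Fermat.Prelude.Def_ModularForm_HeckeOperatorForms

/-!
# S16 / UB-W/TR, part 1: matrices and the coset decomposition `SL₂(ℤ) = Γ₀(p) ⊔ ⨆ⱼ Γ₀(p)·STʲ`
-/

set_option autoImplicit false

noncomputable section

namespace Fermat.Agent.S16

open Matrix Matrix.SpecialLinearGroup CongruenceSubgroup UpperHalfPlane ModularForm
open scoped MatrixGroups ModularForm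

/-- The matrix `S Tʲ = !![0, -1; 1, j]` in `SL(2, ℤ)`. -/
def stMat (j : ℤ) : SL(2, ℤ) := ⟨!![0, -1; 1, j], by simp [Matrix.det_fin_two_of]⟩

/-- The inverse `!![j, 1; -1, 0]` of `S Tʲ`. -/
def stInv (j : ℤ) : SL(2, ℤ) := ⟨!![j, 1; -1, 0], by simp [Matrix.det_fin_two_of]⟩

@[simp] theorem coe_stMat (j : ℤ) : (stMat j : Matrix (Fin 2) (Fin 2) ℤ) = !![0, -1; 1, j] := rfl

@[simp] theorem coe_stInv (j : ℤ) : (stInv j : Matrix (Fin 2) (Fin 2) ℤ) = !![j, 1; -1, 0] := rfl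

theorem stMat_mul_stInv (j : ℤ) : stMat j * stInv j = 1 := by
  ext a b
  rw [Matrix.SpecialLinearGroup.coe_mul]
  fin_cases a <;> fin_cases b <;> simp [Matrix.mul_apply, Fin.sum_univ_two]

theorem stInv_eq_inv (j : ℤ) : stInv j = (stMat j)⁻¹ :=
  eq_inv_of_mul_eq_one_right (stMat_mul_stInv j)

theorem stInv_mul_stMat (j : ℤ) : stInv j * stMat j = 1 := by
  rw [stInv_eq_inv, inv_mul_cancel]

theorem stMat_mul_stInv_apply (i j : ℤ) : (stMat i * stInv j) 1 0 = j - i := by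
  rw [Matrix.SpecialLinearGroup.coe_mul]
  simp [Matrix.mul_apply, Fin.sum_univ_two]
  ring

theorem mul_stInv_apply (g : SL(2, ℤ)) (j : ℤ) : (g * stInv j) 1 0 = g 1 0 * j - g 1 1 := by
  rw [Matrix.SpecialLinearGroup.coe_mul]
  simp [Matrix.mul_apply, Fin.sum_univ_two]
  ring

/-- Coset representatives of `SL(2, ℤ) / Γ₀(p)` (left cosets): `1` and the `(S Tʲ)⁻¹`. -/
def cosetRep (p : ℕ) : Option (Fin p) → SL(2, ℤ)
  | none => 1
  | some j => stInv (j : ℕ)

variable {p : ℕ}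

theorem cosetRep_inv_mul_mem_iff [Fact p.Prime] (a b : Option (Fin p)) :
    (cosetRep p a)⁻¹ * cosetRep p b ∈ Gamma0 p ↔ a = b := by
  have hp : p.Prime := Fact.out
  rcases a with _ | i <;> rcases b with _ | j
  · simp [cosetRep]
  · simp only [cosetRep, inv_one, one_mul, reduceCtorEq, iff_false]
    rw [Gamma0_mem]
    simp only [coe_stInv, Matrix.of_apply, Matrix.cons_val', Matrix.cons_val_one,
      Matrix.cons_val_zero, Matrix.cons_val_fin_one, Int.reduceNeg, Int.cast_neg, Int.cast_one,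
      neg_eq_zero]
    have : Fact (1 < p) := ⟨hp.one_lt⟩
    exact one_ne_zero
  · simp only [cosetRep, mul_one, reduceCtorEq, iff_false]
    rw [stInv_eq_inv, inv_inv, Gamma0_mem]
    simp only [coe_stMat, Matrix.of_apply, Matrix.cons_val', Matrix.cons_val_one,
      Matrix.cons_val_zero, Matrix.cons_val_fin_one, Int.cast_one]
    have : Fact (1 < p) := ⟨hp.one_lt⟩
    exact one_ne_zero
  · simp only [cosetRep, Option.some.injEq]
    rw [stInv_eq_inv, inv_inv, Gamma0_mem, stMat_mul_stInv_apply,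
      ZMod.intCast_zmod_eq_zero_iff_dvd]
    constructor
    · intro h
      have h1 : ((j : ℕ) : ℤ) ≡ ((i : ℕ) : ℤ) [ZMOD (p : ℤ)] :=
        (Int.modEq_iff_dvd.mpr (by simpa using h)).symm
      have h2 : (j : ℕ) ≡ (i : ℕ) [MOD p] := Int.natCast_modEq_iff.mp h1
      have := Nat.ModEq.eq_of_lt_of_lt h2 j.isLt i.isLt
      exact (Fin.ext this).symm
    · rintro rfl
      simp

theorem exists_cosetRep [Fact p.Prime] (g : SL(2, ℤ)) :
    ∃ a : Option (Fin p), (cosetRep p a)⁻¹ * g ∈ Gamma0 p := by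
  have hp : p.Prime := Fact.out
  by_cases hc : ((g⁻¹ : SL(2, ℤ)) 1 0 : ZMod p) = 0
  · refine ⟨none, ?_⟩
    simp only [cosetRep, inv_one, one_mul]
    have : g⁻¹ ∈ Gamma0 p := by rw [Gamma0_mem]; exact hc
    simpa using inv_mem this
  · -- `g⁻¹ * stInv j ∈ Γ₀(p)` for `j = d / c`
    set c : ZMod p := ((g⁻¹ : SL(2, ℤ)) 1 0 : ZMod p) with hcdef
    set d : ZMod p := ((g⁻¹ : SL(2, ℤ)) 1 1 : ZMod p) with hddef
    have : NeZero p := ⟨hp.ne_zero⟩
    let j : Fin p := ⟨(d / c).val, ZMod.val_lt _⟩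
    refine ⟨some j, ?_⟩
    have h1 : g⁻¹ * stInv (j : ℕ) ∈ Gamma0 p := by
      rw [Gamma0_mem, mul_stInv_apply]
      push_cast
      have : (((d / c).val : ℕ) : ZMod p) = d / c := ZMod.natCast_zmod_val _
      rw [show ((j : ℕ) : ZMod p) = d / c from this, ← hcdef, ← hddef]
      field_simp
      ring
    have h2 := inv_mem h1
    simpa [cosetRep, _root_.mul_inv_rev] using h2


/-- The quotient `SL₂(ℤ) / Γ₀(p)` on the `GL₂(ℝ)` side, as used by Mathlib's trace and norm. -/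
abbrev Quo (p : ℕ) : Type :=
  𝒮ℒ ⧸ (Subgroup.map (mapGL ℝ) (Gamma0 p)).subgroupOf 𝒮ℒ

/-- Image in `𝒮ℒ` of an element of `SL(2, ℤ)`. -/
def toSL (g : SL(2, ℤ)) : 𝒮ℒ := ⟨mapGL ℝ g, ⟨g, rfl⟩⟩

@[simp] theorem coe_toSL (g : SL(2, ℤ)) : ((toSL g : 𝒮ℒ) : GL (Fin 2) ℝ) = mapGL ℝ g := rfl

theorem toSL_mul (g h : SL(2, ℤ)) : toSL (g * h) = toSL g * toSL h := by
  apply Subtype.ext; simp [toSL]

theorem toSL_inv (g : SL(2, ℤ)) : toSL g⁻¹ = (toSL g)⁻¹ := by
  apply Subtype.ext; simp [toSL]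

theorem toSL_mem_iff (g : SL(2, ℤ)) :
    toSL g ∈ (Subgroup.map (mapGL ℝ) (Gamma0 p)).subgroupOf 𝒮ℒ ↔ g ∈ Gamma0 p := by
  rw [Subgroup.mem_subgroupOf, coe_toSL]
  exact Subgroup.mem_map_iff_mem mapGL_injective

def cosetMap (p : ℕ) (a : Option (Fin p)) : Quo p := QuotientGroup.mk (toSL (cosetRep p a))

theorem cosetMap_bijective [Fact p.Prime] : Function.Bijective (cosetMap p) := by
  constructor
  · intro a b h
    rw [cosetMap, cosetMap, QuotientGroup.eq, ← toSL_inv, ← toSL_mul, toSL_mem_iff] at h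
    exact (cosetRep_inv_mul_mem_iff a b).mp h
  · intro q
    induction q using QuotientGroup.induction_on with
    | H g =>
      obtain ⟨g, ⟨g0, rfl⟩⟩ := g
      obtain ⟨a, ha⟩ := exists_cosetRep (p := p) g0
      refine ⟨a, ?_⟩
      rw [cosetMap, QuotientGroup.eq]
      have : (toSL (cosetRep p a))⁻¹ * ⟨mapGL ℝ g0, ⟨g0, rfl⟩⟩ = toSL ((cosetRep p a)⁻¹ * g0) := by
        rw [toSL_mul, toSL_inv]; rfl
      rw [this, toSL_mem_iff]
      exact ha

def cosetEquiv (p : ℕ) [Fact p.Prime] : Option (Fin p) ≃ Quo p :=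
  Equiv.ofBijective (cosetMap p) cosetMap_bijective

variable {k : ℤ}

theorem quotientFunc_cosetMap_none (F : ModularForm (Gamma0 p) k) :
    SlashInvariantForm.quotientFunc F (cosetMap p none) = ⇑F := by
  rw [cosetMap]
  show SlashInvariantForm.quotientFunc F ⟦toSL (cosetRep p none)⟧ = _
  rw [SlashInvariantForm.quotientFunc_mk]
  simp [cosetRep]

theorem quotientFunc_cosetMap_some (F : ModularForm (Gamma0 p) k) (j : Fin p) :
    SlashInvariantForm.quotientFunc F (cosetMap p (some j)) = ⇑F ∣[k] (mapGL ℝ (stMat (j : ℕ))) := by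
  rw [cosetMap]
  show SlashInvariantForm.quotientFunc F ⟦toSL (cosetRep p (some j))⟧ = _
  rw [SlashInvariantForm.quotientFunc_mk]
  simp [cosetRep, stInv_eq_inv]

theorem coe_trace_eq [Fact p.Prime] (F : ModularForm (Gamma0 p) k) :
    ⇑(ModularForm.trace 𝒮ℒ F) = ⇑F + ∑ j : Fin p, ⇑F ∣[k] (mapGL ℝ (stMat (j : ℕ))) := by
  rw [ModularForm.coe_trace]
  let _ : Fintype (Quo p) := Fintype.ofFinite _
  have h := Fintype.sum_equiv (cosetEquiv p)
    (fun a => SlashInvariantForm.quotientFunc F (cosetMap p a))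
    (fun q => SlashInvariantForm.quotientFunc F q) (fun a => rfl)
  refine h.symm.trans ?_
  rw [Fintype.sum_option, quotientFunc_cosetMap_none]
  simp_rw [quotientFunc_cosetMap_some]

theorem coe_norm_eq [Fact p.Prime] (F : ModularForm (Gamma0 p) k) :
    ⇑(ModularForm.norm 𝒮ℒ F) = ⇑F * ∏ j : Fin p, ⇑F ∣[k] (mapGL ℝ (stMat (j : ℕ))) := by
  rw [ModularForm.coe_norm]
  let _ : Fintype (Quo p) := Fintype.ofFinite _
  have h := Fintype.prod_equiv (cosetEquiv p)
    (fun a => SlashInvariantForm.quotientFunc F (cosetMap p a))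
    (fun q => SlashInvariantForm.quotientFunc F q) (fun a => rfl)
  refine h.symm.trans ?_
  rw [Fintype.prod_option, quotientFunc_cosetMap_none]
  simp_rw [quotientFunc_cosetMap_some]

theorem card_Quo [Fact p.Prime] : Nat.card (Quo p) = p + 1 := by
  rw [← Nat.card_congr (cosetEquiv p)]
  simp

end Fermat.Agent.S16
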