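import Fermat.Agent.S16.WTR_helper4_Mat

/-!
# S16 / UB-W/TR, part 2: the Fricke operator `W` on `M_k(Γ₀(p))`
-/

set_option autoImplicit false

noncomputable section

namespace Fermat.Agent.S16

open Matrix Matrix.SpecialLinearGroup CongruenceSubgroup UpperHalfPlane ModularForm
open scoped MatrixGroups ModularForm

variable {p : ℕ} {k : ℤ}

/-- Slash by a real-scalar multiple: if `A = c • B` as matrices (`c ≠ 0`, `det B > 0`), then
`f ∣[k] A = c ^ (k - 2) • f ∣[k] B`. -/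
theorem slash_eq_of_val_eq_smul (f : ℍ → ℂ) (A B : GL (Fin 2) ℝ) (c : ℝ) (hc : c ≠ 0)
    (hB : 0 < (B.det : ℝ))
    (hAB : (A : Matrix (Fin 2) (Fin 2) ℝ) = c • (B : Matrix (Fin 2) (Fin 2) ℝ)) :
    f ∣[k] A = ((c : ℂ) ^ (k - 2)) • f ∣[k] B := by
  have hdet : (A.det : ℝ) = c ^ 2 * (B.det : ℝ) := by
    rw [Matrix.GeneralLinearGroup.val_det_apply, Matrix.GeneralLinearGroup.val_det_apply, hAB,
      Matrix.det_smul]
    simp
  have hA : 0 < (A.det : ℝ) := by rw [hdet]; positivity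
  have hnum : ∀ τ : ℍ, num A τ = c * num B τ := fun τ => by
    simp [num, hAB]; ring
  have hden : ∀ τ : ℍ, denom A τ = c * denom B τ := fun τ => by
    simp [denom, hAB]; ring
  have hc' : (c : ℂ) ≠ 0 := by exact_mod_cast hc
  have hsm : ∀ τ : ℍ, A • τ = B • τ := fun τ => by
    apply UpperHalfPlane.ext
    rw [UpperHalfPlane.coe_smul_of_det_pos hA, UpperHalfPlane.coe_smul_of_det_pos hB, hnum, hden,
      mul_div_mul_left _ _ hc']
  ext τ
  rw [Pi.smul_apply, slash_apply, slash_apply, hsm, hden, smul_eq_mul]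
  have hσA : σ A = .refl ℝ ℂ := by rw [σ, if_pos hA]
  have hσB : σ B = .refl ℝ ℂ := by rw [σ, if_pos hB]
  rw [hσA, hσB, hdet]
  simp only [ContinuousAlgEquiv.refl_apply]
  rw [abs_of_pos (by positivity : 0 < c ^ 2 * (B.det : ℝ)), abs_of_pos hB]
  push_cast
  rw [mul_zpow, mul_zpow, ← zpow_natCast (c : ℂ) 2, ← _root_.zpow_mul]
  have h1 : ((c : ℂ) ^ (((2 : ℕ) : ℤ) * (k - 1))) * (c : ℂ) ^ (-k) = (c : ℂ) ^ (k - 2) := by
    rw [← zpow_add₀ hc']; congr 1; push_cast; ring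
  rw [← h1]
  ring


/-- The Fricke matrix `!![0, -1; p, 0]` in `GL₂(ℝ)`. -/
def wMat (p : ℕ) [NeZero p] : GL (Fin 2) ℝ :=
  Matrix.GeneralLinearGroup.mkOfDetNeZero !![0, -1; (p : ℝ), 0]
    (by simp [Matrix.det_fin_two_of, NeZero.ne])

@[simp] theorem val_wMat [NeZero p] :
    ((wMat p : GL (Fin 2) ℝ) : Matrix (Fin 2) (Fin 2) ℝ) = !![0, -1; (p : ℝ), 0] := rfl

theorem det_wMat [NeZero p] : ((wMat p).det : ℝ) = p := by
  rw [Matrix.GeneralLinearGroup.val_det_apply, val_wMat, Matrix.det_fin_two_of]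
  ring

theorem det_wMat_pos [NeZero p] : 0 < ((wMat p).det : ℝ) := by
  rw [det_wMat]; exact_mod_cast Nat.pos_of_ne_zero (NeZero.ne p)

theorem val_mapGL_stMat (j : ℤ) :
    ((mapGL ℝ (stMat j) : GL (Fin 2) ℝ) : Matrix (Fin 2) (Fin 2) ℝ) = !![0, -1; 1, (j : ℝ)] := by
  rw [mapGL_coe_matrix]
  ext a b
  fin_cases a <;> fin_cases b <;>
    simp [Matrix.SpecialLinearGroup.map_apply_coe, RingHom.mapMatrix_apply, coe_stMat]

theorem det_mapGL_pos (g : SL(2, ℤ)) : 0 < ((mapGL ℝ g : GL (Fin 2) ℝ).det : ℝ) := by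
  rw [det_mapGL]; simp

theorem val_wMat_mul_heckeMatrix [NeZero p] (j : ℕ) :
    ((wMat p * heckeMatrix p j : GL (Fin 2) ℝ) : Matrix (Fin 2) (Fin 2) ℝ) =
      (p : ℝ) • ((mapGL ℝ (stMat (j : ℤ)) : GL (Fin 2) ℝ) : Matrix (Fin 2) (Fin 2) ℝ) := by
  rw [Units.val_mul, val_wMat, val_heckeMatrix (NeZero.ne p), val_mapGL_stMat]
  ext a b
  fin_cases a <;> fin_cases b <;> simp [Matrix.mul_apply, Fin.sum_univ_two]

theorem val_wMat_mul_wMat [NeZero p] :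
    ((wMat p * wMat p : GL (Fin 2) ℝ) : Matrix (Fin 2) (Fin 2) ℝ) =
      (-(p : ℝ)) • ((1 : GL (Fin 2) ℝ) : Matrix (Fin 2) (Fin 2) ℝ) := by
  rw [Units.val_mul, val_wMat]
  ext a b
  fin_cases a <;> fin_cases b <;> simp [Matrix.mul_apply, Fin.sum_univ_two]


theorem val_mapGL_apply (g : SL(2, ℤ)) (a b : Fin 2) :
    ((mapGL ℝ g : GL (Fin 2) ℝ) : Matrix (Fin 2) (Fin 2) ℝ) a b = ((g a b : ℤ) : ℝ) := by
  rw [mapGL_coe_matrix]
  simp [Matrix.SpecialLinearGroup.map_apply_coe, RingHom.mapMatrix_apply]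

theorem exists_SL2_entries (a b c d : ℤ) (h : a * d - b * c = 1) :
    ∃ g : SL(2, ℤ), g 0 0 = a ∧ g 0 1 = b ∧ g 1 0 = c ∧ g 1 1 = d :=
  ⟨⟨!![a, b; c, d], by rw [Matrix.det_fin_two_of]; exact h⟩, by simp, by simp, by simp, by simp⟩

/-- The Fricke matrix normalises `Γ₀(p)`. -/
theorem exists_wMat_mul_mapGL [NeZero p] (γ : SL(2, ℤ)) (hγ : γ ∈ Gamma0 p) :
    ∃ γ' ∈ Gamma0 p, wMat p * mapGL ℝ γ = mapGL ℝ γ' * wMat p ∧
      mapGL ℝ γ * wMat p = wMat p * mapGL ℝ γ' := by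
  rw [Gamma0_mem, ZMod.intCast_zmod_eq_zero_iff_dvd] at hγ
  obtain ⟨c', hc'⟩ := hγ
  have hdet : γ 0 0 * γ 1 1 - γ 0 1 * γ 1 0 = 1 := by
    have := γ.det_coe
    rwa [Matrix.det_fin_two] at this
  obtain ⟨γ', h00, h01, h10, h11⟩ := exists_SL2_entries (γ 1 1) (-c') (-((p : ℤ) * γ 0 1)) (γ 0 0)
    (by rw [hc'] at hdet; linarith)
  refine ⟨γ', ?_, ?_, ?_⟩
  · rw [Gamma0_mem, h10]
    simp
  · apply Units.ext
    rw [Units.val_mul, Units.val_mul, val_wMat]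
    ext a b
    fin_cases a <;> fin_cases b <;>
      simp [Matrix.mul_apply, Fin.sum_univ_two, hc', h00, h01, h10, h11, mul_comm]
  · apply Units.ext
    rw [Units.val_mul, Units.val_mul, val_wMat]
    ext a b
    fin_cases a <;> fin_cases b <;>
      simp [Matrix.mul_apply, Fin.sum_univ_two, hc', h00, h01, h10, h11, mul_comm]

open ConjAct Pointwise in
theorem conj_wMat_smul [NeZero p] :
    toConjAct (wMat p)⁻¹ • (Subgroup.map (mapGL ℝ) (Gamma0 p)) =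
      Subgroup.map (mapGL ℝ) (Gamma0 p) := by
  ext x
  rw [Subgroup.mem_pointwise_smul_iff_inv_smul_mem, ConjAct.smul_def]
  simp only [map_inv, ofConjAct_toConjAct, inv_inv]
  constructor
  · rintro ⟨γ, hγ, hx⟩
    obtain ⟨γ', hγ', -, h2⟩ := exists_wMat_mul_mapGL γ hγ
    refine ⟨γ', hγ', ?_⟩
    have : x = (wMat p)⁻¹ * mapGL ℝ γ * wMat p := by
      rw [hx]; group
    rw [this, mul_assoc, h2, ← mul_assoc, inv_mul_cancel, one_mul]
  · rintro ⟨γ, hγ, rfl⟩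
    obtain ⟨γ', hγ', h1, -⟩ := exists_wMat_mul_mapGL γ hγ
    exact ⟨γ', hγ', by rw [h1, mul_assoc, mul_inv_cancel, mul_one]⟩

/-- The Fricke (Atkin–Lehner) operator `F ↦ F ∣[k] W` on `M_k(Γ₀(p))`. -/
def wOp [NeZero p] (F : ModularForm (Gamma0 p) k) : ModularForm (Gamma0 p) k where
  toFun := ⇑F ∣[k] wMat p
  slash_action_eq' γ hγ := by
    obtain ⟨γ0, hγ0, rfl⟩ := hγ
    obtain ⟨γ', hγ', h1, -⟩ := exists_wMat_mul_mapGL γ0 hγ0
    rw [← SlashAction.slash_mul, h1, SlashAction.slash_mul]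
    congr 1
    exact SlashInvariantFormClass.slash_action_eq F _ ⟨γ', hγ', rfl⟩
  holo' := (ModularFormClass.holo F).slash k (wMat p)
  bdd_at_cusps' hc := (ModularForm.translate F (wMat p)).bdd_at_cusps' (by rwa [conj_wMat_smul])

@[simp] theorem coe_wOp [NeZero p] (F : ModularForm (Gamma0 p) k) :
    ⇑(wOp F) = ⇑F ∣[k] wMat p := rfl

end Fermat.Agent.S16
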